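import Mathlib
import Fermat.Agent.JRED.LevelTwo

/-!
# The Hauptmodul `t4 = (η/η₄)⁸` of `X₀(4)` over any commutative ring

`t4 = (t2(q²) - 16 t2(q)) / (t2(q) + 16)`; `t2 (t4 + 16) = t4²`, `j t4⁴ (t4+16) = (t4² + 256 t4 + 4096)³`,
`(θ t4)⁶ = t4² (t4+16)⁵ Δ`.
-/

set_option autoImplicit false

open ModularCurve Polynomial

noncomputable section

namespace Fermat.Agent.Q2.Ord

open Fermat.Agent.S28 Fermat.Agent.S28.ModPoly Fermat.Agent.JRED.TruncPS
open Fermat.Agent.JRED.DeltaRel Fermat.Agent.JRED.LevelTwo Fermat.Agent.FunField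

section Ring

variable (R : Type*) [CommRing R]

/-- `t2(q²)` -/
def t2b : LaurentSeries R := qExpand R 2 (t2 R)

variable {R} in
theorem coeffMap_t2b {S : Type*} [CommRing S] (f : R →+* S) : coeffMap f (t2b R) = t2b S := by
  rw [t2b, coeffMap_qExpand, coeffMap_t2, t2b]

theorem jq2_mul_t2b_sq : qExpand R 2 (jqModC R) * t2b R ^ 2 = (t2b R + 256) ^ 3 := by
  have h := congrArg (qExpand R 2) (jq_mul_t2_sq R)
  simp only [map_mul, map_pow, map_add, map_ofNat] at h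
  exact h

theorem relR : (t2 R + 16) ^ 3 * t2b R ^ 2 = (t2b R + 256) ^ 3 * t2 R := by
  rw [← jq2_mul_t2b_sq, ← jq2_mul_t2]
  ring

theorem ge_t2b : Ge (-2) (t2b R) := by
  have := (ge_t2 R).qExpand (p := 2)
  exact Ge.mono (by norm_num) this

theorem coeff_t2b_neg_two : (t2b R).coeff (-2) = 1 := by
  rw [t2b, show (-2 : ℤ) = ((2 : ℕ) : ℤ) * (-1) by norm_num, qExpand_coeff_mul, coeff_t2_neg_one]

theorem t2_mul_t2b_ne [Nontrivial R] : t2 R * t2b R - 4096 ≠ 0 := by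
  intro h
  have h1 := Ge.coeff_mul (ge_t2 R) (ge_t2b R)
  rw [coeff_t2_neg_one, coeff_t2b_neg_two, mul_one] at h1
  have h2 : (t2 R * t2b R).coeff (-1 + -2) = ((4096 : ℤ) : LaurentSeries R).coeff (-3) := by
    rw [sub_eq_zero.mp h]
    norm_num
  rw [h1, ← L_C, L_coeff_neg R _ (by norm_num)] at h2
  exact one_ne_zero h2

theorem relG_int : t2b ℤ ^ 2 = (t2 ℤ ^ 2 + 48 * t2 ℤ) * t2b ℤ + 4096 * t2 ℤ := by
  have h := relR ℤ
  have h0 := t2_mul_t2b_ne ℤ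
  have h1 : (t2 ℤ * t2b ℤ - 4096) *
      (t2b ℤ ^ 2 - ((t2 ℤ ^ 2 + 48 * t2 ℤ) * t2b ℤ + 4096 * t2 ℤ)) = 0 := by
    linear_combination -h
  exact sub_eq_zero.mp ((mul_eq_zero.mp h1).resolve_left h0)

/-- `b² = (a² + 48 a) b + 4096 a`, `a = t2(q)`, `b = t2(q²)`. -/
theorem relG : t2b R ^ 2 = (t2 R ^ 2 + 48 * t2 R) * t2b R + 4096 * t2 R := by
  have h := congrArg (coeffMap (Int.castRingHom R)) relG_int
  simp only [map_pow, map_mul, map_add, coeffMap_t2, coeffMap_t2b, map_ofNat] at h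
  exact h

/-- the inverse of `t2 + 16` in `ℤ((q))` -/
theorem exists_inv_t2_add : ∃ w : LaurentSeries ℤ, (t2 ℤ + 16) * w = 1 := by
  have h1 : IsUnit (t2 ℤ + 16) := by
    have h3 : Ge (-1) (t2 ℤ + 16) := by
      refine (ge_t2 ℤ).add (Ge.mono (by norm_num : (-1 : ℤ) ≤ 0) ?_)
      have := Ge.natCast (R := ℤ) 16
      exact_mod_cast this
    have h4 : (t2 ℤ + 16).coeff (-1) = 1 := by
      have := coeff_intCast_neg_one (R := ℤ) 16
      push_cast at this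
      rw [HahnSeries.coeff_add, coeff_t2_neg_one, this, add_zero]
    have hne : t2 ℤ + 16 ≠ 0 := ne_zero_of_coeff h4
    have hord : (t2 ℤ + 16).order = -1 := by
      apply le_antisymm
      · exact HahnSeries.order_le_of_coeff_ne_zero (by rw [h4]; exact one_ne_zero)
      · rw [HahnSeries.le_order_iff_forall hne]
        intro i hi
        exact h3 i hi
    apply HahnSeries.isUnit_of_isUnit_leadingCoeff_AddUnitOrder
    · rw [HahnSeries.leadingCoeff_eq, hord, h4]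
      exact isUnit_one
    · exact AddGroup.isAddUnit _
  exact h1.exists_right_inv

/-- `1/(t2+16)` over `ℤ` -/
def t2Inv : LaurentSeries ℤ := exists_inv_t2_add.choose

theorem t2Inv_spec : (t2 ℤ + 16) * t2Inv = 1 := exists_inv_t2_add.choose_spec

/-- the Hauptmodul of `X₀(4)` over `ℤ` -/
def t4Z : LaurentSeries ℤ := (t2b ℤ - 16 * t2 ℤ) * t2Inv

/-- the Hauptmodul `(η/η₄)⁸` of `X₀(4)` -/
def t4 : LaurentSeries R := coeffMap (Int.castRingHom R) t4Z

variable {R} in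
theorem coeffMap_t4 {S : Type*} [CommRing S] (f : R →+* S) : coeffMap f (t4 R) = t4 S := by
  rw [t4, t4]
  ext k
  rw [coeffMap_coeff, coeffMap_coeff, coeffMap_coeff, eq_intCast, eq_intCast, map_intCast]

theorem t4_int : t4 ℤ = t4Z := by
  rw [t4]
  ext k
  rw [coeffMap_coeff]
  simp

theorem t4_mul_add : t4 R * (t2 R + 16) = t2b R - 16 * t2 R := by
  have h : t4Z * (t2 ℤ + 16) = t2b ℤ - 16 * t2 ℤ := by
    rw [t4Z, mul_assoc, mul_comm t2Inv, t2Inv_spec, mul_one]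
  have h1 := congrArg (coeffMap (Int.castRingHom R)) h
  simp only [map_pow, map_mul, map_add, map_sub, coeffMap_t2, coeffMap_t2b, map_ofNat] at h1
  exact h1

theorem t2_add_ne : t2 ℤ + 16 ≠ 0 := by
  intro h
  have := t2Inv_spec
  rw [h, zero_mul] at this
  exact zero_ne_one this

/-- `t2 (t4 + 16) = t4²` -/
theorem t2_mul_t4_add : t2 R * (t4 R + 16) = t4 R ^ 2 := by
  have h : t2 ℤ * (t4 ℤ + 16) = t4 ℤ ^ 2 := by
    have h1 := t4_mul_add ℤ
    have h2 := relG ℤ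
    apply mul_right_cancel₀ (pow_ne_zero 2 t2_add_ne)
    have e1 : t4 ℤ ^ 2 * (t2 ℤ + 16) ^ 2 = (t2b ℤ - 16 * t2 ℤ) ^ 2 := by rw [← h1]; ring
    have e2 : t2 ℤ * (t4 ℤ + 16) * (t2 ℤ + 16) ^ 2 =
        t2 ℤ * (t2 ℤ + 16) * (t2b ℤ - 16 * t2 ℤ + 16 * (t2 ℤ + 16)) := by rw [← h1]; ring
    rw [e1, e2]
    linear_combination -h2
  have h1 := congrArg (coeffMap (Int.castRingHom R)) h
  simp only [map_pow, map_mul, map_add, map_sub, coeffMap_t2, coeffMap_t4, map_ofNat] at h1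
  exact h1

/-- `t2(q²) = t4 (t4 + 16)` -/
theorem t2b_eq : t2b R = t4 R ^ 2 + 16 * t4 R := by
  have h1 := t4_mul_add R
  have h2 := t2_mul_t4_add R
  linear_combination h2 - h1

/-- `j t4⁴ (t4 + 16) = (t4² + 256 t4 + 4096)³` -/
theorem jq_mul_t4 : jqModC R * (t4 R ^ 4 * (t4 R + 16)) = (t4 R ^ 2 + 256 * t4 R + 4096) ^ 3 := by
  have h1 := jq_mul_t2_sq R
  have h2 := t2_mul_t4_add R
  have e1 : (t2 R + 256) * (t4 R + 16) = t4 R ^ 2 + 256 * t4 R + 4096 := by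
    linear_combination h2
  rw [← e1]
  linear_combination (t4 R + 16) ^ 3 * h1 -
    jqModC R * (t4 R + 16) * (t2 R * (t4 R + 16) + t4 R ^ 2) * h2

/-- `j(q²) t4² (t4 + 16)² = (t4² + 16 t4 + 256)³` -/
theorem jq2_mul_t4 : qExpand R 2 (jqModC R) * (t4 R ^ 2 * (t4 R + 16) ^ 2) =
    (t4 R ^ 2 + 16 * t4 R + 256) ^ 3 := by
  have h1 := jq2_mul_t2b_sq R
  rw [t2b_eq] at h1
  linear_combination h1

theorem sub_mul_t4 : (jqModC R - 1728) * (t4 R ^ 4 * (t4 R + 16)) =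
    (t4 R + 32) ^ 2 * (t4 R ^ 2 - 512 * t4 R - 8192) ^ 2 := by
  linear_combination jq_mul_t4 R

theorem order_of_ge {f : LaurentSeries ℤ} {m : ℤ} (h1 : Ge m f) (h2 : f.coeff m ≠ 0) :
    f.order = m := by
  have hne : f ≠ 0 := by rintro rfl; exact h2 rfl
  apply le_antisymm
  · exact HahnSeries.order_le_of_coeff_ne_zero h2
  · rw [HahnSeries.le_order_iff_forall hne]
    exact fun i hi => h1 i hi

theorem ge_of_order {f : LaurentSeries ℤ} {m : ℤ} (h : m ≤ f.order) : Ge m f :=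
  fun _ hi => HahnSeries.coeff_eq_zero_of_lt_order (lt_of_lt_of_le hi h)

theorem ge_ofNat (n : ℕ) [n.AtLeastTwo] {R : Type*} [CommRing R] :
    Ge 0 (OfNat.ofNat n : LaurentSeries R) := by
  have := Ge.natCast (R := R) (OfNat.ofNat n)
  exact_mod_cast this

theorem ge_t2_add : Ge (-1) (t2 ℤ + 16) :=
  (ge_t2 ℤ).add (Ge.mono (by norm_num) (ge_ofNat 16))

theorem coeff_t2_add : (t2 ℤ + 16).coeff (-1) = 1 := by
  rw [HahnSeries.coeff_add, coeff_t2_neg_one, ge_ofNat 16 (-1) (by norm_num), add_zero]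

theorem ge_t4_int : Ge (-1) (t4 ℤ) ∧ (t4 ℤ).coeff (-1) = 1 := by
  have hg : Ge (-2) (t2b ℤ - 16 * t2 ℤ) := by
    rw [sub_eq_add_neg]
    refine (ge_t2b ℤ).add (Ge.neg (Ge.mono (by norm_num : (-2 : ℤ) ≤ 0 + -1) ?_))
    exact (ge_ofNat 16).mul (ge_t2 ℤ)
  have hc : (t2b ℤ - 16 * t2 ℤ).coeff (-2) = 1 := by
    have h3 : (16 * t2 ℤ).coeff (-2) = 0 := ((ge_ofNat 16).mul (ge_t2 ℤ)) (-2) (by norm_num)
    rw [HahnSeries.coeff_sub, coeff_t2b_neg_two, h3, sub_zero]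
  have hprod := t4_mul_add ℤ
  have hne : t4 ℤ ≠ 0 := by
    intro h
    rw [h, zero_mul] at hprod
    rw [← hprod] at hc
    simp at hc
  have hord := congrArg HahnSeries.order hprod
  rw [HahnSeries.order_mul hne t2_add_ne, order_of_ge hg (by rw [hc]; exact one_ne_zero),
    order_of_ge ge_t2_add (by rw [coeff_t2_add]; exact one_ne_zero)] at hord
  have hge : Ge (-1) (t4 ℤ) := ge_of_order (by omega)
  refine ⟨hge, ?_⟩
  have h1 := Ge.coeff_mul hge ge_t2_add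
  rw [hprod, coeff_t2_add, mul_one] at h1
  rw [← h1]
  exact hc

theorem ge_t4 : Ge (-1) (t4 R) := fun i hi => by
  rw [← coeffMap_t4 (Int.castRingHom R), coeffMap_coeff, ge_t4_int.1 i hi, map_zero]

theorem coeff_t4_neg_one : (t4 R).coeff (-1) = 1 := by
  rw [← coeffMap_t4 (Int.castRingHom R), coeffMap_coeff, ge_t4_int.2, map_one]

theorem thetaD_t4_int : thetaD ℤ (t4 ℤ) ^ 6 = t4 ℤ ^ 2 * (t4 ℤ + 16) ^ 5 * L ℤ dz := by
  have h1 := t2_mul_t4_add ℤ
  have h2 := congrArg (thetaD ℤ) h1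
  have h16 : thetaD ℤ (16 : LaurentSeries ℤ) = 0 := by
    have := thetaD_intCast (R := ℤ) 16
    exact_mod_cast this
  rw [thetaD_mul, thetaD_pow, map_add, h16] at h2
  have h3 := thetaD_t2_pow ℤ
  have n1 : t4 ℤ ≠ 0 := ne_zero_of_coeff (coeff_t4_neg_one ℤ)
  have n2 : t4 ℤ + 32 ≠ 0 := by
    apply ne_zero_of_coeff
    rw [HahnSeries.coeff_add, coeff_t4_neg_one, ge_ofNat 32 (-1) (by norm_num), add_zero]
  push_cast at h2
  simp only [pow_one, add_zero] at h2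
  set t := t4 ℤ
  set a := t2 ℤ
  set Θ := thetaD ℤ t
  set ΘA := thetaD ℤ a
  have h4 : ΘA * (t + 16) ^ 2 = t * (t + 32) * Θ := by
    linear_combination (t + 16) * h2 - Θ * h1
  have h5 : (a + 64) * (t + 16) = (t + 32) ^ 2 := by
    linear_combination h1
  apply mul_right_cancel₀ (mul_ne_zero (pow_ne_zero 6 n1) (pow_ne_zero 6 n2))
  calc Θ ^ 6 * (t ^ 6 * (t + 32) ^ 6) = (t * (t + 32) * Θ) ^ 6 := by ring
    _ = ΘA ^ 6 * (t + 16) ^ 12 := by rw [← h4]; ring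
    _ = (a * (t + 16)) ^ 4 * ((a + 64) * (t + 16)) ^ 3 * (t + 16) ^ 5 * L ℤ dz := by rw [h3]; ring
    _ = _ := by rw [h1, h5]; ring

/-- `(θ t4)⁶ = t4² (t4 + 16)⁵ Δ` over any commutative ring -/
theorem thetaD_t4_pow (R : Type*) [CommRing R] :
    thetaD R (t4 R) ^ 6 = t4 R ^ 2 * (t4 R + 16) ^ 5 * L R dz := by
  have h := congrArg (coeffMap (Int.castRingHom R)) thetaD_t4_int
  simp only [map_pow, map_mul, map_add, coeffMap_t4, coeffMap_L, ← thetaD_coeffMap,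
    map_ofNat] at h
  exact h

end Ring

end Fermat.Agent.Q2.Ord
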