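import Mathlib
import Fermat.Agent.JRED.DeltaRel
import Fermat.Agent.JRED.ESNorm
import Fermat.Agent.Q2.OrdT4
import Fermat.Agent.S28.JFacts

/-!
# The supersingular polynomial: `P(j) Δ^{q-1} = 1` in characteristic `q`
-/

set_option autoImplicit false

open ModularCurve Polynomial

noncomputable section

namespace Fermat.Agent.Q2.Ord

open Fermat.Agent.S28 Fermat.Agent.S28.ModPoly Fermat.Agent.JRED.TruncPS
open Fermat.Agent.JRED.DeltaRel Fermat.Agent.JRED.LevelTwo Fermat.Agent.FunField

section Frob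

variable (k : Type*) [Field k] (p : ℕ) [hp : Fact p.Prime] [CharP k p]

/-- `f(t^p) = f(t)^p` if the coefficients of `f` are integers. -/
theorem qExpand_eq_pow (f : LaurentSeries ℤ) :
    qExpand k p (coeffMap (Int.castRingHom k) f) = coeffMap (Int.castRingHom k) f ^ p := by
  rw [Fermat.Agent.JRED.ES.laurent_pow_char p (coeffMap (Int.castRingHom k) f)]
  congr 1
  ext n
  rw [coeffMap_coeff, coeffMap_coeff, coeffMap_coeff, eq_intCast, map_intCast]

theorem qExpand_L_eq_pow (f : PowerSeries ℤ) : qExpand k p (L k f) = L k f ^ p := by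
  rw [← coeffMap_L (Int.castRingHom k), qExpand_eq_pow]

theorem qExpand_dInv_eq_pow : qExpand k p (dInv k) = dInv k ^ p := by
  rw [← coeffMap_dInv (Int.castRingHom k), qExpand_eq_pow]

theorem exists_hom_one : ∃ ψ : ZCyc p →+* k, Units.map (ψ : ZCyc p →* k) (zcyc p) = 1 := by
  have h1 : (cyclotomic p ℤ).eval₂ (Int.castRingHom k) (1 : k) = 0 := by
    rw [← eval_map, map_cyclotomic, eval_one_cyclotomic_prime]
    exact CharP.cast_eq_zero k p
  refine ⟨AdjoinRoot.lift (Int.castRingHom k) (1 : k) h1, ?_⟩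
  ext
  change AdjoinRoot.lift (Int.castRingHom k) (1 : k) h1 (AdjoinRoot.root (cyclotomic p ℤ)) = 1
  rw [AdjoinRoot.lift_root]

/-- the characteristic polynomial of `Δ(q^p)/Δ(q)` mod `p` -/
theorem deltaPoly_map_charP : (deltaPoly p).map (evJ k (J0 k p)) =
    X * (X - C (L k dz * qExpand k p (dInv k))) ^ p := by
  obtain ⟨ψ, hψ⟩ := exists_hom_one k p
  have h := congrArg (Polynomial.map (coeffMap ψ)) (deltaPoly_map_zcyc p)
  rw [Polynomial.map_map, comp_evJ, coeffMap_J0, Polynomial.map_prod, Fintype.prod_option] at h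
  rw [h]
  congr 1
  · rw [Polynomial.map_sub, Polynomial.map_X, Polynomial.map_C, coeffMap_uu, uu]
    have : ((cc p none : ℕ) : LaurentSeries k) = 0 := by
      change ((p : ℕ) : LaurentSeries k) = 0
      rw [← map_natCast (algebraMap k (LaurentSeries k)), CharP.cast_eq_zero, map_zero]
    rw [this, zero_pow (by norm_num), zero_mul, zero_mul, map_zero, sub_zero]
  · rw [Finset.prod_congr rfl (g := fun _ => X - C (L k dz * qExpand k p (dInv k)))]
    · simp
    · intro b _
      rw [Polynomial.map_sub, Polynomial.map_X, Polynomial.map_C, coeffMap_uu, uu, hψ]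
      change X - C (((1 : ℕ) : LaurentSeries k) ^ 12 *
        twist ((1 : kˣ) ^ (b : ℕ)) (L k dz) * qExpand k p (dInv k)) = _
      rw [one_pow, twist_one, Nat.cast_one, one_pow, one_mul]

/-- The supersingular polynomial (over `ℤ`): up to sign the linear coefficient of `deltaPoly`. -/
def ssPoly (p : ℕ) [hp : Fact p.Prime] : ℤ[X] := -(deltaPoly p).coeff 1

omit hp in
theorem charP_laurent : CharP (LaurentSeries k) p :=
  charP_of_injective_algebraMap (algebraMap k (LaurentSeries k)).injective p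

/-- `P(j) = Δ^{1-p}` in characteristic `p`. -/
theorem evJ_ssPoly : evJ k (jqModC k) (ssPoly p) = dInv k ^ (p - 1) := by
  have hchar := charP_laurent k p
  have h := congrArg (fun f => Polynomial.coeff f 1) (deltaPoly_map_charP k p)
  set y := L k dz * qExpand k p (dInv k) with hy
  have hfrob : (X - C y) ^ p = X ^ p - C (y ^ p) := by
    rw [sub_pow_char, C_pow]
  rw [coeff_map, hfrob, coeff_X_mul, coeff_sub, coeff_X_pow, if_neg hp.out.ne_zero.symm,
    coeff_C_zero, zero_sub] at h
  have h1 : evJ k (J0 k p) ((deltaPoly p).coeff 1) =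
      qExpand k p (evJ k (jqModC k) ((deltaPoly p).coeff 1)) := by
    rw [map_evJ]
    rfl
  have h2 : y ^ p = qExpand k p (dInv k ^ (p - 1)) := by
    rw [hy, mul_pow, ← qExpand_L_eq_pow, ← map_pow, ← map_mul]
    congr 1
    have hp1 : p = (p - 1) + 1 := (Nat.succ_pred_eq_of_pos hp.out.pos).symm
    calc L k dz * dInv k ^ p = L k dz * dInv k ^ ((p - 1) + 1) := by rw [← hp1]
      _ = (L k dz * dInv k) * dInv k ^ (p - 1) := by ring
      _ = _ := by rw [L_dz_mul_dInv, one_mul]
  rw [h1, h2, ← map_neg] at h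
  have h3 := qExpand_injective (R := k) p h
  rw [ssPoly, map_neg, h3, neg_neg]

/-- the supersingular polynomial over `k` -/
def ssPolyK : k[X] := (ssPoly p).map (Int.castRingHom k)

theorem evJ_eq_aeval (x : LaurentSeries k) (P : ℤ[X]) :
    evJ k x P = aeval x (P.map (Int.castRingHom k)) := by
  rw [evJ, coe_eval₂RingHom, aeval_def, eval₂_map]
  congr 1
  exact RingHom.ext_int _ _

/-- `P(j) = Δ^{1-p}` in characteristic `p`. -/
theorem aeval_ssPolyK : aeval (jqModC k) (ssPolyK k p) = dInv k ^ (p - 1) := by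
  rw [ssPolyK, ← evJ_eq_aeval, evJ_ssPoly]

theorem aeval_ssPolyK_mul : aeval (jqModC k) (ssPolyK k p) * L k dz ^ (p - 1) = 1 := by
  rw [aeval_ssPolyK, ← mul_pow, mul_comm (dInv k), L_dz_mul_dInv, one_pow]

omit hp [CharP k p] in
theorem ge_aeval_j (P : k[X]) : Ge (-(P.natDegree : ℤ)) (aeval (jqModC k) P) := by
  rw [aeval_eq_sum_range]
  refine Ge.sum fun i hi n hn => ?_
  rw [Algebra.smul_def, coeff_algebraMap_mul, coeff_jqModC_pow_of_lt, mul_zero]
  have := Finset.mem_range.mp hi
  omega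

theorem dInv_pow (n : ℕ) : Ge (-(n : ℤ)) (dInv k ^ n) ∧ (dInv k ^ n).coeff (-(n : ℤ)) = 1 := by
  induction n with
  | zero => exact ⟨by simpa using Ge.one (R := k), by simp⟩
  | succ n ih =>
    have h1 := ih.1.mul (Ge.dInv (R := k))
    have h2 := ih.1.coeff_mul (Ge.dInv (R := k))
    have h3 : (-(n : ℤ) + -1) = -((n + 1 : ℕ) : ℤ) := by push_cast; ring
    rw [h3] at h1 h2
    refine ⟨by rw [pow_succ]; exact h1, ?_⟩
    rw [pow_succ, h2, ih.2, coeff_dInv_neg_one, one_mul]

theorem ssPolyK_ne_zero : ssPolyK k p ≠ 0 := by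
  intro h
  have := aeval_ssPolyK_mul k p
  rw [h, map_zero, zero_mul] at this
  exact zero_ne_one this

theorem ssPolyK_natDegree : (ssPolyK k p).natDegree = p - 1 := by
  have h1 := dInv_pow k (p - 1)
  rw [← aeval_ssPolyK] at h1
  have h2 := aeval_j_coeff k (ssPolyK k p)
  have h3 := ge_aeval_j k (ssPolyK k p)
  apply le_antisymm
  · by_contra hcon
    push Not at hcon
    rw [h1.1 _ (by omega)] at h2
    exact ssPolyK_ne_zero k p (leadingCoeff_eq_zero.mp h2.symm)
  · by_contra hcon
    push Not at hcon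
    have h4 := h3 (-((p - 1 : ℕ) : ℤ)) (by omega)
    rw [h1.2] at h4
    exact one_ne_zero h4

theorem ssPolyK_monic : (ssPolyK k p).Monic := by
  have h1 := dInv_pow k (p - 1)
  rw [← aeval_ssPolyK] at h1
  have h2 := aeval_j_coeff k (ssPolyK k p)
  rw [ssPolyK_natDegree, h1.2] at h2
  exact h2.symm

end Frob

end Fermat.Agent.Q2.Ord
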