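import Mathlib
import Fermat.Agent.Q2.OrdSS
import Fermat.Agent.RH.Infinity
import Fermat.Agent.JRED.Interface
import Fermat.Agent.JRED.Degree

/-!
# Orders at ordinary places of `F̄_N` (characteristic `q`)
-/

set_option autoImplicit false

open ModularCurve Polynomial AlgebraicCurve

noncomputable section

namespace Fermat.Agent.Q2.Ord

section Abstract

variable {k F : Type*} [Field k] [Field F] [Algebra k F] (v : Place k F)

theorem ord_add_const {f : F} {c : k} (hc : c ≠ 0) (hf : f = 0 ∨ 0 < v.ord f) :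
    v.ord (f + algebraMap k F c) = 0 := by
  rcases hf with rfl | hf
  · rw [zero_add, Fermat.FF.ord_algebraMap]
  · have hf0 : f ≠ 0 := Fermat.FF.ne_zero_of_ord_ne_zero v hf.ne'
    have hc0 : algebraMap k F c ≠ 0 := by simpa using hc
    rw [add_comm, Fermat.FF.ord_add_of_lt v hc0 hf0 (by rw [Fermat.FF.ord_algebraMap]; exact hf),
      Fermat.FF.ord_algebraMap]

theorem ord_add_const_of_neg {f : F} {c : k} (hf : v.ord f < 0) :
    v.ord (f + algebraMap k F c) = v.ord f := by
  rcases eq_or_ne c 0 with rfl | hc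
  · rw [map_zero, add_zero]
  · exact Fermat.FF.ord_add_of_lt v (Fermat.FF.ne_zero_of_ord_ne_zero v hf.ne) (by simpa using hc)
      (by rw [Fermat.FF.ord_algebraMap]; exact hf)

theorem ord_mul_pos {f g : F} (hf : 0 < v.ord f) (hg : 0 ≤ v.ord g) :
    f * g = 0 ∨ 0 < v.ord (f * g) := by
  rcases eq_or_ne g 0 with rfl | hg0
  · left; rw [mul_zero]
  · right
    rw [v.ord_mul (Fermat.FF.ne_zero_of_ord_ne_zero v hf.ne') hg0]
    omega

/-- At a place where `j` is finite, `t4` and `t4 + 16` are units (`char ≠ 2`). -/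
theorem ord_t4_eq_zero {j t : F} (h2 : (2 : k) ≠ 0) (hj : 0 ≤ v.ord j) (hj0 : j ≠ 0)
    (h : j * (t ^ 4 * (t + 16)) = (t ^ 2 + 256 * t + 4096) ^ 3) (ht : t ≠ 0) (ht16 : t + 16 ≠ 0) :
    v.ord t = 0 ∧ v.ord (t + 16) = 0 := by
  have e16 : (16 : F) = algebraMap k F 16 := by rw [map_ofNat]
  have c16 : (16 : k) ≠ 0 := by
    rw [show (16 : k) = 2 ^ 4 by norm_num]; exact pow_ne_zero _ h2
  have c4096 : (4096 : k) ≠ 0 := by
    rw [show (4096 : k) = 2 ^ 12 by norm_num]; exact pow_ne_zero _ h2
  have c256 : (256 : k) ≠ 0 := by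
    rw [show (256 : k) = 2 ^ 8 by norm_num]; exact pow_ne_zero _ h2
  have hL : v.ord (j * (t ^ 4 * (t + 16))) = v.ord j + (4 * v.ord t + v.ord (t + 16)) := by
    rw [v.ord_mul hj0 (mul_ne_zero (pow_ne_zero _ ht) ht16), v.ord_mul (pow_ne_zero _ ht) ht16,
      Fermat.FF.ord_pow]
    push_cast
    ring
  have hR : v.ord ((t ^ 2 + 256 * t + 4096) ^ 3) = 3 * v.ord (t ^ 2 + 256 * t + 4096) := by
    rw [Fermat.FF.ord_pow]
    push_cast
    ring
  rw [h, hR] at hL
  rcases lt_trichotomy (v.ord t) 0 with h1 | h1 | h1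
  · exfalso
    have h3 : v.ord (t + 16) = v.ord t := by rw [e16]; exact ord_add_const_of_neg v h1
    have h4 : v.ord (t ^ 2 + 256 * t + 4096) = 2 * v.ord t := by
      have h5 : t ^ 2 + 256 * t + 4096 = aeval t (X ^ 2 + C 256 * X + C 4096 : k[X]) := by
        simp only [map_add, map_mul, map_pow, aeval_X, map_ofNat]
      have h6 : (X ^ 2 + C 256 * X + C 4096 : k[X]).natDegree = 2 := by compute_degree!
      have h7 : (X ^ 2 + C 256 * X + C 4096 : k[X]) ≠ 0 := by
        intro h0
        rw [h0, natDegree_zero] at h6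
        norm_num at h6
      rw [h5, Fermat.Agent.RH.ord_aeval h1 h7, h6]
      push_cast
      ring
    rw [h3, h4] at hL
    omega
  · refine ⟨h1, ?_⟩
    by_contra hne
    have h16 : 0 < v.ord (t + 16) := by
      rcases lt_or_gt_of_ne hne with h3 | h3
      · exfalso
        have h4 : (t + 16) ∈ v.toValuationSubring := by
          refine add_mem ((Fermat.FF.mem_iff_ord v ht).mpr h1.ge) ?_
          rw [e16]; exact v.algebraMap_mem' _
        have := Fermat.FF.ord_nonneg_of_mem v h4
        omega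
      · exact h3
    have h5 : v.ord (t ^ 2 + 256 * t + 4096) = 0 := by
      have h6 : t ^ 2 + 256 * t + 4096 = (t + 16) * (t + 240) + algebraMap k F 256 := by
        rw [map_ofNat]; ring
      rw [h6]
      apply ord_add_const v c256
      apply ord_mul_pos v h16
      have h7 : (t + 240) ∈ v.toValuationSubring := by
        refine add_mem ((Fermat.FF.mem_iff_ord v ht).mpr h1.ge) ?_
        rw [show (240 : F) = algebraMap k F 240 by rw [map_ofNat]]; exact v.algebraMap_mem' _
      exact Fermat.FF.ord_nonneg_of_mem v h7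
    rw [h5, h1] at hL
    omega
  · exfalso
    have h3 : v.ord (t + 16) = 0 := by rw [e16]; exact ord_add_const v c16 (Or.inr h1)
    have h5 : v.ord (t ^ 2 + 256 * t + 4096) = 0 := by
      have h6 : t ^ 2 + 256 * t + 4096 = t * (t + 256) + algebraMap k F 4096 := by
        rw [map_ofNat]; ring
      rw [h6]
      apply ord_add_const v c4096
      apply ord_mul_pos v h1
      have h7 : (t + 256) ∈ v.toValuationSubring := by
        refine add_mem ((Fermat.FF.mem_iff_ord v ht).mpr h1.le) ?_
        rw [show (256 : F) = algebraMap k F 256 by rw [map_ofNat]]; exact v.algebraMap_mem' _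
      exact Fermat.FF.ord_nonneg_of_mem v h7
    rw [h3, h5] at hL
    omega

end Abstract

section Modular

open Fermat.Agent.S28 Fermat.Agent.S28.ModPoly Fermat.Agent.FunField Fermat.Agent.JRED
open Fermat.Agent.JRED.LevelTwo Fermat.Agent.JRED.DeltaRel

variable {k : Type} [Field k] {q : ℕ} [hq : Fact q.Prime] [CharP k q] {N : ℕ}

theorem coe_injective {N : ℕ} {x y : modularFunctionFieldFullC k N}
    (h : (x : LaurentSeries k) = y) : x = y := Subtype.ext h

/-- the value of the supersingular polynomial -/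
def ssj (k : Type) [Field k] (q : ℕ) [Fact q.Prime] (N : ℕ) :
    modularFunctionFieldFullC k N := aeval (jRed k N) (ssPolyK k q)

theorem coe_ssj : ((ssj k q N : modularFunctionFieldFullC k N) : LaurentSeries k) =
    dInv k ^ (q - 1) := by
  rw [ssj, ← aeval_ssPolyK]
  exact coe_aeval_full (jRed k N) _

theorem ssj_ne_zero : ssj k q N ≠ 0 := by
  intro h
  have h1 := congrArg (algebraMap (modularFunctionFieldFullC k N) (LaurentSeries k)) h
  rw [map_zero] at h1
  have h2 : dInv k ^ (q - 1) = 0 := by rw [← coe_ssj (N := N)]; exact h1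
  have h3 : dInv k ≠ 0 := by
    intro h0
    have := L_dz_mul_dInv k
    rw [h0, mul_zero] at this
    exact zero_ne_one this
  exact pow_ne_zero _ h3 h2

omit hq [CharP k q] in
theorem dz_pow_mul : L k dz ^ (q - 1) * dInv k ^ (q - 1) = 1 := by
  rw [← mul_pow, L_dz_mul_dInv, one_pow]

/-- generic computation -/
theorem ord_of_identity (v : Place k (modularFunctionFieldFullC k N))
    {u w : modularFunctionFieldFullC k N} (hw : w ≠ 0) (hw0 : v.ord w = 0)
    (hss : v.ord (ssj k q N) = 0) {n : ℕ} (hn : n ≠ 0)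
    (h : (u : LaurentSeries k) ^ n = (w : LaurentSeries k) * L k dz ^ (q - 1)) : v.ord u = 0 := by
  have h1 : u ^ n * ssj k q N = w := by
    apply (algebraMap (modularFunctionFieldFullC k N) (LaurentSeries k)).injective
    rw [map_mul, map_pow]
    change (u : LaurentSeries k) ^ n * (ssj k q N : LaurentSeries k) = (w : LaurentSeries k)
    rw [h, coe_ssj, mul_assoc, dz_pow_mul, mul_one]
  have hu : u ≠ 0 := by
    rintro rfl
    rw [zero_pow hn, zero_mul] at h1
    exact hw h1.symm
  have h2 := congrArg v.ord h1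
  rw [v.ord_mul (pow_ne_zero _ hu) ssj_ne_zero, Fermat.FF.ord_pow, hss, hw0, add_zero] at h2
  rcases mul_eq_zero.mp h2 with h3 | h3
  · exact absurd (by exact_mod_cast h3) hn
  · exact h3

theorem t4_ne_zero (k : Type) [Field k] : t4 k ≠ 0 := ne_zero_of_coeff (coeff_t4_neg_one k)

theorem t4_add_ne_zero (k : Type) [Field k] : t4 k + 16 ≠ 0 := by
  apply ne_zero_of_coeff
  rw [HahnSeries.coeff_add, coeff_t4_neg_one, ge_ofNat 16 (-1) (by norm_num), add_zero]

/-- Finite ordinary places, `q` odd, `T = t4 ∈ F̄_N`: the function `(θ t4)^{q-1}` is a unit. -/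
theorem ord_theta_t4 (hq2 : q ≠ 2) (v : Place k (modularFunctionFieldFullC k N))
    (T : modularFunctionFieldFullC k N) (hT : (T : LaurentSeries k) = t4 k)
    (hj : 0 ≤ v.ord (jRed k N)) (hss : v.ord (ssj k q N) = 0)
    (u : modularFunctionFieldFullC k N)
    (hu : (u : LaurentSeries k) ^ 6 = (thetaD k (t4 k) ^ 6) ^ (q - 1)) : v.ord u = 0 := by
  have h2 : (2 : k) ≠ 0 := by
    intro h
    have h3 : ((2 : ℕ) : k) = 0 := by exact_mod_cast h
    rw [CharP.cast_eq_zero_iff k q] at h3
    exact hq2 ((Nat.prime_dvd_prime_iff_eq hq.out Nat.prime_two).mp h3)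
  have hT0 : T ≠ 0 := by
    rintro rfl
    exact t4_ne_zero k hT.symm
  have hiT : algebraMap (modularFunctionFieldFullC k N) (LaurentSeries k) T = t4 k := hT
  have hi16 : algebraMap (modularFunctionFieldFullC k N) (LaurentSeries k) (T + 16) =
      t4 k + 16 := by
    rw [map_add, map_ofNat, hiT]
  have hij : algebraMap (modularFunctionFieldFullC k N) (LaurentSeries k) (jRed k N) =
      jqModC k := rfl
  have hT16 : T + 16 ≠ 0 := by
    intro h
    rw [h, map_zero] at hi16
    exact t4_add_ne_zero k hi16.symm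
  have hj0 : jRed k N ≠ 0 := by
    intro h
    rw [h, map_zero] at hij
    exact jqModC_ne_zero_of_nontrivial k hij.symm
  have hrel : jRed k N * (T ^ 4 * (T + 16)) = (T ^ 2 + 256 * T + 4096) ^ 3 := by
    apply (algebraMap (modularFunctionFieldFullC k N) (LaurentSeries k)).injective
    simp only [map_mul, map_pow, map_add, map_ofNat, hiT, hij]
    exact jq_mul_t4 k
  obtain ⟨h5, h6⟩ := ord_t4_eq_zero v h2 hj hj0 hrel hT0 hT16
  refine ord_of_identity (q := q) v (w := (T ^ 2 * (T + 16) ^ 5) ^ (q - 1))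
    (pow_ne_zero _ (mul_ne_zero (pow_ne_zero _ hT0) (pow_ne_zero _ hT16))) ?_ hss
    (n := 6) (by norm_num) ?_
  · rw [Fermat.FF.ord_pow, v.ord_mul (pow_ne_zero _ hT0) (pow_ne_zero _ hT16),
      Fermat.FF.ord_pow, Fermat.FF.ord_pow, h5, h6]
    simp
  · have e1 : algebraMap (modularFunctionFieldFullC k N) (LaurentSeries k)
        ((T ^ 2 * (T + 16) ^ 5) ^ (q - 1)) = (t4 k ^ 2 * (t4 k + 16) ^ 5) ^ (q - 1) := by
      rw [map_pow, map_mul, map_pow, map_pow, hi16, hiT]
    rw [hu, thetaD_t4_pow, mul_pow]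
    exact congrArg (· * L k dz ^ (q - 1)) e1.symm

/-- `E4 = 1` in characteristic 2, 3 (and 5). -/
theorem jq_eq_dInv (hq3 : q = 2 ∨ q = 3) : jqModC k = dInv k := by
  have hE : L k eisenstein4 = 1 := by
    have h1 : PowerSeries.map (Int.castRingHom k) eisenstein4 = 1 := by
      have hc : ((240 : ℤ) : k) = 0 := by
        rw [CharP.intCast_eq_zero_iff k q]
        rcases hq3 with rfl | rfl <;> norm_num
      ext n
      rw [PowerSeries.coeff_map, eisenstein4, PowerSeries.coeff_mk, PowerSeries.coeff_one]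
      split_ifs with h0
      · rw [map_one]
      · rw [map_mul, eq_intCast, hc, zero_mul]
    rw [L, RingHom.comp_apply, h1, map_one]
  have h2 := jqModC_mul_deltaL k
  have h3 : deltaL k = L k dz := rfl
  have h4 : E4L k = L k eisenstein4 := rfl
  rw [h3, h4, hE, one_pow] at h2
  have h5 := L_dz_mul_dInv k
  calc jqModC k = jqModC k * (L k dz * dInv k) := by rw [h5, mul_one]
    _ = (jqModC k * L k dz) * dInv k := by ring
    _ = dInv k := by rw [h2, one_mul]

omit [CharP k q] in
theorem jRed_ne_zero : jRed k N ≠ 0 := by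
  intro h
  have h1 : algebraMap (modularFunctionFieldFullC k N) (LaurentSeries k) (jRed k N) =
      jqModC k := rfl
  rw [h, map_zero] at h1
  exact jqModC_ne_zero_of_nontrivial k h1.symm

/-- Finite ordinary places, `q = 2, 3`: the function `(θ j)^{q-1}` is a unit. -/
theorem ord_theta_j (hq3 : q = 2 ∨ q = 3) (v : Place k (modularFunctionFieldFullC k N))
    (hss : v.ord (ssj k q N) = 0)
    (u : modularFunctionFieldFullC k N)
    (hu : (u : LaurentSeries k) ^ 6 = (thetaD k (jqModC k) ^ 6) ^ (q - 1)) : v.ord u = 0 := by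
  have h1728 : (1728 : LaurentSeries k) = 0 := by
    have h1 : ((1728 : ℕ) : k) = 0 := by
      rw [CharP.cast_eq_zero_iff k q]
      rcases hq3 with rfl | rfl <;> norm_num
    have h2 := congrArg (algebraMap k (LaurentSeries k)) h1
    rw [map_natCast, map_zero] at h2
    exact_mod_cast h2
  have hij : algebraMap (modularFunctionFieldFullC k N) (LaurentSeries k) (jRed k N) =
      jqModC k := rfl
  have hs : ssj k q N = jRed k N ^ (q - 1) := by
    apply (algebraMap (modularFunctionFieldFullC k N) (LaurentSeries k)).injective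
    rw [map_pow, hij, jq_eq_dInv hq3]
    exact coe_ssj
  have hj : v.ord (jRed k N) = 0 := by
    rw [hs, Fermat.FF.ord_pow] at hss
    rcases mul_eq_zero.mp hss with h | h
    · exfalso
      have h1 : q - 1 = 0 := by exact_mod_cast h
      have := hq.out.one_lt
      omega
    · exact h
  refine ord_of_identity (q := q) v (w := (jRed k N ^ 7) ^ (q - 1))
    (pow_ne_zero _ (pow_ne_zero _ jRed_ne_zero)) ?_ hss (n := 6) (by norm_num) ?_
  · rw [Fermat.FF.ord_pow, Fermat.FF.ord_pow, hj]
    simp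
  · have e1 : algebraMap (modularFunctionFieldFullC k N) (LaurentSeries k)
        ((jRed k N ^ 7) ^ (q - 1)) = (jqModC k ^ 7) ^ (q - 1) := by
      rw [map_pow, map_pow, hij]
    have e2 : thetaD k (jqModC k) ^ 6 = jqModC k ^ 7 * L k dz := by
      rw [thetaD_jqModC_pow, h1728, sub_zero]
      change jqModC k ^ 4 * jqModC k ^ 3 * L k dz = _
      ring
    rw [hu, e2, mul_pow]
    exact congrArg (· * L k dz ^ (q - 1)) e1.symm

/-- Cusps: the function `(θ j / j)^{q-1}` is a unit. -/
theorem ord_theta_cusp (v : Place k (modularFunctionFieldFullC k N))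
    (hj : v.ord (jRed k N) < 0)
    (u : modularFunctionFieldFullC k N)
    (hu : (u : LaurentSeries k) ^ 6 * (jqModC k ^ 6) ^ (q - 1) =
      (thetaD k (jqModC k) ^ 6) ^ (q - 1)) : v.ord u = 0 := by
  have hij : algebraMap (modularFunctionFieldFullC k N) (LaurentSeries k) (jRed k N) =
      jqModC k := rfl
  have hi1728 : algebraMap (modularFunctionFieldFullC k N) (LaurentSeries k)
      (jRed k N - 1728) = jqModC k - 1728 := by
    rw [map_sub, map_ofNat, hij]
  have hordss : v.ord (ssj k q N) = ((q - 1 : ℕ) : ℤ) * v.ord (jRed k N) := by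
    rw [ssj, Fermat.Agent.RH.ord_aeval hj (ssPolyK_ne_zero k q), ssPolyK_natDegree]
  have h1728 : v.ord (jRed k N - 1728) = v.ord (jRed k N) := by
    have h1 : jRed k N - 1728 = jRed k N + algebraMap k _ (-1728) := by
      rw [map_neg, map_ofNat]; ring
    rw [h1]
    exact ord_add_const_of_neg v hj
  have h0 : jRed k N - 1728 ≠ 0 := by
    intro h
    rw [h, v.ord_zero] at h1728
    omega
  have hjq : jqModC k ≠ 0 := jqModC_ne_zero_of_nontrivial k
  have hid : u ^ 6 * ssj k q N * (jRed k N ^ 2) ^ (q - 1) = ((jRed k N - 1728) ^ 3) ^ (q - 1) := by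
    apply (algebraMap (modularFunctionFieldFullC k N) (LaurentSeries k)).injective
    rw [map_mul, map_mul, map_pow, map_pow, map_pow, map_pow, map_pow, hi1728, hij]
    change (u : LaurentSeries k) ^ 6 * (ssj k q N : LaurentSeries k) * _ = _
    have h3 : ((jqModC k ^ 4) ^ (q - 1) : LaurentSeries k) ≠ 0 :=
      pow_ne_zero _ (pow_ne_zero _ hjq)
    apply mul_right_cancel₀ h3
    rw [coe_ssj]
    have h4 := dz_pow_mul (k := k) (q := q)
    have h5 : deltaL k = L k dz := rfl
    rw [thetaD_jqModC_pow, h5] at hu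
    calc (u : LaurentSeries k) ^ 6 * dInv k ^ (q - 1) * (jqModC k ^ 2) ^ (q - 1) *
        (jqModC k ^ 4) ^ (q - 1) =
        ((u : LaurentSeries k) ^ 6 * (jqModC k ^ 6) ^ (q - 1)) * dInv k ^ (q - 1) := by
          rw [show jqModC k ^ 6 = jqModC k ^ 2 * jqModC k ^ 4 by ring, mul_pow]
          ring
      _ = ((jqModC k - 1728) ^ 3) ^ (q - 1) * (jqModC k ^ 4) ^ (q - 1) *
          (L k dz ^ (q - 1) * dInv k ^ (q - 1)) := by
          rw [hu, mul_pow, mul_pow]; ring
      _ = _ := by rw [h4, mul_one]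
  have hu0 : u ≠ 0 := by
    rintro rfl
    rw [zero_pow (by norm_num), zero_mul, zero_mul] at hid
    exact pow_ne_zero _ (pow_ne_zero _ h0) hid.symm
  have h6 := congrArg v.ord hid
  rw [v.ord_mul (mul_ne_zero (pow_ne_zero _ hu0) ssj_ne_zero)
      (pow_ne_zero _ (pow_ne_zero _ jRed_ne_zero)),
    v.ord_mul (pow_ne_zero _ hu0) ssj_ne_zero, Fermat.FF.ord_pow, Fermat.FF.ord_pow,
    Fermat.FF.ord_pow, Fermat.FF.ord_pow, Fermat.FF.ord_pow, h1728, hordss] at h6
  push_cast at h6
  have h7 : 6 * v.ord u = 0 := by linear_combination h6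
  omega

end Modular

end Fermat.Agent.Q2.Ord
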