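import Mathlib
import Fermat.Prelude.Def_ModularCurve_X0ModL
import Fermat.Agent.S28.Degree

set_option autoImplicit false

/-!
# The middle embedding of the function field of `X_0(N p²)`

`ι : F_{Np²}(K) → K((t))`, the identity on `F_{Np}(K)`, and `f(t^{p²}) ↦ f(ζ t)` for `f ∈ F_N(K)`,
where `ζ` is a primitive `p`-th root of unity.
-/

noncomputable section

namespace Fermat.Agent.Q2

open ModularCurve Polynomial IntermediateField Fermat.Agent.S28

section Mid

variable {K : Type} [Field K] {p : ℕ} [hp : Fact p.Prime]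

/-- common roots for the middle embedding -/
theorem common_root_mid {r : ℕ} [hr : Fact r.Prime] (hrp : r ≠ p) {ζ : Kˣ}
    (hζ : IsPrimitiveRoot ζ p) {η : Kˣ} (hη : IsPrimitiveRoot η r) {Φp Φr : ℤ[X][X]}
    (hΦp : ModPolySpec p Φp) (hΦr : ModPolySpec r Φr) {c : ℕ} (hc : c ≠ 0)
    {z : LaurentSeries K} (h1 : (PhiR Φr (jt (ζ ^ c) c)).eval z = 0)
    (h2 : (PhiR Φp (jt (1 : Kˣ) (p * (r * c)))).eval z = 0) :
    z = jt (ζ ^ (r * c)) (r * c) := by
  have hp0 := hp.out.pos
  have hr0 := hr.out.pos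
  have hp1 := hp.out.one_lt
  have hr1 := hr.out.one_lt
  have hc0 := Nat.pos_of_ne_zero hc
  -- write `ζ ^ c = v ^ r`
  obtain ⟨v, hv⟩ : ∃ v : Kˣ, v ^ r = ζ ^ c := by
    have hcop : Nat.Coprime r p := (Nat.coprime_primes hr.out hp.out).mpr hrp
    obtain ⟨s, hs⟩ := Nat.exists_mul_mod_eq_one_of_coprime hcop hp1
    refine ⟨ζ ^ (s * c), ?_⟩
    rw [← pow_mul]
    have hfin : IsOfFinOrder ζ := isOfFinOrder_iff_pow_eq_one.mpr ⟨p, hp.out.pos, hζ.pow_eq_one⟩
    rw [hfin.pow_eq_pow_iff_modEq, ← hζ.eq_orderOf]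
    have h3 : r * s ≡ 1 [MOD p] := by
      rw [Nat.ModEq, hs.2, Nat.mod_eq_of_lt hp1]
    calc s * c * r = (r * s) * c := by ring
      _ ≡ 1 * c [MOD p] := h3.mul_right c
      _ = c := one_mul c
  -- expand by `t ↦ t ^ r`
  have h1' : (PhiR Φr (jt (v ^ r) (r * c))).eval (qExpand K r z) = 0 := by
    have h3 : PhiR Φr (jt (v ^ r) (r * c)) = (PhiR Φr (jt (ζ ^ c) c)).map (qExpand K r) := by
      rw [PhiR_map, qExpand_jt, hv]
    rw [h3, eval_map, eval₂_at_apply, h1, map_zero]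
  have h2' := hΦp.eq_of_root hζ 1 (m := r * c) (by positivity) (x := z)
    (by rw [one_pow]; exact h2)
  rcases hΦr.eq_of_root hη v hc h1' with h3 | ⟨i, -, h3⟩
  · have h4 : jt (v ^ (r * r)) (r * r * c) = qExpand K r (jt (ζ ^ (r * c)) (r * c)) := by
      rw [qExpand_jt, pow_mul, hv, ← pow_mul, mul_comm c r, mul_assoc]
    rw [h4] at h3
    exact qExpand_injective (R := K) r h3
  · exfalso
    rcases h2' with h4 | ⟨j, -, h4⟩
    · rw [h4, qExpand_jt] at h3
      have h5 := (jt_inj (by positivity) hc h3).1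
      have h6 : c < r * (p * p * (r * c)) := by
        calc c = 1 * c := (one_mul c).symm
          _ < r * c := Nat.mul_lt_mul_of_pos_right hr1 hc0
          _ ≤ (r * c) * (r * (p * p)) := Nat.le_mul_of_pos_right _ (by positivity)
          _ = r * (p * p * (r * c)) := by ring
      omega
    · rw [h4, qExpand_jt] at h3
      have h5 := (jt_inj (by positivity) hc h3).1
      have h6 : c < r * (r * c) := by
        calc c = 1 * c := (one_mul c).symm
          _ < r * c := Nat.mul_lt_mul_of_pos_right hr1 hc0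
          _ ≤ r * (r * c) := Nat.le_mul_of_pos_left _ hr0
      omega

end Mid

section Exists

variable {K : Type} [Field K] [IsAlgClosed K] {p : ℕ} [hp : Fact p.Prime]

/-- The specification of the middle embedding. -/
structure IsMid (K : Type) [Field K] (N p : ℕ) (ζ : Kˣ)
    (ι : modularFunctionFieldFullC K (N * p ^ 2) →+* LaurentSeries K) : Prop where
  of_mem : ∀ (x : LaurentSeries K) (h : x ∈ modularFunctionFieldFullC K (N * p ^ 2)),
    x ∈ modularFunctionFieldFullC K (N * p) → ι ⟨x, h⟩ = x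
  jt_top : ∀ (d : ℕ) (h : jt (1 : Kˣ) (d * p ^ 2) ∈ modularFunctionFieldFullC K (N * p ^ 2)),
    d ∣ N → ι ⟨jt 1 (d * p ^ 2), h⟩ = jt (ζ ^ d) d

theorem exists_mid {N : ℕ} (hpN : ¬ p ∣ N) (hchar : ((N * p : ℕ) : K) ≠ 0) {ζ : Kˣ}
    (hζ : IsPrimitiveRoot ζ p) :
    ∃ ι : modularFunctionFieldFullC K (N * p ^ 2) →+* LaurentSeries K, IsMid K N p ζ ι := by
  have hΦ := modPolyAll
  obtain ⟨Φp, hΦp⟩ := hΦ p
  have hp0 : p ≠ 0 := hp.out.ne_zero
  have hp1 : 1 < p := hp.out.one_lt
  have hN : N ≠ 0 := by rintro rfl; exact hpN (dvd_zero p)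
  have hcharp : (p : K) ≠ 0 := by
    intro h; apply hchar; push_cast; rw [h, mul_zero]
  have hM0 : N * p ^ 1 ≠ 0 := Nat.mul_ne_zero hN (pow_ne_zero _ hp0)
  have hM0' : N * p ^ 2 ≠ 0 := Nat.mul_ne_zero hN (pow_ne_zero _ hp0)
  have hcharM : ((N * p ^ 1 : ℕ) : K) ≠ 0 := by rwa [pow_one]
  obtain ⟨⟨ι₀, hι₀⟩, -⟩ := tower hΦ jpNotMem (N * p ^ 1) hcharM
  let FM := modularFunctionFieldFullC K (N * p ^ 1)
  set x : LaurentSeries K := jt (1 : Kˣ) (p ^ 2) with hx
  have hA := caseA hΦp hζ (k := 0) hN hpN hι₀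
  obtain ⟨-, hadj⟩ := tower_step hΦ hN hpN hchar (k := 1) hι₀
    (by rw [show 1 + 1 = 0 + 2 from rfl, hA]; exact lowProd_eval_one)
  have hmem1 : jt (1 : Kˣ) (p ^ 1) ∈ FM := jt_mem_full K hM0 (dvd_mul_left _ _)
  have hmem0 : jt (1 : Kˣ) (p ^ 0) ∈ FM := jt_mem_full K hM0 (by simp)
  set P : FM[X] := PhiR Φp (⟨jt 1 (p ^ 1), hmem1⟩ : FM) with hP
  set a : FM := ⟨jt 1 (p ^ 0), hmem0⟩ with ha
  have hPmonic : P.Monic := PhiR_monic hΦp.monic _
  have hPdeg : P.natDegree = p + 1 := by rw [hP, PhiR_natDegree hΦp.monic, hΦp.natDegree_eq]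
  have hroot_a : P.IsRoot a := by
    apply Subtype.val_injective
    change algebraMap FM (LaurentSeries K) (P.eval a) = 0
    rw [← eval₂_at_apply, ← eval_map, hP, PhiR_map]
    have := hΦp.root_low_one hζ (m := p ^ 0) (by simp)
    rwa [← pow_succ'] at this
  obtain ⟨G, hG⟩ := dvd_iff_isRoot.mpr hroot_a
  have hGmonic : G.Monic := by
    have h1 := hPmonic
    rw [hG] at h1
    exact (monic_X_sub_C a).of_mul_monic_left h1
  have hGdeg : G.natDegree = p := by
    have h1 := congrArg natDegree hG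
    rw [hPdeg, natDegree_mul (X_sub_C_ne_zero a) hGmonic.ne_zero, natDegree_X_sub_C] at h1
    omega
  have hPx : aeval x P = 0 := by
    rw [aeval_def, ← eval_map, hP, PhiR_map]
    have := hΦp.root_high hζ (m := p ^ 1) (pow_ne_zero _ hp0)
    rwa [← pow_succ'] at this
  have hxa : x ≠ algebraMap FM (LaurentSeries K) a := by
    intro h
    have h1 : jt (1 : Kˣ) (p ^ 2) = jt 1 (p ^ 0) := h
    have h2 := (jt_inj (pow_ne_zero _ hp0) (pow_ne_zero _ hp0) h1).1
    have h3 := Nat.pow_right_injective hp.out.two_le h2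
    omega
  have hGx : aeval x G = 0 := by
    rw [hG, map_mul, map_sub, aeval_X, aeval_C] at hPx
    exact (mul_eq_zero.mp hPx).resolve_left (sub_ne_zero.mpr hxa)
  have hxint : IsIntegral FM x := ⟨P, hPmonic, hPx⟩
  have hμG : minpoly FM x ∣ G := minpoly.dvd FM x hGx
  have hμdeg : (minpoly FM x).natDegree = p := by
    have := congrArg natDegree hA
    rwa [natDegree_map, lowProd_natDegree] at this
  have hμ : minpoly FM x = G :=
    (eq_of_monic_of_dvd_of_natDegree_le (minpoly.monic hxint) hGmonic hμG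
      (by rw [hμdeg, hGdeg])).symm
  have hζ1 : ζ ≠ 1 := hζ.ne_one hp1
  -- `j(ζ t)` is a root of the minimal polynomial
  have hirr : ((minpoly FM x).map (algebraMap FM (LaurentSeries K))).eval (jt ζ 1) = 0 := by
    have h1 : (P.map (algebraMap FM (LaurentSeries K))).eval (jt ζ 1) = 0 := by
      rw [hP, PhiR_map]
      have h2 := hΦp.root_low hζ ζ (m := 1) one_ne_zero
      rw [hζ.pow_eq_one, mul_one] at h2
      change (PhiR Φp (jt (1 : Kˣ) (p ^ 1))).eval _ = 0
      rwa [pow_one]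
    rw [hG, Polynomial.map_mul, eval_mul, Polynomial.map_sub, map_X, map_C, eval_sub, eval_X,
      eval_C] at h1
    rw [hμ]
    refine (mul_eq_zero.mp h1).resolve_left (sub_ne_zero.mpr fun h2 => hζ1 ?_)
    have h3 : jt ζ 1 = jt (1 : Kˣ) (p ^ 0) := h2
    exact (jt_inj one_ne_zero (pow_ne_zero _ hp0) h3).2
  obtain ⟨ι'', hext, hgen⟩ := exists_extend_simple (algebraMap FM (LaurentSeries K)) hxint hirr
  let E := IntermediateField.adjoin FM {x}
  have hFE : ∀ a : LaurentSeries K, a ∈ FM → a ∈ E := fun a ha =>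
    IntermediateField.algebraMap_mem E ⟨a, ha⟩
  have hextmem : ∀ (a : LaurentSeries K) (ha : a ∈ FM), ι'' ⟨a, hFE a ha⟩ = a :=
    fun a ha => hext ⟨a, ha⟩
  have hle : modularFunctionFieldFullC K (N * p ^ 2) ≤ E.restrictScalars K := le_of_eq hadj
  have hmemE : ∀ d, d ∣ N → jt (1 : Kˣ) (d * p ^ 2) ∈ E := fun d hd =>
    hle (jt_mem_full K hM0' (Nat.mul_dvd_mul hd dvd_rfl))
  -- the key claim
  have claim : ∀ d (hd : d ∣ N), ι'' ⟨jt (1 : Kˣ) (d * p ^ 2), hmemE d hd⟩ = jt (ζ ^ d) d := by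
    intro d
    induction d using Nat.strong_induction_on with
    | _ d ih =>
    intro hd
    have hd0 : d ≠ 0 := by rintro rfl; exact hN (Nat.eq_zero_of_zero_dvd hd)
    by_cases hd1 : d = 1
    · subst hd1
      have h1 : jt (1 : Kˣ) (1 * p ^ 2) = x := by rw [one_mul]
      rw [pow_one, ← hgen]
      congr 1
      apply Subtype.ext
      rw [IntermediateField.AdjoinSimple.coe_gen]
      exact h1
    · have hrp : (d.minFac).Prime := Nat.minFac_prime hd1
      set r := d.minFac with hr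
      have : Fact r.Prime := ⟨hrp⟩
      obtain ⟨d', hd'⟩ : r ∣ d := Nat.minFac_dvd d
      obtain ⟨Φr, hΦr⟩ := hΦ r
      have hd'0 : d' ≠ 0 := by rintro rfl; exact hd0 (by rw [hd', mul_zero])
      have hd'lt : d' < d := by
        rw [hd']
        have := hrp.one_lt
        have h3 := Nat.pos_of_ne_zero hd'0
        nlinarith
      have hd'M : d' ∣ N := (Dvd.intro_left r hd'.symm).trans hd
      have hrM : r ∣ N := (Nat.minFac_dvd d).trans hd
      have hrne : r ≠ p := by
        intro h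
        exact hpN (h ▸ hrM)
      have hcharr : (r : K) ≠ 0 := by
        intro h
        obtain ⟨c, hc⟩ := hrM
        apply hchar
        rw [hc]
        push_cast
        rw [h, zero_mul, zero_mul]
      obtain ⟨η, hη⟩ := exists_unit_primitiveRoot (K := K) (n := r) hcharr
      have hval' := ih d' hd'lt hd'M
      have hmem' := hmemE d' hd'M
      have hdp : d * p ^ 1 ∣ N * p ^ 1 := Nat.mul_dvd_mul hd dvd_rfl
      have hmemQ : jt (1 : Kˣ) (d * p ^ 1) ∈ FM := jt_mem_full K hM0 hdp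
      set P' : E[X] := PhiR Φr (⟨jt 1 (d' * p ^ 2), hmem'⟩ : E) with hP'
      set Q : E[X] := PhiR Φp (⟨jt 1 (d * p ^ 1), hFE _ hmemQ⟩ : E) with hQ
      have hPy : aeval (jt (1 : Kˣ) (d * p ^ 2)) P' = 0 := by
        rw [aeval_def, ← eval_map, hP', PhiR_map]
        change (PhiR Φr (jt (1 : Kˣ) (d' * p ^ 2))).eval _ = 0
        have := hΦr.root_high hη (m := d' * p ^ 2)
          (Nat.mul_ne_zero hd'0 (pow_ne_zero _ hp0))
        rwa [← mul_assoc, ← hd'] at this
      have hQy : aeval (jt (1 : Kˣ) (d * p ^ 2)) Q = 0 := by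
        rw [aeval_def, ← eval_map, hQ, PhiR_map]
        change (PhiR Φp (jt (1 : Kˣ) (d * p ^ 1))).eval _ = 0
        have := hΦp.root_high hζ (m := d * p ^ 1) (Nat.mul_ne_zero hd0 (pow_ne_zero _ hp0))
        rwa [show p * (d * p ^ 1) = d * p ^ 2 by ring] at this
      have hroot : ∀ R : E[X], aeval (jt (1 : Kˣ) (d * p ^ 2)) R = 0 →
          (R.map ι'').eval (ι'' ⟨jt 1 (d * p ^ 2), hmemE d hd⟩) = 0 := by
        intro R hR
        rw [eval_map, eval₂_at_apply]
        have : R.eval (⟨jt 1 (d * p ^ 2), hmemE d hd⟩ : E) = 0 := by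
          apply Subtype.val_injective
          change algebraMap E (LaurentSeries K) _ = 0
          rw [← hR, aeval_def, ← eval₂_at_apply]
          rfl
        rw [this, map_zero]
      have hv1 := hroot P' hPy
      have hv2 := hroot Q hQy
      rw [hP', PhiR_map, hval'] at hv1
      have hQval : ι'' ⟨jt 1 (d * p ^ 1), hFE _ hmemQ⟩ = jt 1 (p * (r * d')) := by
        rw [hextmem _ hmemQ, pow_one, mul_comm d p, ← hd']
      rw [hQ, PhiR_map, hQval] at hv2
      have h9 := common_root_mid hrne hζ hη hΦp hΦr hd'0 hv1 hv2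
      rw [← hd'] at h9
      exact h9
  let f : modularFunctionFieldFullC K (N * p ^ 2) →+* E :=
      (algebraMap (modularFunctionFieldFullC K (N * p ^ 2)) (LaurentSeries K)).codRestrict
        E (fun a => hle a.2)
  refine ⟨ι''.comp f, ?_, ?_⟩
  · intro y h hy
    have hy' : y ∈ FM := by
      show y ∈ modularFunctionFieldFullC K (N * p ^ 1)
      rwa [pow_one]
    exact hextmem y hy'
  · intro d h hd
    exact claim d hd

end Exists

end Fermat.Agent.Q2
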