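import Mathlib
import Fermat.Agent.JRED.GaussRing
import Fermat.Agent.S28.ModPolyMain
import Fermat.Agent.FunField.ThetaD

set_option autoImplicit false

/-!
# Gauss reductions: compatibility with coefficient automorphisms, twists, expansions, and the
# reduction of `(f(ζt) - f(t)) / (ζ - 1)`
-/

noncomputable section

namespace Fermat.Agent.Q2

open HahnSeries ModularCurve Fermat.Agent.JRED Fermat.Agent.S28
open Fermat.Agent.FunField (thetaD thetaD_mul thetaD_coeff thetaD_coeffMap thetaD_one)

section Basic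

variable {K k : Type*} [Field K] [Field k] {A : ValuationSubring K} {π : A →+* k}

/-- `τ` preserves `A` and acts trivially on the residue field. -/
def IsInert (π : A →+* k) (τ : K →+* K) : Prop :=
  ∀ a : A, ∃ h : τ a ∈ A, π ⟨τ a, h⟩ = π a

/-- The restriction of an inertial map to `A`. -/
def IsInert.res {τ : K →+* K} (h : IsInert π τ) : A →+* A :=
  (τ.comp A.subtype).codRestrict A fun a => (h a).1

theorem IsInert.coe_res {τ : K →+* K} (h : IsInert π τ) (a : A) : (h.res a : K) = τ a := rfl

theorem IsInert.comp_res {τ : K →+* K} (h : IsInert π τ) : π.comp h.res = π :=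
  RingHom.ext fun a => (h a).2

theorem GRed.galois {τ : K →+* K} (h : IsInert π τ) {f : LaurentSeries K} {u : LaurentSeries k}
    (hf : GRed π f u) : GRed π (coeffMap τ f) u := by
  obtain ⟨a, b, hb, h1, h2⟩ := hf
  have h3 : ∀ x : LaurentSeries A, coeffMap π (coeffMap h.res x) = coeffMap π x := by
    intro x
    rw [coeffMap_coeffMap, h.comp_res]
  have h4 : ∀ x : LaurentSeries A, coeffMap A.subtype (coeffMap h.res x) =
      coeffMap τ (coeffMap A.subtype x) := by
    intro x
    rw [coeffMap_coeffMap, coeffMap_coeffMap]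
    rfl
  refine ⟨coeffMap h.res a, coeffMap h.res b, ?_, ?_, ?_⟩
  · rwa [h3]
  · rw [h4, h4, ← h1, map_mul]
  · rw [h3, h3, h2]

theorem GRed.qExpand {f : LaurentSeries K} {u : LaurentSeries k} (hf : GRed π f u) (n : ℕ)
    [NeZero n] : GRed π (ModularCurve.qExpand K n f) (ModularCurve.qExpand k n u) := by
  obtain ⟨a, b, hb, h1, h2⟩ := hf
  refine ⟨ModularCurve.qExpand A n a, ModularCurve.qExpand A n b, ?_, ?_, ?_⟩
  · rw [coeffMap_qExpand]
    intro h0
    apply hb
    apply qExpand_injective (R := k) n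
    rw [h0, map_zero]
  · rw [coeffMap_qExpand, coeffMap_qExpand, ← h1, map_mul]
  · rw [coeffMap_qExpand, coeffMap_qExpand, ← h2, map_mul]

/-- twist by an integral unit -/
theorem GRed.twist {f : LaurentSeries K} {v : LaurentSeries k} (hf : GRed π f v) (z : Aˣ) :
    GRed π (S28.twist (Units.map (A.subtype : A →* K) z) f)
      (S28.twist (Units.map (π : A →* k) z) v) := by
  obtain ⟨a, b, hb, h1, h2⟩ := hf
  refine ⟨S28.twist z a, S28.twist z b, ?_, ?_, ?_⟩
  · rw [ModPoly.coeffMap_twist]
    intro h0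
    apply hb
    apply twist_injective (Units.map (π : A →* k) z)
    rw [h0, map_zero]
  · rw [ModPoly.coeffMap_twist, ModPoly.coeffMap_twist, ← h1, map_mul]
  · rw [ModPoly.coeffMap_twist, ModPoly.coeffMap_twist, ← h2, map_mul]

/-- a unit of `K` which is integral with residue `1` comes from a unit of `A` -/
theorem exists_unit_of_residue (hπ : Function.Surjective π) {ζ : Kˣ} {h : (ζ : K) ∈ A}
    (h1 : π ⟨ζ, h⟩ = 1) : ∃ z : Aˣ, Units.map (A.subtype : A →* K) z = ζ ∧
      Units.map (π : A →* k) z = 1 := by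
  have hu : IsUnit (⟨ζ, h⟩ : A) := isUnit_of_res_ne_zero hπ (by rw [h1]; exact one_ne_zero)
  refine ⟨hu.unit, ?_, ?_⟩
  · apply Units.ext
    rfl
  · apply Units.ext
    exact h1

theorem GRed.twist_one_residue (hπ : Function.Surjective π) {f : LaurentSeries K}
    {v : LaurentSeries k} (hf : GRed π f v) {ζ : Kˣ} {h : (ζ : K) ∈ A} (h1 : π ⟨ζ, h⟩ = 1) :
    GRed π (S28.twist ζ f) v := by
  obtain ⟨z, rfl, hz⟩ := exists_unit_of_residue hπ h1
  have h2 := GRed.twist hf z
  rwa [hz, twist_one] at h2

end Basic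

section Diff

variable {A k : Type*} [CommRing A] [CommRing k] (π : A →+* k)

/-- `(z^n - 1)/(z - 1)` for a unit `z` with residue one, `n ∈ ℤ`. -/
theorem exists_qNumber (z : Aˣ) (hz : π z = 1) (n : ℤ) :
    ∃ e : A, ((z ^ n : Aˣ) : A) - 1 = ((z : A) - 1) * e ∧ π e = n := by
  induction n using Int.induction_on with
  | zero => exact ⟨0, by simp, by simp⟩
  | succ n ih =>
    obtain ⟨e, h1, h2⟩ := ih
    refine ⟨z * e + 1, ?_, ?_⟩
    · rw [zpow_add_one, Units.val_mul]
      linear_combination (z : A) * h1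
    · rw [map_add, map_mul, hz, h2, map_one]
      push_cast
      ring
  | pred n ih =>
    obtain ⟨e, h1, h2⟩ := ih
    have hzi : π ((z⁻¹ : Aˣ) : A) = 1 := by
      have := congrArg π (z.inv_mul)
      rwa [map_mul, hz, mul_one, map_one] at this
    have hzz : (z : A) * ((z⁻¹ : Aˣ) : A) = 1 := z.mul_inv
    refine ⟨((z⁻¹ : Aˣ) : A) * (e - 1), ?_, ?_⟩
    · rw [zpow_sub_one, Units.val_mul]
      linear_combination ((z⁻¹ : Aˣ) : A) * h1 + hzz
    · rw [map_mul, hzi, map_sub, h2, map_one]
      push_cast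
      ring

/-- `(a(zt) - a(t))/(z-1)` over `A`. -/
theorem exists_diffSeries (z : Aˣ) (hz : π z = 1) (a : LaurentSeries A) :
    ∃ D : LaurentSeries A, S28.twist z a - a = (HahnSeries.C ((z : A) - 1)) * D ∧
      coeffMap π D = thetaD k (coeffMap π a) := by
  choose e he1 he2 using exists_qNumber π z hz
  let D : LaurentSeries A :=
    { coeff := fun n => e n * a.coeff n
      isPWO_support' := a.isPWO_support.mono fun n hn h => hn (by simp [h]) }
  refine ⟨D, ?_, ?_⟩
  · ext n
    rw [HahnSeries.coeff_sub, twist_coeff, HahnSeries.C_apply, HahnSeries.coeff_single_zero_mul]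
    change _ = ((z : A) - 1) * (e n * a.coeff n)
    rw [← mul_assoc, ← he1 n]
    ring
  · ext n
    rw [coeffMap_coeff, thetaD_coeff, coeffMap_coeff]
    change π (e n * a.coeff n) = _
    rw [map_mul, he2]

end Diff

section DiffRed

variable {K k : Type*} [Field K] [Field k] {A : ValuationSubring K} {π : A →+* k}

/-- The reduction of `(f(ζt) - f(t))/(ζ-1)` is `θ f̄`. -/
theorem GRed.diff (hπ : Function.Surjective π) {f : LaurentSeries K} {v : LaurentSeries k}
    (hf : GRed π f v) {ζ : Kˣ} (hζ1 : (ζ : K) ≠ 1) {h : (ζ : K) ∈ A} (h1 : π ⟨ζ, h⟩ = 1) :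
    GRed π (algebraMap K (LaurentSeries K) ((ζ : K) - 1)⁻¹ * (S28.twist ζ f - f))
      (thetaD k v) := by
  obtain ⟨z, hzζ, hz⟩ := exists_unit_of_residue hπ h1
  have hz' : π (z : A) = 1 := by
    have := congrArg (Units.val) hz
    exact this
  obtain ⟨a, b, hb, hab, hab'⟩ := hf
  obtain ⟨Da, ha1, ha2⟩ := exists_diffSeries π z hz' a
  obtain ⟨Db, hb1, hb2⟩ := exists_diffSeries π z hz' b
  have htb : coeffMap π (S28.twist z b) = coeffMap π b := by
    rw [ModPoly.coeffMap_twist, hz, twist_one]
  have hc : ((z : A) : K) = (ζ : K) := by rw [← hzζ]; rfl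
  -- images in `K((t))`
  have hmap : ∀ x : LaurentSeries A, coeffMap A.subtype (S28.twist z x) =
      S28.twist ζ (coeffMap A.subtype x) := by
    intro x
    rw [ModPoly.coeffMap_twist, ← hzζ]
  have hC : coeffMap A.subtype (HahnSeries.C ((z : A) - 1)) =
      algebraMap K (LaurentSeries K) ((ζ : K) - 1) := by
    rw [coeffMap_const, algebraMap_eq_C]
    congr 1
    rw [map_sub, map_one]
    congr 1
  have ha1' := congrArg (coeffMap A.subtype) ha1
  have hb1' := congrArg (coeffMap A.subtype) hb1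
  rw [map_sub, map_mul, hmap, hC] at ha1' hb1'
  have hab2 : S28.twist ζ f * S28.twist ζ (coeffMap A.subtype b) =
      S28.twist ζ (coeffMap A.subtype a) := by
    rw [← hab, map_mul]
  have hne : algebraMap K (LaurentSeries K) ((ζ : K) - 1) ≠ 0 := by
    rw [Ne, map_eq_zero]
    exact sub_ne_zero.mpr hζ1
  refine ⟨Da * b - a * Db, b * S28.twist z b, ?_, ?_, ?_⟩
  · rw [map_mul, htb]
    exact mul_ne_zero hb hb
  · rw [map_mul, map_sub, map_mul, map_mul, hmap, map_inv₀]
    set c := algebraMap K (LaurentSeries K) ((ζ : K) - 1)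
    set tb := S28.twist ζ (coeffMap A.subtype b)
    set ta := S28.twist ζ (coeffMap A.subtype a)
    set b' := coeffMap A.subtype b
    set a' := coeffMap A.subtype a
    set Da' := coeffMap A.subtype Da
    set Db' := coeffMap A.subtype Db
    have h5 : c * (Da' * b' - a' * Db') = (S28.twist ζ f - f) * (b' * tb) := by
      linear_combination -b' * ha1' + a' * hb1' - b' * hab2 + tb * hab
    rw [mul_assoc, ← h5, ← mul_assoc, inv_mul_cancel₀ hne, one_mul]
  · rw [map_mul, htb, map_sub, map_mul, map_mul, ha2, hb2]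
    have h6 := congrArg (thetaD k) hab'
    rw [thetaD_mul] at h6
    linear_combination coeffMap π b * h6 - thetaD k (coeffMap π b) * hab'

end DiffRed

end Fermat.Agent.Q2
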