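import Mathlib
import Fermat.Agent.JRED.ESSemi
import Fermat.Agent.Q2.MidEmb
import Fermat.Agent.Q2.Gauss

set_option autoImplicit false

/-!
# Field homomorphisms out of `F_M(K)`; the middle embedding and Galois conjugation
-/

noncomputable section

namespace Fermat.Agent.Q2

open HahnSeries ModularCurve Fermat.Agent.JRED Fermat.Agent.S28

section Ind

variable {K : Type*} [Field K] {M : ℕ}

/-- A subfield of `F_M(K)` containing the constants and the `j(q^d)` is everything. -/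
theorem full_mem_subfield (T : Subfield (modularFunctionFieldFullC K M))
    (hc : ∀ c : K, algebraMap K (modularFunctionFieldFullC K M) c ∈ T)
    (hj : ∀ (d : ℕ) (h : jt (1 : Kˣ) d ∈ modularFunctionFieldFullC K M), d ≠ 0 → d ∣ M →
      (⟨jt 1 d, h⟩ : modularFunctionFieldFullC K M) ∈ T) (x : modularFunctionFieldFullC K M) :
    x ∈ T := by
  have hle : Subfield.closure (Set.range (algebraMap K (LaurentSeries K)) ∪
      divisorExpansionsC K M) ≤
      T.map (algebraMap (modularFunctionFieldFullC K M) (LaurentSeries K)) := by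
    rw [Subfield.closure_le]
    rintro _ (⟨c, rfl⟩ | ⟨d, hd0, hd, rfl⟩)
    · exact ⟨algebraMap K _ c, hc c, rfl⟩
    · have hmem : jt (1 : Kˣ) d ∈ modularFunctionFieldFullC K M := by
        rw [jt_one_eq]; exact jqModCd_mem_full K M hd
      refine ⟨⟨jt 1 d, hmem⟩, hj d hmem hd0.out hd, ?_⟩
      exact jt_one_eq d
  obtain ⟨y, hy, hyx⟩ := hle (show (x : LaurentSeries K) ∈ _ from x.2)
  have : y = x := Subtype.ext hyx
  exact this ▸ hy

theorem full_hom_mem {R : Type*} [Field R] (φ : modularFunctionFieldFullC K M →+* R)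
    (S : Subfield R) (hc : ∀ c : K, φ (algebraMap K _ c) ∈ S)
    (hj : ∀ (d : ℕ) (h : jt (1 : Kˣ) d ∈ modularFunctionFieldFullC K M), d ≠ 0 → d ∣ M →
      φ ⟨jt 1 d, h⟩ ∈ S) (x : modularFunctionFieldFullC K M) : φ x ∈ S :=
  full_mem_subfield (S.comap φ) hc hj x

theorem full_hom_ext {R : Type*} [Field R] {φ ψ : modularFunctionFieldFullC K M →+* R}
    (hc : ∀ c : K, φ (algebraMap K _ c) = ψ (algebraMap K _ c))
    (hj : ∀ (d : ℕ) (h : jt (1 : Kˣ) d ∈ modularFunctionFieldFullC K M), d ≠ 0 → d ∣ M →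
      φ ⟨jt 1 d, h⟩ = ψ ⟨jt 1 d, h⟩) : φ = ψ :=
  RingHom.ext fun x => full_mem_subfield (RingHom.eqLocusField φ ψ) hc hj x

theorem coeffMap_jt {K K' : Type*} [Field K] [Field K'] (σ : K →+* K') (u : Kˣ) (n : ℕ) :
    coeffMap σ (jt u n) = jt (Units.map (σ : K →* K') u) n := by
  by_cases hn : n = 0
  · subst hn
    rw [jt, dif_pos rfl, jt, dif_pos rfl, map_zero]
  · have : NeZero n := ⟨hn⟩
    rw [jt_eq, jt_eq, coeffMap_qExpand, ModPoly.coeffMap_twist, coeffMap_jqModC]

theorem coeffMap_jt_one {K K' : Type*} [Field K] [Field K'] (σ : K →+* K') (n : ℕ) :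
    coeffMap σ (jt (1 : Kˣ) n) = jt (1 : K'ˣ) n := by
  rw [coeffMap_jt, map_one]

/-- Coefficient maps `F_M(L) → F_M(K)`. -/
def inclF {L K : Type*} [Field L] [Field K] (σ : L →+* K) (M : ℕ) :
    modularFunctionFieldFullC L M →+* modularFunctionFieldFullC K M :=
  ((coeffMap σ).comp (algebraMap (modularFunctionFieldFullC L M) (LaurentSeries L))).codRestrict
    (modularFunctionFieldFullC K M) fun x => ESSemi.coeffMap_mem M σ x.2

@[simp]
theorem coe_inclF {L K : Type*} [Field L] [Field K] (σ : L →+* K) (M : ℕ)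
    (x : modularFunctionFieldFullC L M) : (inclF σ M x : LaurentSeries K) =
      coeffMap σ (x : LaurentSeries L) := rfl

theorem inclF_algebraMap {L K : Type*} [Field L] [Field K] (σ : L →+* K) (M : ℕ) (c : L) :
    inclF σ M (algebraMap L _ c) = algebraMap K _ (σ c) :=
  Subtype.ext (by
    rw [coe_inclF]
    change coeffMap σ (algebraMap L (LaurentSeries L) c) = algebraMap K (LaurentSeries K) (σ c)
    rw [algebraMap_laurentSeries_eq_single, algebraMap_laurentSeries_eq_single, coeffMap_single])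

theorem inclF_jt {L K : Type*} [Field L] [Field K] (σ : L →+* K) (M d : ℕ)
    (h : jt (1 : Lˣ) d ∈ modularFunctionFieldFullC L M)
    (h' : jt (1 : Kˣ) d ∈ modularFunctionFieldFullC K M) :
    inclF σ M ⟨jt 1 d, h⟩ = ⟨jt 1 d, h'⟩ :=
  Subtype.ext (by rw [coe_inclF, coeffMap_jt_one])

theorem inclF_comp {L K K' : Type*} [Field L] [Field K] [Field K'] (σ : L →+* K) (τ : K →+* K')
    (M : ℕ) (x : modularFunctionFieldFullC L M) :
    inclF τ M (inclF σ M x) = inclF (τ.comp σ) M x :=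
  Subtype.ext (by rw [coe_inclF, coe_inclF, coe_inclF, coeffMap_coeffMap])

end Ind

section Mid

/-- The specification of the middle embedding, at level `M` (`= N p²`). -/
structure IsMidAt (K : Type*) [Field K] (N p M : ℕ) (ζ : Kˣ)
    (ι : modularFunctionFieldFullC K M →+* LaurentSeries K) : Prop where
  of_mem : ∀ (x : LaurentSeries K) (h : x ∈ modularFunctionFieldFullC K M),
    x ∈ modularFunctionFieldFullC K (N * p) → ι ⟨x, h⟩ = x
  jt_top : ∀ (d : ℕ) (h : jt (1 : Kˣ) (d * p ^ 2) ∈ modularFunctionFieldFullC K M),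
    d ∣ N → ι ⟨jt 1 (d * p ^ 2), h⟩ = jt (ζ ^ d) d

theorem exists_midAt {K : Type} [Field K] [IsAlgClosed K] {p : ℕ} [hp : Fact p.Prime] {N M : ℕ}
    (hM : M = N * p ^ 2) (hpN : ¬ p ∣ N) (hchar : ((N * p : ℕ) : K) ≠ 0) {ζ : Kˣ}
    (hζ : IsPrimitiveRoot ζ p) :
    ∃ ι : modularFunctionFieldFullC K M →+* LaurentSeries K, IsMidAt K N p M ζ ι := by
  subst hM
  obtain ⟨ι, hι⟩ := exists_mid hpN hchar hζ
  exact ⟨ι, hι.of_mem, hι.jt_top⟩

variable {K : Type*} [Field K] {N p M : ℕ} {ζ ζ' : Kˣ}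
  {ι ι' : modularFunctionFieldFullC K M →+* LaurentSeries K}

theorem IsMidAt.algebraMap (h : IsMidAt K N p M ζ ι) (c : K) :
    ι (algebraMap K _ c) = algebraMap K (LaurentSeries K) c :=
  h.of_mem _ _ ((modularFunctionFieldFullC K (N * p)).algebraMap_mem c)

theorem jt_mem_full' {K : Type*} [Field K] {M d : ℕ} (hM : M ≠ 0) (hd : d ∣ M) :
    jt (1 : Kˣ) d ∈ modularFunctionFieldFullC K M := by
  have hd0 : d ≠ 0 := by rintro rfl; exact hM (Nat.eq_zero_of_zero_dvd hd)
  have : NeZero d := ⟨hd0⟩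
  rw [jt_one_eq]
  exact jqModCd_mem_full K M hd

/-- values of the middle embedding at the generators -/
theorem IsMidAt.jt_cases (h : IsMidAt K N p M ζ ι) (hM : M = N * p ^ 2) (hp : p.Prime)
    (hN : N ≠ 0) (d : ℕ) (hd : d ∣ M) (hmem : jt (1 : Kˣ) d ∈ modularFunctionFieldFullC K M) :
    (d ∣ N * p ∧ ι ⟨jt 1 d, hmem⟩ = jt 1 d) ∨
      ∃ d₁, d₁ ∣ N ∧ d = d₁ * p ^ 2 ∧ ι ⟨jt 1 d, hmem⟩ = jt (ζ ^ d₁) d₁ := by
  subst hM
  rcases dvd_mul_pow_succ_cases (k := 1) hp hd with h1 | ⟨d₁, h1, rfl⟩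
  · left
    rw [pow_one] at h1
    exact ⟨h1, h.of_mem _ _ (jt_mem_full' (Nat.mul_ne_zero hN hp.ne_zero) h1)⟩
  · right
    exact ⟨d₁, h1, rfl, h.jt_top _ _ h1⟩

/-- Galois conjugation of the middle embeddings. -/
theorem IsMidAt.galois {K' : Type*} [Field K'] {ζ' : K'ˣ}
    {ι' : modularFunctionFieldFullC K' M →+* LaurentSeries K'}
    (h : IsMidAt K N p M ζ ι) (h' : IsMidAt K' N p M ζ' ι')
    (hM : M = N * p ^ 2) (hp : p.Prime) (hN : N ≠ 0) (τ : K →+* K')
    (hτ : Units.map (τ : K →* K') ζ = ζ') (f : modularFunctionFieldFullC K M) :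
    coeffMap τ (ι f) = ι' (inclF τ M f) := by
  have hM0 : M ≠ 0 := by rw [hM]; exact Nat.mul_ne_zero hN (pow_ne_zero _ hp.ne_zero)
  have key : (coeffMap τ).comp ι = ι'.comp (inclF τ M) := by
    refine full_hom_ext (fun c => ?_) (fun d hmem hd0 hd => ?_)
    · rw [RingHom.comp_apply, RingHom.comp_apply, inclF_algebraMap, h.algebraMap, h'.algebraMap,
        algebraMap_laurentSeries_eq_single, algebraMap_laurentSeries_eq_single, coeffMap_single]
    · have hmem' : jt (1 : K'ˣ) d ∈ modularFunctionFieldFullC K' M := jt_mem_full' hM0 hd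
      rw [RingHom.comp_apply, RingHom.comp_apply, inclF_jt τ M d hmem hmem']
      rcases h.jt_cases hM hp hN d hd hmem with ⟨h1, h2⟩ | ⟨d₁, h1, rfl, h2⟩
      · rw [h2, coeffMap_jt_one,
          h'.of_mem _ _ (jt_mem_full' (Nat.mul_ne_zero hN hp.ne_zero) h1)]
      · rw [h2, coeffMap_jt, map_pow, hτ, h'.jt_top _ _ h1]
  exact congrArg (fun g => g f) key

theorem IsMidAt.unique (h : IsMidAt K N p M ζ ι) (h' : IsMidAt K N p M ζ ι')
    (hM : M = N * p ^ 2) (hp : p.Prime) (hN : N ≠ 0) : ι = ι' := by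
  refine RingHom.ext fun f => ?_
  have h1 := h.galois h' hM hp hN (RingHom.id K) (Units.ext rfl) f
  have h2 : inclF (RingHom.id K) M f = f := Subtype.ext (by rw [coe_inclF, coeffMap_id])
  rwa [coeffMap_id, h2] at h1

end Mid

section FG

variable {K : Type*} [Field K]

theorem fgCoeff_jt {u : Kˣ} {m : ℕ} (hm : m ≠ 0) (hu : u ^ m = 1) (n : ℕ) :
    FGCoeff (jt u n) := by
  refine ⟨Submodule.span ℤ ((fun i : ℕ => ((u ^ i : Kˣ) : K)) '' (Finset.range m : Set ℕ)),
    Submodule.fg_span ((Finset.finite_toSet _).image _), fun l => ?_⟩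
  by_cases hn : n = 0
  · rw [jt, dif_pos hn, HahnSeries.coeff_zero]
    exact zero_mem _
  have : NeZero n := ⟨hn⟩
  rw [jt_eq]
  by_cases hd : (n : ℤ) ∣ l
  · obtain ⟨r, rfl⟩ := hd
    rw [qExpand_coeff_mul, twist_coeff]
    have h1 : u ^ r = u ^ (r % (m : ℤ)).toNat := by
      have hm' : (m : ℤ) ≠ 0 := by exact_mod_cast hm
      have h2 : ((r % (m : ℤ)).toNat : ℤ) = r % m := Int.toNat_of_nonneg (Int.emod_nonneg r hm')
      rw [← zpow_natCast, h2]
      conv_lhs => rw [← Int.emod_add_mul_ediv r m]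
      rw [zpow_add, zpow_mul, zpow_natCast, hu, one_zpow, mul_one]
    have h3 : (r % (m : ℤ)).toNat < m := by
      have hm' : (0 : ℤ) < m := by exact_mod_cast Nat.pos_of_ne_zero hm
      have := Int.emod_lt_of_pos r hm'
      have h4 := Int.emod_nonneg r hm'.ne'
      omega
    have h4 : (jqModC K).coeff r = (((jqModC ℤ).coeff r : ℤ) : K) := by
      rw [← coeffMap_jqModC (Int.castRingHom K), coeffMap_coeff]
      rfl
    rw [h1, h4, mul_comm, ← zsmul_eq_mul]
    exact Submodule.smul_mem _ _ (Submodule.subset_span ⟨_, by simpa using h3, rfl⟩)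
  · rw [qExpand_coeff_of_not_dvd _ _ hd]
    exact zero_mem _

theorem IsMidAt.mem_fgField {N p M : ℕ} {ζ : Kˣ}
    {ι : modularFunctionFieldFullC K M →+* LaurentSeries K}
    (h : IsMidAt K N p M ζ ι) (hM : M = N * p ^ 2) (hp : p.Prime) (hN : N ≠ 0) (hζ : ζ ^ p = 1)
    (f : modularFunctionFieldFullC K M) : ι f ∈ fgField K := by
  refine full_hom_mem ι (fgField K) (fun c => ?_) (fun d hmem hd0 hd => ?_) f
  · rw [h.algebraMap]
    exact (FGCoeff.const c).mem_fgField
  · rcases h.jt_cases hM hp hN d hd hmem with ⟨h1, h2⟩ | ⟨d₁, h1, rfl, h2⟩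
    · rw [h2]
      exact (fgCoeff_jt one_ne_zero (one_pow 1) d).mem_fgField
    · rw [h2]
      refine (fgCoeff_jt (m := p) hp.ne_zero ?_ d₁).mem_fgField
      rw [← pow_mul, mul_comm, pow_mul, hζ, one_pow]

/-- Elements of `F_M(K)` have quotient-fg expansions. -/
theorem full_mem_fgField {M : ℕ} (f : modularFunctionFieldFullC K M) :
    (f : LaurentSeries K) ∈ fgField K := by
  refine full_hom_mem (algebraMap (modularFunctionFieldFullC K M) (LaurentSeries K)) (fgField K)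
    (fun c => ?_) (fun d hmem hd0 hd => ?_) f
  · exact (FGCoeff.const c).mem_fgField
  · exact (fgCoeff_jt one_ne_zero (one_pow 1) d).mem_fgField

end FG

end Fermat.Agent.Q2
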