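import Mathlib
import Fermat.Agent.JRED.RedDatum

set_option autoImplicit false

/-!
# The valuation attached to a reduction datum, and discrete additive valuations
-/

noncomputable section

namespace Fermat.Agent.Q2

open Fermat.Agent.JRED

section Val

variable {K F k E : Type*} [Field K] [Field F] [Algebra K F] [Field k] [Field E] [Algebra k E]
variable {A : ValuationSubring K} {π : A →+* k}

theorem red_le_of_red (R : RedDatum K F k E A π) (hπ : Function.Surjective π) {w : F} {c c' : K}
    (hc : c ≠ 0) {x u : E} (h : R.Red (algebraMap K F c * w) x)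
    (h' : R.Red (algebraMap K F c' * w) u) (hu : u ≠ 0) : A.valuation c ≤ A.valuation c' := by
  by_contra hlt
  rw [not_le] at hlt
  have hcA : c' / c ∈ A := by
    rw [← A.valuation_le_one_iff, map_div₀]
    exact div_le_one_of_le₀ hlt.le zero_le
  have hnu : ¬ IsUnit (⟨c' / c, hcA⟩ : A) := by
    rw [A.valuation_eq_one_iff]
    show A.valuation (c' / c) ≠ 1
    rw [map_div₀]
    intro h1
    rw [div_eq_one_iff_eq ((Valuation.ne_zero_iff _).mpr hc)] at h1
    exact hlt.ne h1
  have h1 := RedDatum.smul_mem hcA h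
  rw [res_eq_zero_of_not_isUnit hπ hnu, map_zero, zero_mul, ← mul_assoc, ← map_mul,
    div_mul_cancel₀ _ hc] at h1
  exact hu (R.unique h' h1)

/-- The valuation of `F` attached to a reduction datum. -/
def redVal (R : RedDatum K F k E A π) (hπ : Function.Surjective π) : Valuation F A.ValueGroup := by
  classical
  exact
  { toFun := fun w => if hw : w = 0 then 0 else (A.valuation (R.normalize w hw).choose)⁻¹
    map_zero' := by rw [dif_pos rfl]
    map_one' := by
      rw [dif_neg one_ne_zero]
      obtain ⟨hc, u, hu, h⟩ := (R.normalize 1 one_ne_zero).choose_spec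
      set c := (R.normalize 1 one_ne_zero).choose
      have h1 : R.Red (algebraMap K F 1 * 1) 1 := by simpa using R.one
      have h2 := le_antisymm (red_le_of_red R hπ hc h h1 one_ne_zero)
        (red_le_of_red R hπ one_ne_zero h1 h hu)
      rw [h2, map_one, inv_one]
    map_mul' := by
      intro x y
      by_cases hx : x = 0
      · subst hx; simp
      by_cases hy : y = 0
      · subst hy; simp
      have hxy := mul_ne_zero hx hy
      rw [dif_neg hx, dif_neg hy, dif_neg hxy]
      obtain ⟨hc, u, hu, h⟩ := (R.normalize x hx).choose_spec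
      obtain ⟨hc', u', hu', h'⟩ := (R.normalize y hy).choose_spec
      obtain ⟨hc'', u'', hu'', h''⟩ := (R.normalize (x * y) hxy).choose_spec
      set c := (R.normalize x hx).choose
      set c' := (R.normalize y hy).choose
      set c'' := (R.normalize (x * y) hxy).choose
      have h1 : R.Red (algebraMap K F (c * c') * (x * y)) (u * u') := by
        have h2 := R.mul h h'
        have h3 : algebraMap K F c * x * (algebraMap K F c' * y) =
            algebraMap K F (c * c') * (x * y) := by rw [map_mul]; ring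
        rwa [h3] at h2
      have h2 := le_antisymm (red_le_of_red R hπ hc'' h'' h1 (mul_ne_zero hu hu'))
        (red_le_of_red R hπ (mul_ne_zero hc hc') h1 h'' hu'')
      rw [h2, map_mul, mul_inv]
    map_add_le_max' := by
      intro x y
      by_cases hx : x = 0
      · subst hx; simp
      by_cases hy : y = 0
      · subst hy; simp
      by_cases hxy : x + y = 0
      · rw [dif_pos hxy]; exact zero_le
      rw [dif_neg hx, dif_neg hy, dif_neg hxy]
      obtain ⟨hc, u, hu, h⟩ := (R.normalize x hx).choose_spec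
      obtain ⟨hc', u', hu', h'⟩ := (R.normalize y hy).choose_spec
      obtain ⟨hc'', u'', hu'', h''⟩ := (R.normalize (x + y) hxy).choose_spec
      set c := (R.normalize x hx).choose
      set c' := (R.normalize y hy).choose
      set c'' := (R.normalize (x + y) hxy).choose
      have hv : A.valuation c ≠ 0 := (Valuation.ne_zero_iff _).mpr hc
      have hv' : A.valuation c' ≠ 0 := (Valuation.ne_zero_iff _).mpr hc'
      have hv'' : A.valuation c'' ≠ 0 := (Valuation.ne_zero_iff _).mpr hc''
      rw [le_max_iff]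
      rcases le_total (A.valuation c) (A.valuation c') with hle | hle
      · left
        have h1 : c / c' ∈ A := by
          rw [← A.valuation_le_one_iff, map_div₀]
          exact div_le_one_of_le₀ hle zero_le
        have h2 := RedDatum.smul_mem h1 h'
        rw [← mul_assoc, ← map_mul, div_mul_cancel₀ _ hc'] at h2
        have h3 := R.add h h2
        rw [← mul_add] at h3
        exact inv_anti₀ (zero_lt_iff.mpr hv) (red_le_of_red R hπ hc h3 h'' hu'')
      · right
        have h1 : c' / c ∈ A := by
          rw [← A.valuation_le_one_iff, map_div₀]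
          exact div_le_one_of_le₀ hle zero_le
        have h2 := RedDatum.smul_mem h1 h
        rw [← mul_assoc, ← map_mul, div_mul_cancel₀ _ hc] at h2
        have h3 := R.add h2 h'
        rw [← mul_add] at h3
        exact inv_anti₀ (zero_lt_iff.mpr hv') (red_le_of_red R hπ hc' h3 h'' hu'') }

variable (R : RedDatum K F k E A π) (hπ : Function.Surjective π)

theorem redVal_eq_of_red {w : F} {c : K} {u : E} (hc : c ≠ 0)
    (h : R.Red (algebraMap K F c * w) u) (hu : u ≠ 0) : redVal R hπ w = (A.valuation c)⁻¹ := by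
  classical
  have hw : w ≠ 0 := by
    rintro rfl
    rw [mul_zero] at h
    exact hu (R.unique h R.zero)
  change (if hw : w = 0 then (0 : A.ValueGroup) else (A.valuation (R.normalize w hw).choose)⁻¹) = _
  rw [dif_neg hw]
  obtain ⟨hc', u', hu', h'⟩ := (R.normalize w hw).choose_spec
  rw [le_antisymm (red_le_of_red R hπ hc' h' h hu) (red_le_of_red R hπ hc h h' hu')]

theorem redVal_le_of_red {w : F} {c : K} {u : E} (hc : c ≠ 0)
    (h : R.Red (algebraMap K F c * w) u) : redVal R hπ w ≤ (A.valuation c)⁻¹ := by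
  by_cases hw : w = 0
  · subst hw; rw [map_zero]; exact zero_le
  obtain ⟨c', hc', u', hu', h'⟩ := R.normalize w hw
  rw [redVal_eq_of_red R hπ hc' h' hu']
  exact inv_anti₀ (zero_lt_iff.mpr ((Valuation.ne_zero_iff _).mpr hc))
    (red_le_of_red R hπ hc h h' hu')

theorem redVal_algebraMap (c : K) : redVal R hπ (algebraMap K F c) = A.valuation c := by
  by_cases hc : c = 0
  · subst hc; simp
  have h : R.Red (algebraMap K F c⁻¹ * algebraMap K F c) 1 := by
    rw [← map_mul, inv_mul_cancel₀ hc, map_one]; exact R.one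
  rw [redVal_eq_of_red R hπ (inv_ne_zero hc) h one_ne_zero, map_inv₀, inv_inv]

theorem redVal_le_one_iff {w : F} : redVal R hπ w ≤ 1 ↔ ∃ u, R.Red w u := by
  constructor
  · intro h
    by_cases hw : w = 0
    · subst hw; exact ⟨0, R.zero⟩
    obtain ⟨c, hc, u, hu, h'⟩ := R.normalize w hw
    rw [redVal_eq_of_red R hπ hc h' hu, ← map_inv₀, A.valuation_le_one_iff] at h
    have h1 := RedDatum.smul_mem h h'
    rw [← mul_assoc, ← map_mul, inv_mul_cancel₀ hc, map_one, one_mul] at h1
    exact ⟨_, h1⟩
  · rintro ⟨u, h⟩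
    have h1 : R.Red (algebraMap K F 1 * w) u := by rwa [map_one, one_mul]
    have h2 := redVal_le_of_red R hπ one_ne_zero h1
    rwa [map_one, inv_one] at h2

theorem redVal_lt_one_iff {w : F} : redVal R hπ w < 1 ↔ R.Red w 0 := by
  constructor
  · intro h
    obtain ⟨u, hu⟩ := (redVal_le_one_iff R hπ).mp h.le
    by_contra h0
    have hu0 : u ≠ 0 := by rintro rfl; exact h0 hu
    have h1 : R.Red (algebraMap K F 1 * w) u := by rwa [map_one, one_mul]
    rw [redVal_eq_of_red R hπ one_ne_zero h1 hu0, map_one, inv_one] at h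
    exact lt_irrefl _ h
  · intro h
    by_cases hw : w = 0
    · subst hw; rw [map_zero]; exact zero_lt_one
    refine lt_of_le_of_ne ((redVal_le_one_iff R hπ).mpr ⟨0, h⟩) fun h1 => ?_
    obtain ⟨c, hc, u, hu, h'⟩ := R.normalize w hw
    rw [redVal_eq_of_red R hπ hc h' hu, inv_eq_one] at h1
    have hcA : c ∈ A := by rw [← A.valuation_le_one_iff, h1]
    have h2 := RedDatum.smul_mem hcA h
    rw [mul_zero] at h2
    exact hu (R.unique h' h2)

theorem redVal_eq_one_iff {w : F} : redVal R hπ w = 1 ↔ ∃ u, u ≠ 0 ∧ R.Red w u := by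
  constructor
  · intro h
    obtain ⟨u, hu⟩ := (redVal_le_one_iff R hπ).mp h.le
    refine ⟨u, ?_, hu⟩
    rintro rfl
    exact ((redVal_lt_one_iff R hπ).mpr hu).ne h
  · rintro ⟨u, hu0, hu⟩
    have h1 : R.Red (algebraMap K F 1 * w) u := by rwa [map_one, one_mul]
    rw [redVal_eq_of_red R hπ one_ne_zero h1 hu0, map_one, inv_one]

end Val

section Disc

variable {F Γ : Type*} [Field F] [LinearOrderedCommGroupWithZero Γ]

theorem zpow_inj_of_lt_one {g : Γ} (h0 : 0 < g) (h1 : g < 1) {m n : ℤ} (h : g ^ m = g ^ n) :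
    m = n :=
  (zpow_right_strictAnti₀ h0 h1).injective h

theorem disc_choose {V : Valuation F Γ} {g : Γ} (h0 : 0 < g) (h1 : g < 1)
    (hV : ∀ x : F, x ≠ 0 → ∃ n : ℤ, V x = g ^ n) {x : F} (hx : x ≠ 0) {n : ℤ} (h : V x = g ^ n) :
    (hV x hx).choose = n :=
  zpow_inj_of_lt_one h0 h1 ((hV x hx).choose_spec.symm.trans h)

/-- The integral additive valuation attached to a valuation with values in `g ^ ℤ`. -/
def discVal (V : Valuation F Γ) {g : Γ} (h0 : 0 < g) (h1 : g < 1)
    (hV : ∀ x : F, x ≠ 0 → ∃ n : ℤ, V x = g ^ n) : AddValuation F (WithTop ℤ) := by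
  classical
  exact AddValuation.of (fun x => if hx : x = 0 then ⊤ else ((hV x hx).choose : ℤ))
    (by simp)
    (by
      rw [dif_neg one_ne_zero]
      rw [disc_choose h0 h1 hV one_ne_zero (n := 0) (by rw [map_one, zpow_zero])]
      rfl)
    (by
      intro x y
      by_cases hx : x = 0
      · subst hx; simp
      by_cases hy : y = 0
      · subst hy; simp
      by_cases hxy : x + y = 0
      · rw [dif_pos hxy]; exact le_top
      rw [dif_neg hx, dif_neg hy, dif_neg hxy]
      obtain ⟨m, hm⟩ := hV x hx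
      obtain ⟨n, hn⟩ := hV y hy
      obtain ⟨l, hl⟩ := hV (x + y) hxy
      rw [disc_choose h0 h1 hV hx hm, disc_choose h0 h1 hV hy hn, disc_choose h0 h1 hV hxy hl]
      have h5 := V.map_add x y
      rw [hl, le_max_iff] at h5
      rw [min_le_iff]
      rcases h5 with h5 | h5
      · left
        rw [hm] at h5
        exact_mod_cast (zpow_le_zpow_iff_right_of_lt_one₀ h0 h1).mp h5
      · right
        rw [hn] at h5
        exact_mod_cast (zpow_le_zpow_iff_right_of_lt_one₀ h0 h1).mp h5)
    (by
      intro x y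
      by_cases hx : x = 0
      · subst hx; simp
      by_cases hy : y = 0
      · subst hy; simp
      have hxy := mul_ne_zero hx hy
      rw [dif_neg hx, dif_neg hy, dif_neg hxy]
      obtain ⟨m, hm⟩ := hV x hx
      obtain ⟨n, hn⟩ := hV y hy
      rw [disc_choose h0 h1 hV hx hm, disc_choose h0 h1 hV hy hn,
        disc_choose h0 h1 hV hxy (n := m + n) (by rw [map_mul, hm, hn, zpow_add₀ h0.ne'])]
      rfl)

variable (V : Valuation F Γ) {g : Γ} (h0 : 0 < g) (h1 : g < 1)
    (hV : ∀ x : F, x ≠ 0 → ∃ n : ℤ, V x = g ^ n)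

theorem discVal_eq_iff {x : F} {n : ℤ} : discVal V h0 h1 hV x = n ↔ V x = g ^ n := by
  classical
  change (if hx : x = 0 then (⊤ : WithTop ℤ) else ((hV x hx).choose : ℤ)) = n ↔ _
  by_cases hx : x = 0
  · subst hx
    rw [dif_pos rfl, map_zero]
    constructor
    · intro h; exact absurd h (WithTop.coe_ne_top).symm
    · intro h; exact absurd h.symm (zpow_ne_zero _ h0.ne')
  · rw [dif_neg hx]
    constructor
    · intro h
      rw [← WithTop.coe_inj.mp h]
      exact (hV x hx).choose_spec
    · intro h
      rw [disc_choose h0 h1 hV hx h]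

theorem discVal_ne_top {x : F} (hx : x ≠ 0) : discVal V h0 h1 hV x ≠ ⊤ := by
  obtain ⟨n, hn⟩ := hV x hx
  rw [(discVal_eq_iff V h0 h1 hV).mpr hn]
  exact WithTop.coe_ne_top

theorem discVal_nonneg_iff {x : F} : 0 ≤ discVal V h0 h1 hV x ↔ V x ≤ 1 := by
  by_cases hx : x = 0
  · subst hx; simp
  obtain ⟨n, hn⟩ := hV x hx
  rw [(discVal_eq_iff V h0 h1 hV).mpr hn, hn, ← zpow_zero g,
    zpow_le_zpow_iff_right_of_lt_one₀ h0 h1]
  exact_mod_cast Iff.rfl

theorem discVal_pos_iff {x : F} : 0 < discVal V h0 h1 hV x ↔ V x < 1 := by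
  by_cases hx : x = 0
  · subst hx; simp
  obtain ⟨n, hn⟩ := hV x hx
  rw [(discVal_eq_iff V h0 h1 hV).mpr hn, hn, ← zpow_zero g,
    zpow_lt_zpow_iff_right_of_lt_one₀ h0 h1]
  exact_mod_cast Iff.rfl

theorem discVal_eq_zero_iff {x : F} : discVal V h0 h1 hV x = 0 ↔ V x = 1 := by
  have h := discVal_eq_iff V h0 h1 hV (x := x) (n := 0)
  rw [zpow_zero] at h
  exact h

end Disc

end Fermat.Agent.Q2
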