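import Mathlib
import Fermat.Agent.Q2.Gauss
import Fermat.Agent.Q2.Val
import Fermat.Agent.Q2.Full

set_option autoImplicit false

/-!
# The Gauss valuation on `fgField K`, values over subfields, Galois invariance
-/

noncomputable section

namespace Fermat.Agent.Q2

open HahnSeries ModularCurve Fermat.Agent.JRED Fermat.Agent.S28

section GaussVal

variable {K k : Type*} [Field K] [Field k] {A : ValuationSubring K}

/-- constants in `fgField K` -/
def fgConst (K : Type*) [Field K] : K →+* fgField K :=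
  (algebraMap K (LaurentSeries K)).codRestrict (fgField K) fun c => (FGCoeff.const c).mem_fgField

/-- `fgField K` as an algebra over `K`. -/
def fgAlgebra (K : Type*) [Field K] : Algebra K (fgField K) := (fgConst K).toAlgebra

attribute [local instance] fgAlgebra

theorem fg_algebraMap (c : K) : ((algebraMap K (fgField K) c : fgField K) : LaurentSeries K) =
    algebraMap K (LaurentSeries K) c := rfl

variable (π : A →+* k)

/-- The Gauss reduction datum on `fgField K`. -/
def fgRed : RedDatum K (fgField K) k (LaurentSeries k) A π where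
  Red f u := GRed π (f : LaurentSeries K) u
  add h h' := h.add h'
  mul h h' := h.mul h'
  const a := GRed.const a
  unique h h' := h.unique h'
  normalize w hw := exists_normalize_of_mem_fgField π w.2 (fun h0 => hw (Subtype.ext h0))

variable {π} (hπ : Function.Surjective π)

/-- The Gauss valuation on `fgField K`. -/
def gaussVal : Valuation (fgField K) A.ValueGroup := redVal (fgRed π) hπ

theorem gaussVal_eq_of_red {w : fgField K} {c : K} {u : LaurentSeries k} (hc : c ≠ 0)
    (h : GRed π (algebraMap K (LaurentSeries K) c * w) u) (hu : u ≠ 0) :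
    gaussVal hπ w = (A.valuation c)⁻¹ :=
  redVal_eq_of_red (fgRed π) hπ hc h hu

theorem gaussVal_le_of_red {w : fgField K} {c : K} {u : LaurentSeries k} (hc : c ≠ 0)
    (h : GRed π (algebraMap K (LaurentSeries K) c * w) u) :
    gaussVal hπ w ≤ (A.valuation c)⁻¹ :=
  redVal_le_of_red (fgRed π) hπ hc h

theorem gaussVal_const (c : K) (h : algebraMap K (LaurentSeries K) c ∈ fgField K) :
    gaussVal hπ ⟨algebraMap K (LaurentSeries K) c, h⟩ = A.valuation c :=
  redVal_algebraMap (fgRed π) hπ c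

theorem gaussVal_le_one_iff {w : fgField K} :
    gaussVal hπ w ≤ 1 ↔ ∃ u, GRed π (w : LaurentSeries K) u :=
  redVal_le_one_iff (fgRed π) hπ

theorem gaussVal_lt_one_iff {w : fgField K} :
    gaussVal hπ w < 1 ↔ GRed π (w : LaurentSeries K) 0 :=
  redVal_lt_one_iff (fgRed π) hπ

theorem gaussVal_eq_one_iff {w : fgField K} :
    gaussVal hπ w = 1 ↔ ∃ u, u ≠ 0 ∧ GRed π (w : LaurentSeries K) u :=
  redVal_eq_one_iff (fgRed π) hπ

/-- The valuation of `F` induced by an embedding in `K((t))`. -/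
def embVal {F : Type*} [Field F] (ι : F →+* LaurentSeries K) (hι : ∀ f, ι f ∈ fgField K) :
    Valuation F A.ValueGroup :=
  (gaussVal hπ).comap (ι.codRestrict (fgField K) hι)

variable {F : Type*} [Field F] {ι : F →+* LaurentSeries K} (hι : ∀ f, ι f ∈ fgField K)

theorem embVal_apply (f : F) : embVal hπ ι hι f = gaussVal hπ ⟨ι f, hι f⟩ := rfl

theorem embVal_eq_of_red {w : F} {c : K} {u : LaurentSeries k} (hc : c ≠ 0)
    (h : GRed π (algebraMap K (LaurentSeries K) c * ι w) u) (hu : u ≠ 0) :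
    embVal hπ ι hι w = (A.valuation c)⁻¹ :=
  gaussVal_eq_of_red hπ (w := ⟨ι w, hι w⟩) hc h hu

theorem embVal_le_one_iff {w : F} : embVal hπ ι hι w ≤ 1 ↔ ∃ u, GRed π (ι w) u :=
  gaussVal_le_one_iff hπ

theorem embVal_lt_one_iff {w : F} : embVal hπ ι hι w < 1 ↔ GRed π (ι w) 0 :=
  gaussVal_lt_one_iff hπ

theorem embVal_eq_one_iff {w : F} : embVal hπ ι hι w = 1 ↔ ∃ u, u ≠ 0 ∧ GRed π (ι w) u :=
  gaussVal_eq_one_iff hπ

end GaussVal

section Sub

variable {L K k : Type*} [Field L] [Field K] [Field k] {A : ValuationSubring K} {π : A →+* k}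

/-- `A ∩ L → A` -/
def comapHom (σ : L →+* K) (A : ValuationSubring K) : A.comap σ →+* A :=
  (σ.comp (A.comap σ).subtype).codRestrict A fun a => a.2

/-- Gauss reductions are compatible with field extensions. -/
theorem GRed.map (σ : L →+* K) {f : LaurentSeries L} {u : LaurentSeries k}
    (h : GRed (π.comp (comapHom σ A)) f u) : GRed π (coeffMap σ f) u := by
  obtain ⟨a, b, hb, h1, h2⟩ := h
  have h3 : ∀ x : LaurentSeries (A.comap σ), coeffMap π (coeffMap (comapHom σ A) x) =
      coeffMap (π.comp (comapHom σ A)) x := by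
    intro x
    rw [coeffMap_coeffMap]
  have h4 : ∀ x : LaurentSeries (A.comap σ), coeffMap A.subtype (coeffMap (comapHom σ A) x) =
      coeffMap σ (coeffMap (A.comap σ).subtype x) := by
    intro x
    rw [coeffMap_coeffMap, coeffMap_coeffMap]
    rfl
  refine ⟨coeffMap (comapHom σ A) a, coeffMap (comapHom σ A) b, ?_, ?_, ?_⟩
  · rwa [h3]
  · rw [h4, h4, ← h1, map_mul]
  · rw [h3, h3, h2]

/-- A nonzero element of `fgField L` can be normalised by a constant of `L`. -/
theorem exists_normalizer_sub (σ : L →+* K) {f : LaurentSeries L} (hf : f ∈ fgField L)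
    (hf0 : f ≠ 0) : ∃ c : L, c ≠ 0 ∧ ∃ u : LaurentSeries k, u ≠ 0 ∧
      GRed π (algebraMap K (LaurentSeries K) (σ c) * coeffMap σ f) u := by
  obtain ⟨c, hc, u, hu, h⟩ := exists_normalize_of_mem_fgField (π.comp (comapHom σ A)) hf hf0
  refine ⟨c, hc, u, hu, ?_⟩
  have h1 := GRed.map σ h
  rwa [map_mul, algebraMap_laurentSeries_eq_single, coeffMap_single,
    ← algebraMap_laurentSeries_eq_single] at h1

theorem FGCoeff.coeffMap' (σ : L →+* K) {f : LaurentSeries L} (hf : FGCoeff f) :
    FGCoeff (coeffMap σ f) := by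
  obtain ⟨M, hM, h⟩ := hf
  exact ⟨M.map (σ : L →+ K).toIntLinearMap, hM.map _, fun n => ⟨f.coeff n, h n, rfl⟩⟩

theorem coeffMap_mem_fgField (σ : L →+* K) {f : LaurentSeries L} (hf : f ∈ fgField L) :
    coeffMap σ f ∈ fgField K := by
  obtain ⟨a, b, ha, hb, hb0, h⟩ := hf
  refine ⟨coeffMap σ a, coeffMap σ b, FGCoeff.coeffMap' σ ha, FGCoeff.coeffMap' σ hb, ?_, ?_⟩
  · intro h0
    exact hb0 (JRED.coeffMap_injective σ.injective (by rw [h0, map_zero]))
  · rw [← h, map_mul]

/-- Values of the Gauss valuation on series with coefficients in a subfield. -/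
theorem gaussVal_sub (hπ : Function.Surjective π) (σ : L →+* K) {g : A.ValueGroup}
    (hg : ∀ c : L, c ≠ 0 → ∃ n : ℤ, A.valuation (σ c) = g ^ n) (f : fgField K) (hf0 : f ≠ 0)
    (hf : (f : LaurentSeries K) ∈ (fgField L).map (coeffMap σ)) :
    ∃ n : ℤ, gaussVal hπ f = g ^ n := by
  obtain ⟨f', hf', h⟩ := hf
  have hf'0 : f' ≠ 0 := by
    rintro rfl
    exact hf0 (Subtype.ext (by rw [← h, map_zero]; rfl))
  obtain ⟨c, hc, u, hu, h1⟩ := exists_normalizer_sub (π := π) σ hf' hf'0
  obtain ⟨n, hn⟩ := hg c hc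
  refine ⟨-n, ?_⟩
  rw [gaussVal_eq_of_red hπ ((_root_.map_ne_zero σ).mpr hc) (by rw [← h]; exact h1) hu, hn, zpow_neg]

end Sub

section Galois

variable {K k : Type*} [Field K] [Field k] {A : ValuationSubring K} {π : A →+* k}

theorem coeffMap_algebraMap' {K K' : Type*} [Field K] [Field K'] (τ : K →+* K') (c : K) :
    coeffMap τ (algebraMap K (LaurentSeries K) c) = algebraMap K' (LaurentSeries K') (τ c) := by
  rw [algebraMap_laurentSeries_eq_single, algebraMap_laurentSeries_eq_single, coeffMap_single]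

theorem gaussVal_galois (hπ : Function.Surjective π) {τ : K →+* K} (hτ : IsInert π τ)
    (hτv : ∀ c, A.valuation (τ c) = A.valuation c) (f : fgField K) :
    gaussVal hπ ⟨coeffMap τ f, coeffMap_mem_fgField τ f.2⟩ = gaussVal hπ f := by
  by_cases hf : f = 0
  · subst hf
    have h0 : (⟨coeffMap τ ((0 : fgField K) : LaurentSeries K),
        coeffMap_mem_fgField τ (0 : fgField K).2⟩ : fgField K) = 0 :=
      Subtype.ext (map_zero (coeffMap τ))
    rw [h0]
  obtain ⟨c, hc, u, hu, h⟩ := exists_normalize_of_mem_fgField π f.2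
    (fun h0 => hf (Subtype.ext h0))
  have h1 := GRed.galois hτ h
  rw [map_mul, coeffMap_algebraMap'] at h1
  have hc' : τ c ≠ 0 := (_root_.map_ne_zero τ).mpr hc
  have h2 := gaussVal_eq_of_red hπ (w := ⟨coeffMap τ f, coeffMap_mem_fgField τ f.2⟩) hc' h1 hu
  have h3 := gaussVal_eq_of_red hπ (w := f) hc h hu
  rw [h2, h3, hτv]

end Galois

end Fermat.Agent.Q2
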