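import Mathlib
import Fermat.Agent.DR.Mod.Residue
import Fermat.Agent.DR.NormRed
import Fermat.Agent.JRED.AtkinLehnerInput
import Fermat.Agent.Q2.GaussVal

set_option autoImplicit false

/-!
# The residue field of the Gauss valuation of `F_{Nq²}` is `F̄_N`
-/

noncomputable section

namespace Fermat.Agent.Q2

open AlgebraicCurve ModularCurve
open Fermat.Agent.JRED Fermat.Agent.DR Fermat.Agent.DR.Mod

section Indep

variable {k : Type*} [Field k]

theorem order_qExpand' (n : ℕ) [NeZero n] (φ : LaurentSeries k) :
    (ModularCurve.qExpand k n φ).order = n * φ.order := by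
  have hn : 0 < n := Nat.pos_of_ne_zero (NeZero.ne n)
  rcases eq_or_ne φ 0 with rfl | hφ
  · simp
  have h1 : (ModularCurve.qExpand k n φ).coeff (n * φ.order) ≠ 0 := by
    rw [ModularCurve.qExpand_coeff_mul]
    exact HahnSeries.coeff_order_eq_zero.not.mpr hφ
  refine le_antisymm (HahnSeries.order_le_of_coeff_ne_zero h1) ?_
  have hne : ModularCurve.qExpand k n φ ≠ 0 := by
    intro h0
    rw [h0] at h1
    exact h1 rfl
  have h2 := HahnSeries.coeff_order_eq_zero.not.mpr hne
  obtain ⟨m, hm⟩ : (n : ℤ) ∣ (ModularCurve.qExpand k n φ).order := by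
    by_contra hdvd
    exact h2 (ModularCurve.qExpand_coeff_of_not_dvd n _ hdvd)
  rw [hm]
  rw [hm, ModularCurve.qExpand_coeff_mul] at h2
  have h3 := HahnSeries.order_le_of_coeff_ne_zero h2
  exact mul_le_mul_of_nonneg_left h3 (by positivity)

theorem order_jqModC : (jqModC k).order = -1 := by
  have h1 : (jqModC k).coeff (-1) ≠ 0 := by
    rw [coeff_jqModC_neg_one]; exact one_ne_zero
  refine le_antisymm (HahnSeries.order_le_of_coeff_ne_zero h1) ?_
  by_contra hlt
  push Not at hlt
  have hne : jqModC k ≠ 0 := by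
    intro h0
    rw [h0] at h1
    exact h1 rfl
  exact HahnSeries.coeff_order_eq_zero.not.mpr hne (coeff_jqModC_of_lt k hlt)

theorem jqModC_ne_zero : jqModC k ≠ 0 := by
  intro h0
  have h1 : (jqModC k).coeff (-1) = 1 := coeff_jqModC_neg_one k
  rw [h0] at h1
  exact zero_ne_one h1

/-- `1, j, …, j^{q-1}` are independent over `k((t^q))`. -/
theorem eq_zero_of_sum_qExpand {q : ℕ} [NeZero q] (c : Fin q → LaurentSeries k)
    (h : ∑ i, ModularCurve.qExpand k q (c i) * jqModC k ^ (i : ℕ) = 0) : c = 0 := by
  classical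
  by_contra hc
  obtain ⟨i₁, hi₁⟩ := Function.ne_iff.mp hc
  have hj := jqModC_ne_zero (k := k)
  have hq : ∀ x : LaurentSeries k, x ≠ 0 → ModularCurve.qExpand k q x ≠ 0 := fun x hx =>
    (_root_.map_ne_zero _).mpr hx
  have hord : ∀ i : Fin q, c i ≠ 0 →
      (ModularCurve.qExpand k q (c i) * jqModC k ^ (i : ℕ)).order = q * (c i).order - i := by
    intro i hi
    rw [HahnSeries.order_mul (hq _ hi) (pow_ne_zero _ hj), order_qExpand', HahnSeries.order_pow,
      order_jqModC]
    simp
    ring
  obtain ⟨i₀, hi₀, hmin⟩ := Finset.exists_min_image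
    (Finset.univ.filter fun i => c i ≠ 0)
    (fun i => (ModularCurve.qExpand k q (c i) * jqModC k ^ (i : ℕ)).order) ⟨i₁, by simpa using hi₁⟩
  have hi₀' : c i₀ ≠ 0 := by simpa using hi₀
  set m := (ModularCurve.qExpand k q (c i₀) * jqModC k ^ (i₀ : ℕ)).order with hm
  have h1 := congrArg (fun f => HahnSeries.coeff f m) h
  simp only [HahnSeries.coeff_sum, HahnSeries.coeff_zero] at h1
  rw [Finset.sum_eq_single i₀] at h1
  · exact HahnSeries.coeff_order_eq_zero.not.mpr (mul_ne_zero (hq _ hi₀') (pow_ne_zero _ hj)) h1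
  · intro i _ hne
    by_cases hi : c i = 0
    · rw [hi, map_zero, zero_mul]; rfl
    · apply HahnSeries.coeff_eq_zero_of_lt_order
      refine lt_of_le_of_ne (hmin i (by simpa using hi)) fun heq => hne ?_
      rw [hm, hord i₀ hi₀', hord i hi] at heq
      have hq0 : (q : ℤ) ≠ 0 := by exact_mod_cast NeZero.ne q
      have h2 : (q : ℤ) ∣ (i : ℤ) - i₀ := ⟨(c i).order - (c i₀).order, by linarith⟩
      have h3 : (i : ℤ) = i₀ := by
        obtain ⟨e, he⟩ := h2
        have hi1 := i.2
        have hi2 := i₀.2
        have hqpos : (0 : ℤ) < q := by exact_mod_cast Nat.pos_of_ne_zero (NeZero.ne q)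
        have h5 : e = 0 := by
          by_contra hne0
          rcases lt_or_gt_of_ne hne0 with h | h
          · have : (q : ℤ) * e ≤ -q := by nlinarith
            omega
          · have : (q : ℤ) ≤ q * e := by nlinarith
            omega
        rw [h5, mul_zero] at he
        omega
      exact Fin.ext (by exact_mod_cast h3)
  · intro h2
    exact absurd (Finset.mem_univ _) h2

end Indep

section Lift

variable {K F F' k E E' : Type*} [Field K] [Field F] [Algebra K F] [Field F'] [Algebra K F']
  [Field k] [Field E] [Algebra k E] [Field E'] [Algebra k E'] {A : ValuationSubring K} {π : A →+* k}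

/-- Lifts of elements independent over the residue field of `F'` are independent over `F'`. -/
theorem card_le_finrankAlong (hπ : Function.Surjective π) (R : RedDatum K F k E A π)
    (R' : RedDatum K F' k E' A π) (φ : F' →ₐ[K] F) (Φ : E' →+* E)
    (hφ : ∀ a u, R'.Red a u → R.Red (φ a) (Φ u)) (hfin : FiniteAlong K φ)
    {n : ℕ} (b : Fin n → E) (hb : ∀ i, ∃ y, R.Red y (b i))
    (hind : ∀ c : Fin n → E', (∀ i, ∃ a, R'.Red a (c i)) → ∑ i, Φ (c i) * b i = 0 → c = 0) :
    n ≤ finrankAlong K φ := by
  choose y hy using hb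
  letI := algebraAlong φ
  haveI : Module.Finite F' F := hfin
  have hli : LinearIndependent F' y := by
    rw [Fintype.linearIndependent_iff]
    intro a ha
    by_contra hne
    have ha0 : a ≠ 0 := fun h0 => hne fun i => by rw [h0]; rfl
    obtain ⟨c, abar, hc, habar, hred⟩ := exists_normalize_family (R := R') hπ a ha0
    refine habar (hind abar (fun i => ⟨_, hred i⟩) ?_)
    have h1 : R.Red (∑ i, φ (algebraMap K F' c * a i) * y i) (∑ i, Φ (abar i) * b i) :=
      RedDatum.sum fun i _ => R.mul (hφ _ _ (hred i)) (hy i)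
    have h2 : ∑ i, φ (algebraMap K F' c * a i) * y i = 0 := by
      have h3 : ∑ i, φ (a i) * y i = 0 := ha
      rw [← mul_zero (φ (algebraMap K F' c)), ← h3, Finset.mul_sum]
      exact Finset.sum_congr rfl fun i _ => by rw [map_mul, mul_assoc]
    rw [h2] at h1
    exact (R.unique R.zero h1).symm
  have h := hli.fintype_card_le_finrank
  rwa [Fintype.card_fin] at h

end Lift

section Level2

variable {K : Type} [Field K] [IsAlgClosed K] [Algebra ℚ K] {k : Type} [Field k]
  {A : ValuationSubring K} {π : A →+* k} {N q : ℕ} [NeZero N] [NeZero q] [ExpChar k q]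
  {w : laurentBaseChange K (modularFunctionFieldFull (N * q)) ≃ₐ[K]
      laurentBaseChange K (modularFunctionFieldFull (N * q))}

/-- Residues of `F_{Nq²}` lie in `F̄_N`. -/
theorem mem_full_of_red_level2 (S : Setup π w) (hq : q.Prime)
    {f : laurentBaseChange K (modularFunctionFieldFull (N * q * q))} {u : LaurentSeries k}
    (h : GRed π (f : LaurentSeries K) u) : u ∈ modularFunctionFieldFullC k N := by
  classical
  by_contra hu
  have hfin : FiniteAlong K (heckeBetaBar K (N * q) q) :=
    Fermat.Agent.Jan.DegreeWiring.finiteAlong_heckeBetaBar' K (N * q) q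
  have hdeg : finrankAlong K (heckeBetaBar K (N * q) q) = q := by
    rw [Fermat.Agent.JRED.AL.finrankAlong_beta K (N * q) q hq, if_pos (dvd_mul_left q N)]
  have hle := card_le_finrankAlong S.surj (redL π (N * q * q)) (redL π (N * q))
    (heckeBetaBar K (N * q) q) (ModularCurve.qExpand k q)
    (fun a v hv => by
      show GRed π (heckeBetaBar K (N * q) q a : LaurentSeries K) _
      rw [coe_heckeBetaBar]
      exact Q2.GRed.qExpand hv q) hfin
    (Fin.snoc (fun i : Fin q => jqModC k ^ (i : ℕ)) u : Fin (q + 1) → LaurentSeries k) ?_ ?_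
  · rw [hdeg] at hle
    omega
  · intro i
    refine Fin.lastCases ?_ (fun i => ?_) i
    · rw [Fin.snoc_last]; exact ⟨f, h⟩
    · rw [Fin.snoc_castSucc]
      exact ⟨_, RedDatum.pow (redL_j π (N * q * q)) i⟩
  · intro c hc hsum
    have hcm : ∀ i, c i ∈ modularFunctionFieldFullC k N := fun i => by
      obtain ⟨a, ha⟩ := hc i
      exact S.mem_full_of_red1 ha
    rw [Fin.sum_univ_castSucc] at hsum
    simp only [Fin.snoc_castSucc, Fin.snoc_last] at hsum
    have hlast : c (Fin.last q) = 0 := by
      by_contra hne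
      apply hu
      have hne' : ModularCurve.qExpand k q (c (Fin.last q)) ≠ 0 := (_root_.map_ne_zero _).mpr hne
      have hu' : u = -(∑ i : Fin q, ModularCurve.qExpand k q (c i.castSucc) * jqModC k ^ (i : ℕ)) /
          ModularCurve.qExpand k q (c (Fin.last q)) := by
        field_simp
        linear_combination hsum
      rw [hu']
      refine div_mem (neg_mem (sum_mem fun i _ => mul_mem ?_ (pow_mem (jqModC_mem_full k N) _))) ?_
      · exact qExpand_mem_full q N (hcm _)
      · exact qExpand_mem_full q N (hcm _)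
    rw [hlast, map_zero, zero_mul, add_zero] at hsum
    have h0 := eq_zero_of_sum_qExpand (fun i : Fin q => c i.castSucc) hsum
    funext i
    refine Fin.lastCases hlast (fun i => ?_) i
    exact congrFun h0 i

end Level2

end Fermat.Agent.Q2
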