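import Mathlib
import Fermat.Agent.FlatOrd.Cyc
import Fermat.Agent.DR.Mono.Inert
import Fermat.Agent.Q2.Gauss

set_option autoImplicit false

/-!
# Inertia at `q` and the `q`-th roots of unity in `ℚ̄`
-/

noncomputable section

open scoped Pointwise
open Fermat.Agent.JRED

namespace Fermat.Agent.Q2.Cyclo

local notation "ℚbar" => AlgebraicClosure ℚ

variable {A : ValuationSubring ℚbar} {q : ℕ} [hq : Fact q.Prime]

theorem val_eq_of_inertia {τ : ℚbar ≃ₐ[ℚ] ℚbar} (hτ : τ ∈ A.inertiaSubgroupIn ℚ) (x : ℚbar) :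
    A.valuation (τ x) = A.valuation x :=
  DR.Mono.val_eq_of_smul_eq (DR.Mono.smul_eq_of_inertia hτ) x

theorem isInert {k : Type*} [Field k] {π : A →+* k} (hπ : Function.Surjective π)
    {τ : ℚbar ≃ₐ[ℚ] ℚbar} (hτ : τ ∈ A.inertiaSubgroupIn ℚ) : IsInert π (τ : ℚbar →+* ℚbar) := by
  obtain ⟨hσA, hres⟩ := (TWP.Place.mem_inertiaSubgroupIn_iff A τ).mp hτ
  intro a
  have h1 : τ (a : ℚbar) ∈ A := (DR.Mono.smul_mem_iff_of_smul_eq hσA _).mpr a.2
  refine ⟨h1, ?_⟩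
  have h3 : τ (a : ℚbar) - a ∈ A := sub_mem h1 a.2
  have h4 := (DR.Mono.res_eq_zero_iff hπ h3).mpr
    ((ValuationSubring.mem_nonunits_iff A).mp (hres a a.2))
  have h5 : (⟨τ (a : ℚbar) - a, h3⟩ : A) = ⟨τ (a : ℚbar), h1⟩ - a := rfl
  rw [h5, map_sub, sub_eq_zero] at h4
  exact h4

variable (hA : A.LiesOverPrime q) {ζ : ℚbar} (hζ : IsPrimitiveRoot ζ q)

include hζ in
omit hq in
theorem zeta_mem [NeZero q] : ζ ∈ A := by
  rw [← A.valuation_le_one_iff]
  by_contra h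
  rw [not_le] at h
  have h1 : A.valuation (ζ ^ q) = 1 := by rw [hζ.pow_eq_one, map_one]
  rw [map_pow] at h1
  exact (one_lt_pow₀ h (NeZero.ne q)).ne' h1

include hA hζ in
theorem sub_one_lt : A.valuation (ζ - 1) < 1 := by
  have h := FlatOrd.Cyc.sub_one_mem_nonunits hq.out A hA hζ.pow_eq_one
  rwa [ValuationSubring.mem_nonunits_iff] at h

include hζ in
theorem sub_one_ne_zero : ζ - 1 ≠ 0 :=
  sub_ne_zero.mpr (hζ.ne_one hq.out.one_lt)

include hA hζ in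
theorem res_zeta {k : Type*} [Field k] {π : A →+* k} (hπ : Function.Surjective π) (h : ζ ∈ A) :
    π ⟨ζ, h⟩ = 1 := by
  have h1 : π ⟨ζ - 1, sub_mem h A.one_mem⟩ = 0 :=
    (DR.Mono.res_eq_zero_iff hπ _).mpr (sub_one_lt hA hζ)
  have h2 : (⟨ζ - 1, sub_mem h A.one_mem⟩ : A) = ⟨ζ, h⟩ - 1 := rfl
  rw [h2, map_sub, map_one, sub_eq_zero] at h1
  exact h1

omit hq in
theorem val_pow_sub_le {ξ : ℚbar} (hξ : ξ ∈ A) (i : ℕ) :
    A.valuation (ξ ^ i - 1) ≤ A.valuation (ξ - 1) := by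
  rw [← mul_geom_sum, map_mul]
  refine mul_le_of_le_one_right' ?_
  rw [A.valuation_le_one_iff]
  exact sum_mem fun j _ => pow_mem hξ j

include hζ in
/-- all `ζ^i - 1`, `q ∤ i`, have the same valuation -/
theorem val_pow_sub {i : ℕ} (hi : ¬ q ∣ i) : A.valuation (ζ ^ i - 1) = A.valuation (ζ - 1) := by
  have hne : NeZero q := ⟨hq.out.ne_zero⟩
  have hm := zeta_mem (A := A) hζ
  refine le_antisymm (val_pow_sub_le hm i) ?_
  have hcop : Nat.Coprime i q := (Nat.coprime_comm.mp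
    ((Nat.Prime.coprime_iff_not_dvd hq.out).mpr hi))
  have h1 : IsPrimitiveRoot (ζ ^ i) q := hζ.pow_of_coprime i hcop
  obtain ⟨j, -, hj⟩ := h1.eq_pow_of_pow_eq_one hζ.pow_eq_one
  have h2 := val_pow_sub_le (pow_mem hm i) j
  rwa [hj] at h2

include hζ in
theorem val_q : A.valuation (q : ℚbar) = A.valuation (ζ - 1) ^ (q - 1) := by
  obtain ⟨n, hn⟩ : ∃ n, q = n + 1 := ⟨q - 1, (Nat.succ_pred_eq_of_pos hq.out.pos).symm⟩
  have h1 := IsPrimitiveRoot.prod_one_sub_pow_eq_order (μ := ζ) (n := n) (by rwa [← hn])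
  have h2 : ((q : ℕ) : ℚbar) = ∏ k ∈ Finset.range n, (1 - ζ ^ (k + 1)) := by
    rw [h1, hn]; push_cast; ring
  rw [h2, map_prod, Finset.prod_congr rfl (g := fun _ => A.valuation (ζ - 1)),
    Finset.prod_const, Finset.card_range, hn, Nat.add_sub_cancel]
  intro k hk
  rw [Finset.mem_range] at hk
  rw [Valuation.map_sub_swap]
  apply val_pow_sub hζ
  intro h
  have := Nat.le_of_dvd (by omega) h
  omega

include hA hζ in
theorem zpow_inj {m n : ℤ} (h : A.valuation (ζ - 1) ^ m = A.valuation (ζ - 1) ^ n) : m = n :=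
  (zpow_right_strictAnti₀ (zero_lt_iff.mpr ((Valuation.ne_zero_iff _).mpr (sub_one_ne_zero hζ)))
    (sub_one_lt hA hζ)).injective h

include hA in
/-- fixed elements have valuation in `v(q)^ℤ` -/
theorem val_fixed_inertia {x : ℚbar} (hx : x ≠ 0)
    (hfix : ∀ σ ∈ A.inertiaSubgroupIn ℚ, σ x = x) :
    ∃ n : ℤ, A.valuation x = A.valuation (q : ℚbar) ^ n := by
  obtain ⟨n, hn⟩ := DR.InertiaValue.exists_zpow_of_inertia_fixed A hq.out hA hx hfix
  refine ⟨-n, ?_⟩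
  rw [map_mul, map_zpow₀] at hn
  rw [zpow_neg]
  exact eq_inv_of_mul_eq_one_left hn

include hA in
theorem exists_inertia_zeta (hζ : IsPrimitiveRoot ζ q) {i : ℕ} (hi : ¬ q ∣ i) :
    ∃ τ ∈ A.inertiaSubgroupIn ℚ, τ ζ = ζ ^ i := by
  classical
  have hne : NeZero q := ⟨hq.out.ne_zero⟩
  let χ : (ℚbar ≃ₐ[ℚ] ℚbar) →* (ZMod q)ˣ := hζ.autToPow ℚ
  have hχ : ∀ σ : ℚbar ≃ₐ[ℚ] ℚbar, ζ ^ ((χ σ : ZMod q)).val = σ ζ := fun σ =>
    hζ.autToPow_spec ℚ σ
  let H : Subgroup (ZMod q)ˣ := (A.inertiaSubgroupIn ℚ).map χ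
  let S : Finset (ZMod q)ˣ := Finset.univ.filter (· ∈ H)
  have hS : ∀ c, c ∈ S ↔ c ∈ H := fun c => by simp [S]
  let x : ℚbar := ∏ c ∈ S, (ζ ^ ((c : ZMod q)).val - 1)
  have hndvd : ∀ c : (ZMod q)ˣ, ¬ q ∣ ((c : ZMod q)).val := by
    intro c h
    have h1 : ((c : ZMod q).val : ZMod q) = 0 := (ZMod.natCast_eq_zero_iff _ _).mpr h
    rw [ZMod.natCast_zmod_val] at h1
    exact c.ne_zero h1
  have hfix : ∀ σ ∈ A.inertiaSubgroupIn ℚ, σ x = x := by
    intro σ hσ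
    have hσH : χ σ ∈ H := ⟨σ, hσ, rfl⟩
    rw [map_prod]
    refine Finset.prod_bij (fun c _ => χ σ * c) ?_ ?_ ?_ ?_
    · intro c hc
      exact (hS _).mpr (H.mul_mem hσH ((hS c).mp hc))
    · intro c _ d _ h
      exact mul_left_cancel h
    · intro c hc
      exact ⟨(χ σ)⁻¹ * c, (hS _).mpr (H.mul_mem (H.inv_mem hσH) ((hS c).mp hc)),
        mul_inv_cancel_left _ _⟩
    · intro c _
      rw [map_sub, map_pow, map_one, ← hχ σ, ← pow_mul]
      congr 1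
      rw [pow_eq_pow_mod _ hζ.pow_eq_one, pow_eq_pow_mod (((χ σ * c : (ZMod q)ˣ) : ZMod q)).val
        hζ.pow_eq_one, Units.val_mul, ZMod.val_mul, Nat.mod_mod]
  have hx : x ≠ 0 := by
    refine Finset.prod_ne_zero_iff.mpr fun c _ => ?_
    rw [sub_ne_zero]
    intro h
    exact hndvd c ((hζ.pow_eq_one_iff_dvd _).mp h)
  have hvx : A.valuation x = A.valuation (ζ - 1) ^ S.card := by
    rw [map_prod, Finset.prod_congr rfl (g := fun _ => A.valuation (ζ - 1)), Finset.prod_const]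
    intro c _
    exact val_pow_sub hζ (hndvd c)
  obtain ⟨n, hn⟩ := val_fixed_inertia hA hx hfix
  rw [hvx, val_q hζ, ← zpow_natCast, ← zpow_natCast, ← zpow_mul] at hn
  have hn' := zpow_inj hA hζ hn
  have h1S : (1 : (ZMod q)ˣ) ∈ S := (hS 1).mpr H.one_mem
  have hpos : 0 < S.card := Finset.card_pos.mpr ⟨1, h1S⟩
  have hcard : Fintype.card (ZMod q)ˣ = q - 1 := ZMod.card_units q
  have hle : S.card ≤ q - 1 := by
    rw [← hcard]; exact Finset.card_le_univ S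
  have heq : S.card = q - 1 := by
    have hdvd : q - 1 ∣ S.card := by
      have : ((q - 1 : ℕ) : ℤ) ∣ (S.card : ℤ) := ⟨n, hn'⟩
      exact_mod_cast this
    exact le_antisymm hle (Nat.le_of_dvd hpos hdvd)
  have huniv : S = Finset.univ := Finset.eq_univ_of_card S (by rw [heq, hcard])
  -- the class of `i`
  have hi0 : (i : ZMod q) ≠ 0 := by rwa [Ne, ZMod.natCast_eq_zero_iff]
  have hmem : Units.mk0 (i : ZMod q) hi0 ∈ H := (hS _).mp (huniv ▸ Finset.mem_univ _)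
  obtain ⟨τ, hτ, hτi⟩ := hmem
  refine ⟨τ, hτ, ?_⟩
  rw [← hχ τ, hτi, Units.val_mk0, ZMod.val_natCast]
  exact (pow_eq_pow_mod i hζ.pow_eq_one).symm

include hA in
/-- elements fixed by the inertia elements fixing `ζ` have valuation in `v(ζ-1)^ℤ` -/
theorem val_fixed_zeta (hζ : IsPrimitiveRoot ζ q) {x : ℚbar} (hx : x ≠ 0)
    (hfix : ∀ σ ∈ A.inertiaSubgroupIn ℚ, σ ζ = ζ → σ x = x) :
    ∃ n : ℤ, A.valuation x = A.valuation (ζ - 1) ^ n := by
  classical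
  have hne : NeZero q := ⟨hq.out.ne_zero⟩
  have hchoose : ∀ c : (ZMod q)ˣ, ∃ τ : ℚbar ≃ₐ[ℚ] ℚbar, τ ∈ A.inertiaSubgroupIn ℚ ∧
      τ ζ = ζ ^ (c : ZMod q).val := by
    intro c
    obtain ⟨τ, h1, h2⟩ := exists_inertia_zeta (i := (c : ZMod q).val) hA hζ (by
      intro h
      have h1 : ((c : ZMod q).val : ZMod q) = 0 := (ZMod.natCast_eq_zero_iff _ _).mpr h
      rw [ZMod.natCast_zmod_val] at h1
      exact c.ne_zero h1)
    exact ⟨τ, h1, h2⟩
  choose τ hτ hτζ using hchoose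
  let χ : (ℚbar ≃ₐ[ℚ] ℚbar) →* (ZMod q)ˣ := hζ.autToPow ℚ
  have hχ : ∀ σ : ℚbar ≃ₐ[ℚ] ℚbar, ζ ^ ((χ σ : ZMod q)).val = σ ζ := fun σ =>
    hζ.autToPow_spec ℚ σ
  let y : ℚbar := ∏ c : (ZMod q)ˣ, τ c x
  have hyfix : ∀ σ ∈ A.inertiaSubgroupIn ℚ, σ y = y := by
    intro σ hσ
    rw [map_prod]
    refine Fintype.prod_bijective (fun c => χ σ * c) (Group.mulLeft_bijective _) _ _ fun c => ?_
    -- `σ (τ c x) = τ (χ σ * c) x`
    have h1 : (τ (χ σ * c))⁻¹ * (σ * τ c) ∈ A.inertiaSubgroupIn ℚ :=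
      Subgroup.mul_mem _ (Subgroup.inv_mem _ (hτ _)) (Subgroup.mul_mem _ hσ (hτ _))
    have h2 : ((τ (χ σ * c))⁻¹ * (σ * τ c)) ζ = ζ := by
      rw [AlgEquiv.mul_apply, AlgEquiv.mul_apply, hτζ, map_pow, ← hχ σ, ← pow_mul]
      have h3 : ζ ^ (((χ σ : ZMod q)).val * ((c : ZMod q)).val) = τ (χ σ * c) ζ := by
        rw [hτζ, pow_eq_pow_mod _ hζ.pow_eq_one,
          pow_eq_pow_mod (((χ σ * c : (ZMod q)ˣ) : ZMod q)).val hζ.pow_eq_one, Units.val_mul,
          ZMod.val_mul, Nat.mod_mod]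
      rw [h3]
      exact (τ (χ σ * c)).symm_apply_apply ζ
    have h4 := hfix _ h1 h2
    rw [AlgEquiv.mul_apply, AlgEquiv.mul_apply] at h4
    have h5 := congrArg (τ (χ σ * c)) h4
    have h6 : ∀ z, τ (χ σ * c) ((τ (χ σ * c))⁻¹ z) = z := fun z =>
      (τ (χ σ * c)).apply_symm_apply z
    rw [h6] at h5
    exact h5
  have hy : y ≠ 0 := Finset.prod_ne_zero_iff.mpr fun c _ => by simpa using hx
  obtain ⟨n, hn⟩ := val_fixed_inertia hA hy hyfix
  have hvy : A.valuation y = A.valuation x ^ (q - 1) := by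
    rw [map_prod, Finset.prod_congr rfl (g := fun _ => A.valuation x), Finset.prod_const,
      Finset.card_univ, ZMod.card_units q]
    intro c _
    exact val_eq_of_inertia (hτ c) x
  refine ⟨n, ?_⟩
  have hcomm : (A.valuation (ζ - 1) ^ (q - 1)) ^ n = (A.valuation (ζ - 1) ^ n) ^ (q - 1) := by
    rw [← zpow_natCast, ← zpow_natCast, ← zpow_mul, ← zpow_mul, mul_comm]
  rw [hvy, val_q hζ, hcomm] at hn
  have hq1 : q - 1 ≠ 0 := by have := hq.out.one_lt; omega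
  exact (pow_left_inj₀ zero_le zero_le hq1).mp hn

include hζ in
theorem exists_qnum {k : Type*} [Field k] {π : A →+* k} (h1 : ∀ h : ζ ∈ A, π ⟨ζ, h⟩ = 1) (i : ℕ) :
    ∃ e : A, ζ ^ i - 1 = (ζ - 1) * e ∧ π e = i := by
  have hne : NeZero q := ⟨hq.out.ne_zero⟩
  have hm := zeta_mem (A := A) hζ
  refine ⟨∑ j ∈ Finset.range i, (⟨ζ, hm⟩ : A) ^ j, ?_, ?_⟩
  · rw [← mul_geom_sum]
    push_cast
    rfl
  · rw [map_sum, Finset.sum_congr rfl (g := fun _ => (1 : k))]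
    · simp
    · intro j _
      rw [map_pow, h1 hm, one_pow]

include hA hζ in
/-- `(ζ-1)^{q-1} / q ≡ -1` -/
theorem res_pow_div {k : Type*} [Field k] {π : A →+* k} (hπ : Function.Surjective π) :
    ∃ h : (ζ - 1) ^ (q - 1) / (q : ℚbar) ∈ A, π ⟨_, h⟩ = -1 := by
  have hne : NeZero q := ⟨hq.out.ne_zero⟩
  have hm := zeta_mem (A := A) hζ
  have hres := fun h : ζ ∈ A => res_zeta hA hζ hπ h
  choose e he1 he2 using exists_qnum (A := A) (π := π) hζ hres
  obtain ⟨n, hn⟩ : ∃ n, q = n + 1 := ⟨q - 1, (Nat.succ_pred_eq_of_pos hq.out.pos).symm⟩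
  have hn1 : q - 1 = n := by omega
  have h1 := IsPrimitiveRoot.prod_one_sub_pow_eq_order (μ := ζ) (n := n) (by rwa [← hn])
  have hk : (q : k) = 0 := by
    have h2 : π (q : A) = 0 := by
      have h3 : π ⟨(q : ℚbar), (q : A).2⟩ = 0 :=
        (DR.Mono.res_eq_zero_iff hπ _).mpr (DR.Mono.val_q_lt_one hA)
      exact h3
    rwa [map_natCast] at h2
  have hchar : CharP k q := (CharP.charP_iff_prime_eq_zero hq.out).mpr hk
  -- `q = (-1)^n (ζ-1)^n ∏ e (k+1)`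
  have h2 : (q : ℚbar) = (ζ - 1) ^ n * ((-1) ^ n * ∏ k ∈ Finset.range n, (e (k + 1) : ℚbar)) := by
    have h3 : (q : ℚbar) = ∏ k ∈ Finset.range n, (1 - ζ ^ (k + 1)) := by
      rw [h1, hn]; push_cast; ring
    rw [h3, Finset.prod_congr rfl (g := fun k => (ζ - 1) * (-1 * (e (k + 1) : ℚbar)))]
    · rw [Finset.prod_mul_distrib, Finset.prod_mul_distrib, Finset.prod_const, Finset.prod_const,
        Finset.card_range]
    · intro k _
      linear_combination -(he1 (k + 1))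
  set E : A := (-1) ^ n * ∏ k ∈ Finset.range n, e (k + 1) with hE
  have hEres : π E = -1 := by
    have h4 : ∏ i ∈ Finset.range n, π (e (i + 1)) = ((n.factorial : ℕ) : k) := by
      rw [← Finset.prod_range_add_one_eq_factorial, Nat.cast_prod]
      exact Finset.prod_congr rfl fun i _ => he2 (i + 1)
    have h5 : ((n.factorial : ℕ) : k) = -1 := by
      have h6 := congrArg (ZMod.castHom (dvd_refl q) k) (ZMod.wilsons_lemma q)
      rwa [map_natCast, map_neg, map_one, hn1] at h6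
    have h7 : ((-1 : k)) ^ n = 1 := by
      rcases hq.out.eq_two_or_odd' with h2' | hodd
      · have : (-1 : k) = 1 := by
          subst h2'
          have h8 : ((2 : ℕ) : k) = 0 := hk
          push_cast at h8
          linear_combination -h8
        rw [this, one_pow]
      · have heven : Even n := by
          rw [← hn1]
          exact hodd.tsub_odd odd_one
        exact heven.neg_one_pow
    rw [hE, map_mul, map_pow, map_neg, map_one, map_prod, h4, h5, h7, one_mul]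
  have hEu : IsUnit E := isUnit_of_res_ne_zero hπ (by rw [hEres]; exact neg_ne_zero.mpr one_ne_zero)
  obtain ⟨b, hb⟩ := isUnit_iff_exists_inv.mp hEu
  have hb' : (E : ℚbar) * (b : ℚbar) = 1 := congrArg Subtype.val hb
  have hEc : (E : ℚbar) = (-1) ^ n * ∏ k ∈ Finset.range n, (e (k + 1) : ℚbar) := by
    rw [hE]; push_cast; rfl
  have hz : (ζ - 1) ^ n ≠ 0 := pow_ne_zero _ (sub_one_ne_zero hζ)
  have hE0 : (E : ℚbar) ≠ 0 := left_ne_zero_of_mul_eq_one hb'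
  have h9 : (ζ - 1) ^ (q - 1) / (q : ℚbar) = (b : ℚbar) := by
    rw [hn1, h2, ← hEc]
    field_simp
    exact hb'.symm
  refine ⟨h9 ▸ b.2, ?_⟩
  have h10 : (⟨(ζ - 1) ^ (q - 1) / (q : ℚbar), h9 ▸ b.2⟩ : A) = b := Subtype.ext h9
  rw [h10]
  have h11 := congrArg π hb
  rw [map_mul, hEres, map_one] at h11
  linear_combination -h11

end Fermat.Agent.Q2.Cyclo
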