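import Mathlib
import Fermat.Agent.Q2.GaussVal
import Fermat.Agent.DR.S36.Core

set_option autoImplicit false

/-!
# Discrete valuations with residues from embeddings in `K((t))`

`EmbV hπ FL κ`: an embedding `e : FL → K((t))` with quotient-fg image on which the Gauss valuation
takes values in `g ^ ℤ` and all residues lie in `κ ⊂ k((t))`.  It gives an additive discrete
valuation `ordT : FL → ℤ ∪ {∞}`, `ord : FL → ℤ`, a valuation ring `W`, and residues `Res f u`.
-/

noncomputable section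

namespace Fermat.Agent.Q2

open HahnSeries ModularCurve Fermat.Agent.JRED Fermat.Agent.S28

/-- A discretely valued field embedded in `K((t))`. -/
structure EmbV {K k : Type*} [Field K] [Field k] {A : ValuationSubring K} {π : A →+* k}
    (hπ : Function.Surjective π) (FL : Type*) [Field FL]
    (κ : IntermediateField k (LaurentSeries k)) where
  e : FL →+* LaurentSeries K
  mem : ∀ f, e f ∈ fgField K
  g : A.ValueGroup
  g_pos : 0 < g
  g_lt : g < 1
  val : ∀ f, f ≠ 0 → ∃ n : ℤ, embVal hπ e mem f = g ^ n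
  res : ∀ f u, GRed π (e f) u → u ∈ κ

namespace EmbV

variable {K k : Type*} [Field K] [Field k] {A : ValuationSubring K} {π : A →+* k}
  {hπ : Function.Surjective π} {FL : Type*} [Field FL]
  {κ : IntermediateField k (LaurentSeries k)} (X : EmbV hπ FL κ)

/-- the valuation -/
def V : Valuation FL A.ValueGroup := embVal hπ X.e X.mem

/-- the additive valuation -/
def ordT : AddValuation FL (WithTop ℤ) := discVal X.V X.g_pos X.g_lt X.val

/-- the order as an integer (junk value at `0`) -/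
def ord (f : FL) : ℤ := (X.ordT f).untopD 0

/-- the residue relation -/
def Res (f : FL) (u : κ) : Prop := GRed π (X.e f) (u : LaurentSeries k)

theorem ordT_eq_iff {f : FL} {n : ℤ} : X.ordT f = n ↔ X.V f = X.g ^ n :=
  discVal_eq_iff X.V X.g_pos X.g_lt X.val

theorem ordT_eq {f : FL} (hf : f ≠ 0) : X.ordT f = (X.ord f : ℤ) := by
  have h := discVal_ne_top X.V X.g_pos X.g_lt X.val hf
  obtain ⟨n, hn⟩ := WithTop.ne_top_iff_exists.mp h
  have h1 : X.ordT f = n := hn.symm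
  rw [ord, h1, WithTop.untopD_coe]

theorem ord_eq_iff {f : FL} (hf : f ≠ 0) {n : ℤ} : X.ord f = n ↔ X.V f = X.g ^ n := by
  rw [← ordT_eq_iff, X.ordT_eq hf, WithTop.coe_inj]

theorem V_eq {f : FL} (hf : f ≠ 0) : X.V f = X.g ^ X.ord f := (X.ord_eq_iff hf).mp rfl

theorem ord_mul {f g : FL} (hf : f ≠ 0) (hg : g ≠ 0) : X.ord (f * g) = X.ord f + X.ord g := by
  rw [X.ord_eq_iff (mul_ne_zero hf hg), map_mul, X.V_eq hf, X.V_eq hg, zpow_add₀ X.g_pos.ne']

theorem ord_one : X.ord 1 = 0 := by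
  rw [X.ord_eq_iff one_ne_zero, map_one, zpow_zero]

theorem ord_pow {f : FL} (hf : f ≠ 0) (n : ℕ) : X.ord (f ^ n) = n * X.ord f := by
  rw [X.ord_eq_iff (pow_ne_zero n hf), map_pow, X.V_eq hf, ← zpow_natCast, ← zpow_mul, mul_comm]

theorem ord_inv {f : FL} (hf : f ≠ 0) : X.ord f⁻¹ = -X.ord f := by
  rw [X.ord_eq_iff (inv_ne_zero hf), map_inv₀, X.V_eq hf, zpow_neg]

theorem ord_zpow {f : FL} (hf : f ≠ 0) (n : ℤ) : X.ord (f ^ n) = n * X.ord f := by
  rw [X.ord_eq_iff (zpow_ne_zero n hf), map_zpow₀, X.V_eq hf, ← zpow_mul, mul_comm]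

theorem V_le_one_iff {f : FL} : X.V f ≤ 1 ↔ ∃ u : κ, X.Res f u := by
  constructor
  · intro h
    obtain ⟨u, hu⟩ := (embVal_le_one_iff hπ X.mem).mp h
    exact ⟨⟨u, X.res f u hu⟩, hu⟩
  · rintro ⟨u, hu⟩
    exact (embVal_le_one_iff hπ X.mem).mpr ⟨_, hu⟩

theorem V_lt_one_iff {f : FL} : X.V f < 1 ↔ X.Res f 0 := embVal_lt_one_iff hπ X.mem

theorem V_eq_one_iff {f : FL} : X.V f = 1 ↔ ∃ u : κ, u ≠ 0 ∧ X.Res f u := by
  constructor
  · intro h
    obtain ⟨u, hu0, hu⟩ := (embVal_eq_one_iff hπ X.mem).mp h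
    exact ⟨⟨u, X.res f u hu⟩, fun h0 => hu0 (congrArg Subtype.val h0), hu⟩
  · rintro ⟨u, hu0, hu⟩
    exact (embVal_eq_one_iff hπ X.mem).mpr ⟨_, fun h0 => hu0 (Subtype.ext h0), hu⟩

theorem ordT_nonneg_iff {f : FL} : 0 ≤ X.ordT f ↔ X.V f ≤ 1 :=
  discVal_nonneg_iff X.V X.g_pos X.g_lt X.val

theorem ordT_pos_iff {f : FL} : 0 < X.ordT f ↔ X.V f < 1 :=
  discVal_pos_iff X.V X.g_pos X.g_lt X.val

theorem ord_nonneg_iff {f : FL} (hf : f ≠ 0) : 0 ≤ X.ord f ↔ X.V f ≤ 1 := by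
  rw [← X.ordT_nonneg_iff, X.ordT_eq hf]
  exact_mod_cast Iff.rfl

theorem ord_pos_iff {f : FL} (hf : f ≠ 0) : 0 < X.ord f ↔ X.V f < 1 := by
  rw [← X.ordT_pos_iff, X.ordT_eq hf]
  exact_mod_cast Iff.rfl

theorem ord_eq_zero_iff {f : FL} (hf : f ≠ 0) : X.ord f = 0 ↔ X.V f = 1 := by
  rw [X.ord_eq_iff hf, zpow_zero]

/-- `f` has a residue iff it is integral -/
theorem ordT_nonneg_iff_res {f : FL} : 0 ≤ X.ordT f ↔ ∃ u : κ, X.Res f u := by
  rw [ordT_nonneg_iff, V_le_one_iff]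

theorem res_zero_iff {f : FL} : X.Res f 0 ↔ 0 < X.ordT f := by
  rw [ordT_pos_iff, V_lt_one_iff]

/-! ### laws of residues -/

theorem Res.add {f g : FL} {u v : κ} (h : X.Res f u) (h' : X.Res g v) : X.Res (f + g) (u + v) := by
  unfold Res
  rw [map_add]
  exact GRed.add h h'

theorem Res.mul {f g : FL} {u v : κ} (h : X.Res f u) (h' : X.Res g v) : X.Res (f * g) (u * v) := by
  unfold Res
  rw [map_mul]
  exact GRed.mul h h'

theorem res_unique {f : FL} {u v : κ} (h : X.Res f u) (h' : X.Res f v) : u = v :=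
  Subtype.ext (GRed.unique h h')

theorem res_one : X.Res 1 1 := by
  unfold Res
  rw [map_one]
  have h := GRed.const (π := π) 1
  rw [map_one, OneMemClass.coe_one, map_one, map_one] at h
  exact h

theorem res_zero : X.Res 0 0 := by
  rw [← V_lt_one_iff, map_zero]
  exact zero_lt_one

theorem Res.neg {f : FL} {u : κ} (h : X.Res f u) : X.Res (-f) (-u) := by
  have h1 : X.V (-f) ≤ 1 := by
    rw [Valuation.map_neg]
    exact X.V_le_one_iff.mpr ⟨u, h⟩
  obtain ⟨v, hv⟩ := X.V_le_one_iff.mp h1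
  have h2 := Res.add X h hv
  rw [add_neg_cancel] at h2
  have h3 := X.res_unique h2 X.res_zero
  rwa [eq_neg_of_add_eq_zero_right h3] at hv

theorem Res.sub {f g : FL} {u v : κ} (h : X.Res f u) (h' : X.Res g v) : X.Res (f - g) (u - v) := by
  rw [sub_eq_add_neg, sub_eq_add_neg]
  exact Res.add X h (Res.neg X h')

theorem Res.pow {f : FL} {u : κ} (h : X.Res f u) (n : ℕ) : X.Res (f ^ n) (u ^ n) := by
  induction n with
  | zero => simpa using X.res_one
  | succ n ih => rw [pow_succ, pow_succ]; exact Res.mul X ih h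

theorem Res.sum {ι : Type*} {s : Finset ι} {f : ι → FL} {u : ι → κ}
    (h : ∀ i ∈ s, X.Res (f i) (u i)) : X.Res (∑ i ∈ s, f i) (∑ i ∈ s, u i) := by
  classical
  induction s using Finset.induction_on with
  | empty => simpa using X.res_zero
  | insert a s ha ih =>
    rw [Finset.sum_insert ha, Finset.sum_insert ha]
    exact Res.add X (h a (Finset.mem_insert_self a s))
      (ih fun i hi => h i (Finset.mem_insert_of_mem hi))

theorem ord_eq_zero_of_res {f : FL} {u : κ} (h : X.Res f u) (hu : u ≠ 0) :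
    f ≠ 0 ∧ X.ord f = 0 := by
  have hf : f ≠ 0 := by
    rintro rfl
    exact hu (X.res_unique h X.res_zero)
  exact ⟨hf, (X.ord_eq_zero_iff hf).mpr (X.V_eq_one_iff.mpr ⟨u, hu, h⟩)⟩

theorem exists_res {f : FL} (hf : f ≠ 0) (h : X.ord f = 0) : ∃ u : κ, u ≠ 0 ∧ X.Res f u :=
  X.V_eq_one_iff.mp ((X.ord_eq_zero_iff hf).mp h)

theorem Res.inv {f : FL} {u : κ} (h : X.Res f u) (hu : u ≠ 0) : X.Res f⁻¹ u⁻¹ := by
  obtain ⟨hf, h0⟩ := X.ord_eq_zero_of_res h hu
  obtain ⟨v, -, hv⟩ := X.exists_res (inv_ne_zero hf) (by rw [X.ord_inv hf, h0, neg_zero])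
  have h1 := Res.mul X h hv
  rw [mul_inv_cancel₀ hf] at h1
  have h2 := X.res_unique h1 X.res_one
  rwa [eq_inv_of_mul_eq_one_right h2] at hv

theorem Res.div {f g : FL} {u v : κ} (h : X.Res f u) (h' : X.Res g v) (hv : v ≠ 0) :
    X.Res (f / g) (u / v) := by
  rw [div_eq_mul_inv, div_eq_mul_inv]
  exact Res.mul X h (Res.inv X h' hv)

/-! ### the valuation ring -/

/-- the valuation ring -/
def W : ValuationSubring FL := X.V.valuationSubring

theorem mem_W {f : FL} : f ∈ X.W ↔ X.V f ≤ 1 := Iff.rfl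

theorem mem_W_iff_res {f : FL} : f ∈ X.W ↔ ∃ u : κ, X.Res f u := by
  rw [mem_W, V_le_one_iff]

theorem W_val_lt_one_iff {f : FL} : X.W.valuation f < 1 ↔ X.V f < 1 :=
  (Valuation.isEquiv_iff_val_lt_one.mp (Valuation.isEquiv_valuation_valuationSubring X.V)).symm

theorem W_val_eq_one_iff {f : FL} : X.W.valuation f = 1 ↔ X.V f = 1 :=
  (Valuation.isEquiv_iff_val_eq_one.mp (Valuation.isEquiv_valuation_valuationSubring X.V)).symm

theorem W_val_le_iff {f g : FL} : X.W.valuation f ≤ X.W.valuation g ↔ X.V f ≤ X.V g :=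
  ((Valuation.isEquiv_valuation_valuationSubring X.V) f g).symm

theorem W_val_lt_one_iff_res {f : FL} : X.W.valuation f < 1 ↔ X.Res f 0 := by
  rw [W_val_lt_one_iff, V_lt_one_iff]

/-- rank one -/
theorem exists_pow_mul_mem {f g : FL} (hf : X.W.valuation f < 1) : ∃ N : ℕ, f ^ N * g ∈ X.W := by
  rw [W_val_lt_one_iff] at hf
  by_cases hf0 : f = 0
  · exact ⟨1, by rw [hf0, pow_one, zero_mul]; exact zero_mem _⟩
  by_cases hg0 : g = 0
  · exact ⟨1, by rw [hg0, mul_zero]; exact zero_mem _⟩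
  have h1 : 0 < X.ord f := (X.ord_pos_iff hf0).mpr hf
  refine ⟨(X.ord g).natAbs, ?_⟩
  rw [mem_W, ← X.ord_nonneg_iff (mul_ne_zero (pow_ne_zero _ hf0) hg0),
    X.ord_mul (pow_ne_zero _ hf0) hg0, X.ord_pow hf0]
  have h2 : -(X.ord g) ≤ (X.ord g).natAbs := by omega
  nlinarith

/-- The residue map. -/
def rho : X.W →+* κ where
  toFun f := (X.mem_W_iff_res.mp f.2).choose
  map_one' := X.res_unique (X.mem_W_iff_res.mp (1 : X.W).2).choose_spec X.res_one
  map_zero' := X.res_unique (X.mem_W_iff_res.mp (0 : X.W).2).choose_spec X.res_zero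
  map_mul' f g := X.res_unique (X.mem_W_iff_res.mp (f * g).2).choose_spec
    (Res.mul X (X.mem_W_iff_res.mp f.2).choose_spec (X.mem_W_iff_res.mp g.2).choose_spec)
  map_add' f g := X.res_unique (X.mem_W_iff_res.mp (f + g).2).choose_spec
    (Res.add X (X.mem_W_iff_res.mp f.2).choose_spec (X.mem_W_iff_res.mp g.2).choose_spec)

theorem res_rho (f : X.W) : X.Res (f : FL) (X.rho f) := (X.mem_W_iff_res.mp f.2).choose_spec

theorem rho_eq_iff {f : X.W} {u : κ} : X.rho f = u ↔ X.Res (f : FL) u :=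
  ⟨fun h => h ▸ X.res_rho f, fun h => X.res_unique (X.res_rho f) h⟩

theorem rho_eq_zero (f : X.W) : X.rho f = 0 ↔ X.W.valuation (f : FL) < 1 := by
  rw [rho_eq_iff, W_val_lt_one_iff_res]

end EmbV

section ToResVals

variable {K k : Type*} [Field K] [Field k] {A : ValuationSubring K} {π : A →+* k}
  {hπ : Function.Surjective π} {FL : Type*} [Field FL]
  {κ : IntermediateField k (LaurentSeries k)}

/-- Three embeddings give a `ResVals`. -/
def toResVals (X : Fin 3 → EmbV hπ FL κ) : DR.S36.ResVals FL κ where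
  w i f := (X i).ord f
  Res i f u := (X i).Res f u
  w_mul i _ _ hf hg := (X i).ord_mul hf hg
  res_one i := (X i).res_one
  res_mul i _ _ _ _ h h' := EmbV.Res.mul (X i) h h'
  res_unique i _ _ _ h h' := (X i).res_unique h h'
  exists_res i _ hf h := (X i).exists_res hf h
  w_eq_zero i _ _ h hu := (X i).ord_eq_zero_of_res h hu

end ToResVals

end Fermat.Agent.Q2
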