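import Mathlib
import Fermat.Agent.DR.S36.Level2Norm
import Fermat.Agent.DR.S36.LFun
import Fermat.Agent.Q2.Full

set_option autoImplicit false
set_option linter.unusedSectionVars false

/-!
# The generators `j(t^d)` of `F_{Nq²}` and the automorphisms `w₁`, `w₂`, the embeddings `ι_ζ`
-/

noncomputable section

namespace Fermat.Agent.Q2

open AlgebraicCurve ModularCurve
open Fermat.Agent.S28 Fermat.Agent.JRED Fermat.Agent.Jan.HeckeInputs
open Fermat.Agent.DR.S36 Fermat.Agent.DR.S36.L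
open Fermat.Agent.DR.Mod (IsAL)

section Gen

variable (K : Type) [Field K] [Algebra ℚ K] (M : ℕ) [NeZero M]

/-- the generator `j(t^d)` of `F_M` -/
def jg {d : ℕ} (hd : d ∣ M) : laurentBaseChange K (modularFunctionFieldFull M) :=
  ⟨jt 1 d, (mem_bc_iff K).mpr (jt_mem_full' (NeZero.ne M) hd)⟩

variable {K M}

theorem coe_jg {d : ℕ} (hd : d ∣ M) : (jg K M hd : LaurentSeries K) = jt 1 d := rfl

theorem alpha_jg (q : ℕ) [NeZero q] {d : ℕ} (hd : d ∣ M) :
    heckeAlphaBar K M q (jg K M hd) = jg K (M * q) (hd.mul_right q) :=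
  Subtype.ext (by rw [coe_heckeAlphaBar]; rfl)

theorem beta_jg (q : ℕ) [NeZero q] {d : ℕ} (hd : d ∣ M) :
    heckeBetaBar K M q (jg K M hd) = jg K (M * q) (mul_comm q M ▸ Nat.mul_dvd_mul_left q hd) :=
  Subtype.ext (by rw [coe_heckeBetaBar, coe_jg, coe_jg, qExpand_jt])

end Gen

section Cases

/-- divisors of `N q²` -/
theorem dvd_cases {N q d : ℕ} (hq : q.Prime) (hd : d ∣ N * q * q) :
    d ∣ N ∨ (∃ d₁, d₁ ∣ N ∧ d = q * d₁) ∨ ∃ d₁, d₁ ∣ N ∧ d = q * (q * d₁) := by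
  have h2 : N * q * q = N * q ^ (1 + 1) := by ring
  rw [h2] at hd
  rcases dvd_mul_pow_succ_cases (k := 1) hq hd with h | ⟨d₁, h, rfl⟩
  · rcases dvd_mul_pow_succ_cases (k := 0) hq h with h1 | ⟨d₁, h1, rfl⟩
    · left
      simpa using h1
    · right; left
      exact ⟨d₁, h1, by ring⟩
  · right; right
    exact ⟨d₁, h, by ring⟩

theorem dvd_top {N q d₁ : ℕ} (h : d₁ ∣ N) : q * (q * d₁) ∣ N * q * q := by
  rw [mul_comm N q, mul_comm (q * N) q]
  exact Nat.mul_dvd_mul_left q (Nat.mul_dvd_mul_left q h)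

theorem dvd_mid {N q d₁ : ℕ} (h : d₁ ∣ N) : q * d₁ ∣ N * q := by
  rw [mul_comm N q]
  exact Nat.mul_dvd_mul_left q h

end Cases

section AL

variable {K : Type} [Field K] [Algebra ℚ K] {N q : ℕ} [NeZero N] [NeZero q]
  {w₁ : laurentBaseChange K (modularFunctionFieldFull (N * q)) ≃ₐ[K]
      laurentBaseChange K (modularFunctionFieldFull (N * q))}
  {w₂ : laurentBaseChange K (modularFunctionFieldFull (N * q * q)) ≃ₐ[K]
      laurentBaseChange K (modularFunctionFieldFull (N * q * q))}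

theorem w₁_low (hw : IsAL w₁) {d : ℕ} (hd : d ∣ N) :
    w₁ (jg K (N * q) (hd.mul_right q)) = jg K (N * q) (dvd_mid hd) := by
  rw [← alpha_jg q hd, hw.alpha, beta_jg q hd]

theorem w₁_high (hw : IsAL w₁) {d : ℕ} (hd : d ∣ N) :
    w₁ (jg K (N * q) (dvd_mid hd)) = jg K (N * q) (hd.mul_right q) := by
  have h := hw.beta (jg K N hd)
  rwa [beta_jg q hd, alpha_jg q hd] at h

theorem w₂_low (hw : IsAL w₁) (h2 : IsAL2 w₁ w₂) {d : ℕ} (hd : d ∣ N) :
    w₂ (jg K (N * q * q) ((hd.mul_right q).mul_right q)) = jg K (N * q * q) (dvd_top hd) := by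
  rw [← alpha_jg q (hd.mul_right q), h2.alpha, w₁_low hw hd, beta_jg q (dvd_mid hd)]

theorem w₂_mid (hw : IsAL w₁) (h2 : IsAL2 w₁ w₂) {d : ℕ} (hd : d ∣ N) :
    w₂ (jg K (N * q * q) ((dvd_mid hd).mul_right q)) =
      jg K (N * q * q) ((dvd_mid hd).mul_right q) := by
  rw [← alpha_jg q (dvd_mid hd), h2.alpha, w₁_high hw hd, beta_jg q (hd.mul_right q),
    alpha_jg q (dvd_mid hd)]

theorem w₂_high (hw : IsAL w₁) (h2 : IsAL2 w₁ w₂) {d : ℕ} (hd : d ∣ N) :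
    w₂ (jg K (N * q * q) (dvd_top hd)) = jg K (N * q * q) ((hd.mul_right q).mul_right q) := by
  have h := h2.beta (jg K (N * q) (dvd_mid hd))
  rwa [beta_jg q (dvd_mid hd), w₁_high hw hd, alpha_jg q (hd.mul_right q)] at h

/-- `w₂ (j(t^d)) = j(t^{d'})`. -/
theorem w₂_gen (hq : q.Prime) (hw : IsAL w₁) (h2 : IsAL2 w₁ w₂) {d : ℕ} (hd : d ∣ N * q * q) :
    ∃ d' : ℕ, ∃ hd' : d' ∣ N * q * q, w₂ (jg K (N * q * q) hd) = jg K (N * q * q) hd' := by
  rcases dvd_cases hq hd with h | ⟨d₁, h, rfl⟩ | ⟨d₁, h, rfl⟩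
  · exact ⟨_, _, w₂_low hw h2 h⟩
  · exact ⟨_, _, w₂_mid hw h2 h⟩
  · exact ⟨_, _, w₂_high hw h2 h⟩

variable {z : Kˣ}
  {ι : laurentBaseChange K (modularFunctionFieldFull (N * q * q)) →+* LaurentSeries K}

theorem mid_low (h : IsMidB w₁ z ι) {d : ℕ} (hd : d ∣ N * q) :
    ι (jg K (N * q * q) (hd.mul_right q)) = jt 1 d := by
  rw [← alpha_jg q hd, h.alpha]
  rfl

theorem mid_high (hw : IsAL w₁) (h : IsMidB w₁ z ι) {d : ℕ} (hd : d ∣ N) :
    ι (jg K (N * q * q) (dvd_top hd)) = jt (z ^ d) d := by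
  have h1 := h.beta (jg K (N * q) (dvd_mid hd))
  rwa [beta_jg q (dvd_mid hd), w₁_high hw hd, coe_jg, twist_jt, mul_one] at h1

theorem mid_gen (hq : q.Prime) (hw : IsAL w₁) (h : IsMidB w₁ z ι) {d : ℕ}
    (hd : d ∣ N * q * q) :
    (d ∣ N * q ∧ ι (jg K (N * q * q) hd) = jt 1 d) ∨
      ∃ d₁, d₁ ∣ N ∧ d = q * (q * d₁) ∧ ι (jg K (N * q * q) hd) = jt (z ^ d₁) d₁ := by
  rcases dvd_cases hq hd with h' | ⟨d₁, h', rfl⟩ | ⟨d₁, h', rfl⟩
  · exact Or.inl ⟨h'.mul_right q, mid_low h (h'.mul_right q)⟩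
  · exact Or.inl ⟨dvd_mid h', mid_low h (dvd_mid h')⟩
  · exact Or.inr ⟨d₁, h', rfl, mid_high hw h h'⟩

end AL

section Inc

variable {L : Type} [Field L] [Algebra L (AlgebraicClosure ℚ)] {M : ℕ} [NeZero M]

theorem inc_jt {d : ℕ} (hd : d ∣ M) (h : jt (1 : Lˣ) d ∈ modularFunctionFieldFullC L M) :
    inc L M ⟨jt 1 d, h⟩ = jg (AlgebraicClosure ℚ) M hd :=
  Subtype.ext (by rw [coe_inc, coe_jg]; exact coeffMap_jt_one _ _)

/-- induction on the generators of `F_M(L)` -/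
theorem incField_hom_mem {R : Type*} [Field R]
    (φ : modularFunctionFieldBar M →+* R) (S : Subfield R)
    (hc : ∀ c : L, φ (algebraMap _ _ (algebraMap L (AlgebraicClosure ℚ) c)) ∈ S)
    (hj : ∀ (d : ℕ) (hd : d ∣ M), φ (jg (AlgebraicClosure ℚ) M hd) ∈ S)
    (x : modularFunctionFieldFullC L M) : φ (inc L M x) ∈ S := by
  refine full_hom_mem (φ.comp (inc L M)) S (fun c => ?_) (fun d h _ hd => ?_) x
  · rw [RingHom.comp_apply, inc_algebraMap]
    exact hc c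
  · rw [RingHom.comp_apply, inc_jt hd h]
    exact hj d hd

theorem incField_hom_ext {R : Type*} [Field R] {φ ψ : modularFunctionFieldBar M →+* R}
    (hc : ∀ c : L, φ (algebraMap _ _ (algebraMap L (AlgebraicClosure ℚ) c)) =
      ψ (algebraMap _ _ (algebraMap L (AlgebraicClosure ℚ) c)))
    (hj : ∀ (d : ℕ) (hd : d ∣ M), φ (jg (AlgebraicClosure ℚ) M hd) =
      ψ (jg (AlgebraicClosure ℚ) M hd))
    (x : modularFunctionFieldFullC L M) : φ (inc L M x) = ψ (inc L M x) := by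
  have h := full_hom_ext (φ := φ.comp (inc L M)) (ψ := ψ.comp (inc L M)) (fun c => ?_)
    (fun d h _ hd => ?_)
  · exact congrArg (fun g => g x) h
  · rw [RingHom.comp_apply, RingHom.comp_apply, inc_algebraMap]
    exact hc c
  · rw [RingHom.comp_apply, RingHom.comp_apply, inc_jt hd h]
    exact hj d hd

end Inc

end Fermat.Agent.Q2
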