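import Mathlib
import Fermat.Agent.Q2.EmbV
import Fermat.Agent.Q2.W2Gen
import Fermat.Agent.Q2.Cyclo

set_option autoImplicit false
set_option linter.unusedSectionVars false

/-!
# The three discrete valuations of the field of `L`-rational functions of `X₀(Nq²)`

`L = ℚ̄^I`.  `emb0` (standard expansion), `emb1` (middle embedding `ι_ζ`), `emb2` (expansion after
`w₂`).
-/

noncomputable section

namespace Fermat.Agent.Q2

open AlgebraicCurve ModularCurve
open Fermat.Agent.S28 Fermat.Agent.JRED Fermat.Agent.Jan.HeckeInputs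
open Fermat.Agent.DR.S36 Fermat.Agent.DR.S36.L
open Fermat.Agent.DR.Mod (IsAL)
open Fermat.Agent.JRED.ES (inclL inclL_apply)

local notation "ℚbar" => AlgebraicClosure ℚ

section Jt

variable {K k : Type*} [Field K] [Field k] {A : ValuationSubring K} {π : A →+* k}

theorem gred_jqModC : GRed π (jqModC K) (jqModC k) := by
  have h := GRed.of_int (π := π) (jqModC ℤ)
  rwa [coeffMap_jqModC, coeffMap_jqModC] at h

theorem gred_jt_res (hπ : Function.Surjective π) {ζ : Kˣ} {h : (ζ : K) ∈ A} (h1 : π ⟨ζ, h⟩ = 1)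
    (n : ℕ) : GRed π (jt ζ n) (jt 1 n) := by
  by_cases hn : n = 0
  · subst hn
    simp only [jt, dif_pos]
    exact GRed.zero
  have : NeZero n := ⟨hn⟩
  rw [jt_eq, jt_eq, twist_one]
  exact GRed.qExpand (GRed.twist_one_residue hπ gred_jqModC h1) n

theorem gred_jt (n : ℕ) : GRed π (jt (1 : Kˣ) n) (jt 1 n) := by
  by_cases hn : n = 0
  · subst hn
    simp only [jt, dif_pos]
    exact GRed.zero
  have : NeZero n := ⟨hn⟩
  rw [jt_one_eq, jt_one_eq]
  exact GRed.qExpand gred_jqModC n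

theorem jt_pow_char (q : ℕ) [NeZero q] [ExpChar k q] (n : ℕ) :
    jt (1 : kˣ) (q * n) = jt (1 : kˣ) n ^ q := by
  rw [Fermat.Agent.JRED.ES.laurent_pow_char, coeffMap_jt_one, qExpand_jt]

end Jt

section Restrict

variable {K k : Type*} [Field K] [Field k] {A : ValuationSubring K} {π : A →+* k}
  {hπ : Function.Surjective π} {FL : Type*} [Field FL]
  {κ : IntermediateField k (LaurentSeries k)}

/-- restrict the residue field -/
def EmbV.restrict (X : EmbV hπ FL ⊤) (h : ∀ f u, GRed π (X.e f) u → u ∈ κ) : EmbV hπ FL κ :=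
  { X with res := h }

end Restrict

section Sub

/-- The elements fixed by the inertia elements fixing `ζ`. -/
def fixZ (A : ValuationSubring ℚbar) (ζ : ℚbar) : Subfield ℚbar where
  carrier := {x | ∀ σ ∈ A.inertiaSubgroupIn ℚ, σ ζ = ζ → σ x = x}
  mul_mem' {x y} hx hy σ hσ h := by rw [map_mul, hx σ hσ h, hy σ hσ h]
  add_mem' {x y} hx hy σ hσ h := by rw [map_add, hx σ hσ h, hy σ hσ h]
  one_mem' σ _ _ := map_one σ
  zero_mem' σ _ _ := map_zero σ
  neg_mem' {x} hx σ hσ h := by rw [map_neg, hx σ hσ h]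
  inv_mem' x hx σ hσ h := by rw [map_inv₀, hx σ hσ h]

theorem mem_fixZ {A : ValuationSubring ℚbar} {ζ x : ℚbar} :
    x ∈ fixZ A ζ ↔ ∀ σ ∈ A.inertiaSubgroupIn ℚ, σ ζ = ζ → σ x = x := Iff.rfl

theorem self_mem_fixZ (A : ValuationSubring ℚbar) (ζ : ℚbar) : ζ ∈ fixZ A ζ :=
  fun _ _ h => h

end Sub

section Emb

variable {A : ValuationSubring ℚbar} {k : Type} [Field k] {π : A →+* k}
  (hπ : Function.Surjective π) {N q : ℕ} [NeZero N] [NeZero q] [hq : Fact q.Prime]
  {L : Type} [Field L] [Algebra L ℚbar] [IsInertiaField A L]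
  (hA : A.LiesOverPrime q)

theorem val_q_pos : 0 < A.valuation (q : ℚbar) :=
  zero_lt_iff.mpr ((Valuation.ne_zero_iff _).mpr (Nat.cast_ne_zero.mpr hq.out.ne_zero))

include hA in
theorem val_L {c : L} (hc : c ≠ 0) :
    ∃ n : ℤ, A.valuation (algebraMap L ℚbar c) = A.valuation (q : ℚbar) ^ n :=
  Cyclo.val_fixed_inertia hA (by simpa using hc) fun _ hσ => fixed_algebraMap c hσ

/-- The standard expansion. -/
def emb0 : EmbV hπ (modularFunctionFieldFullC L (N * q * q)) ⊤ where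
  e := (inclL ℚbar (N * q * q)).comp (inc L (N * q * q))
  mem f := coeffMap_mem_fgField _ (full_mem_fgField f)
  g := A.valuation (q : ℚbar)
  g_pos := val_q_pos
  g_lt := DR.Mono.val_q_lt_one hA
  val f hf := gaussVal_sub hπ (algebraMap L ℚbar) (fun _ hc => val_L hA hc) _
    (fun h0 => hf (by
      have h1 : (inclL ℚbar (N * q * q)).comp (inc L (N * q * q)) f = 0 :=
        congrArg Subtype.val h0
      exact (map_eq_zero _).mp h1))
    ⟨f, full_mem_fgField f, rfl⟩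
  res _ _ _ := IntermediateField.mem_top

variable {w₁ : laurentBaseChange ℚbar (modularFunctionFieldFull (N * q)) ≃ₐ[ℚbar]
      laurentBaseChange ℚbar (modularFunctionFieldFull (N * q))}
  {w₂ : laurentBaseChange ℚbar (modularFunctionFieldFull (N * q * q)) ≃ₐ[ℚbar]
      laurentBaseChange ℚbar (modularFunctionFieldFull (N * q * q))}

/-- `w₂ : F_{Nq²} → K((t))` -/
def w₂L (w₂ : laurentBaseChange ℚbar (modularFunctionFieldFull (N * q * q)) ≃ₐ[ℚbar]
      laurentBaseChange ℚbar (modularFunctionFieldFull (N * q * q))) :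
    laurentBaseChange ℚbar (modularFunctionFieldFull (N * q * q)) →+* LaurentSeries ℚbar :=
  (inclL ℚbar (N * q * q)).comp (w₂ : _ →+* _)

theorem w₂L_apply (f : laurentBaseChange ℚbar (modularFunctionFieldFull (N * q * q))) :
    w₂L w₂ f = (w₂ f : LaurentSeries ℚbar) := rfl

theorem w₂L_mem (hw : IsAL w₁) (h2 : IsAL2 w₁ w₂)
    (f : modularFunctionFieldFullC L (N * q * q)) :
    w₂L w₂ (inc L (N * q * q) f) ∈ (fgField L).map (coeffMap (algebraMap L ℚbar)) := by
  refine incField_hom_mem (w₂L w₂) _ (fun c => ?_) (fun d hd => ?_) f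
  · rw [w₂L_apply, AlgEquiv.commutes]
    exact ⟨algebraMap L (LaurentSeries L) c, (FGCoeff.const c).mem_fgField,
      coeffMap_algebraMap' _ c⟩
  · obtain ⟨d', hd', h⟩ := w₂_gen hq.out hw h2 hd
    rw [w₂L_apply, h, coe_jg]
    exact ⟨jt 1 d', (fgCoeff_jt one_ne_zero (one_pow 1) d').mem_fgField, coeffMap_jt_one _ _⟩

/-- The expansion after `w₂`. -/
def emb2 (hw : IsAL w₁) (h2 : IsAL2 w₁ w₂) :
    EmbV hπ (modularFunctionFieldFullC L (N * q * q)) ⊤ where
  e := (w₂L w₂).comp (inc L (N * q * q))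
  mem f := by
    obtain ⟨g, hg, h⟩ := w₂L_mem (L := L) hw h2 f
    rw [RingHom.comp_apply, ← h]
    exact coeffMap_mem_fgField _ hg
  g := A.valuation (q : ℚbar)
  g_pos := val_q_pos
  g_lt := DR.Mono.val_q_lt_one hA
  val f hf := gaussVal_sub hπ (algebraMap L ℚbar) (fun _ hc => val_L hA hc) _
    (fun h0 => hf (by
      have h1 : (w₂L w₂).comp (inc L (N * q * q)) f = 0 := congrArg Subtype.val h0
      exact (map_eq_zero _).mp h1))
    (w₂L_mem hw h2 f)
  res _ _ _ := IntermediateField.mem_top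

variable {ζ : ℚbarˣ}
  {ι : laurentBaseChange ℚbar (modularFunctionFieldFull (N * q * q)) →+* LaurentSeries ℚbar}

theorem const_mem_map {E K : Type*} [Field E] [Field K] (σ : E →+* K) (c : E) :
    algebraMap K (LaurentSeries K) (σ c) ∈ (fgField E).map (coeffMap σ) :=
  ⟨algebraMap E (LaurentSeries E) c, (FGCoeff.const c).mem_fgField, coeffMap_algebraMap' σ c⟩

theorem jt_mem_map {E K : Type*} [Field E] [Field K] (σ : E →+* K) {u : Eˣ} {v : Kˣ}
    (huv : Units.map (σ : E →* K) u = v) {m : ℕ} (hm : m ≠ 0) (hu : u ^ m = 1) (n : ℕ) :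
    jt v n ∈ (fgField E).map (coeffMap σ) :=
  ⟨jt u n, (fgCoeff_jt hm hu n).mem_fgField, by rw [coeffMap_jt, huv]⟩

theorem mid_mem_aux (T : Subfield ℚbar) (hc : ∀ c : L, algebraMap L ℚbar c ∈ T)
    (ζ' : Tˣ) (hζ' : Units.map (T.subtype : T →* ℚbar) ζ' = ζ) (hζq : ζ' ^ q = 1)
    (hw : IsAL w₁) (h : IsMidB w₁ ζ ι)
    (f : modularFunctionFieldFullC L (N * q * q)) :
    ι (inc L (N * q * q) f) ∈ (fgField T).map (coeffMap T.subtype) := by
  refine incField_hom_mem ι _ (fun c => ?_) (fun d hd => ?_) f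
  · rw [h.const]
    exact const_mem_map T.subtype ⟨algebraMap L ℚbar c, hc c⟩
  · rcases mid_gen hq.out hw h hd with ⟨-, h1⟩ | ⟨d₁, -, -, h1⟩
    · rw [h1]
      exact jt_mem_map T.subtype (map_one _) one_ne_zero (one_pow 1) d
    · rw [h1]
      refine jt_mem_map T.subtype (u := ζ' ^ d₁) (by rw [map_pow, hζ']) hq.out.ne_zero ?_ d₁
      rw [← pow_mul, mul_comm, pow_mul, hζq, one_pow]

theorem exists_unit_fixZ (A : ValuationSubring ℚbar) (ζ : ℚbarˣ) :
    ∃ ζ' : (fixZ A (ζ : ℚbar))ˣ, Units.map ((fixZ A (ζ : ℚbar)).subtype : _ →* ℚbar) ζ' = ζ := by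
  have hz : (⟨(ζ : ℚbar), self_mem_fixZ A _⟩ : fixZ A (ζ : ℚbar)) ≠ 0 := fun h0 =>
    ζ.ne_zero (congrArg Subtype.val h0)
  exact ⟨Units.mk0 _ hz, Units.ext rfl⟩

theorem mid_mem (A : ValuationSubring ℚbar) [IsInertiaField A L]
    (hw : IsAL w₁) (hζ : IsPrimitiveRoot (ζ : ℚbar) q) (h : IsMidB w₁ ζ ι)
    (f : modularFunctionFieldFullC L (N * q * q)) :
    ι (inc L (N * q * q) f) ∈ (fgField (fixZ A (ζ : ℚbar))).map
      (coeffMap (fixZ A (ζ : ℚbar)).subtype) := by
  obtain ⟨ζ', hζ'⟩ := exists_unit_fixZ A ζ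
  refine mid_mem_aux (fixZ A (ζ : ℚbar)) (fun c σ hσ _ => fixed_algebraMap c hσ) ζ' hζ' ?_ hw h f
  apply Units.ext
  apply Subtype.ext
  have h1 : (((ζ' : (fixZ A (ζ : ℚbar))ˣ) : fixZ A (ζ : ℚbar)) : ℚbar) = ζ :=
    congrArg Units.val hζ'
  rw [Units.val_pow_eq_pow_val, SubmonoidClass.coe_pow, h1, hζ.pow_eq_one]
  rfl

/-- The middle embedding. -/
def emb1 (hw : IsAL w₁) (hζ : IsPrimitiveRoot (ζ : ℚbar) q) (h : IsMidB w₁ ζ ι) :
    EmbV hπ (modularFunctionFieldFullC L (N * q * q)) ⊤ where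
  e := ι.comp (inc L (N * q * q))
  mem f := by
    obtain ⟨g, hg, h⟩ := mid_mem (L := L) A hw hζ h f
    rw [RingHom.comp_apply, ← h]
    exact coeffMap_mem_fgField _ hg
  g := A.valuation ((ζ : ℚbar) - 1)
  g_pos := zero_lt_iff.mpr ((Valuation.ne_zero_iff _).mpr (Cyclo.sub_one_ne_zero hζ))
  g_lt := Cyclo.sub_one_lt hA hζ
  val f hf := gaussVal_sub hπ (fixZ A (ζ : ℚbar)).subtype
    (fun c hc => Cyclo.val_fixed_zeta hA hζ (by simpa using hc) c.2) _
    (fun h0 => hf (by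
      have h1 : ι.comp (inc L (N * q * q)) f = 0 := congrArg Subtype.val h0
      exact (map_eq_zero _).mp h1))
    (mid_mem A hw hζ h f)
  res _ _ _ := IntermediateField.mem_top

end Emb

end Fermat.Agent.Q2
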