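import Mathlib
import Fermat.Agent.Q2.W2Emb
import Fermat.Agent.Q2.Resid
import Fermat.Agent.DR.Mod.Final

set_option autoImplicit false
set_option linter.unusedSectionVars false

/-!
# Residues of the three valuations lie in `F̄_N`
-/

noncomputable section

namespace Fermat.Agent.Q2

open AlgebraicCurve ModularCurve Polynomial
open Fermat.Agent.S28 Fermat.Agent.JRED Fermat.Agent.Jan.HeckeInputs
open Fermat.Agent.DR.S36 Fermat.Agent.DR.S36.L
open Fermat.Agent.DR.Mod (IsAL Setup R1L)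
open Fermat.Agent.JRED.ES (inclL inclL_apply)

local notation "ℚbar" => AlgebraicClosure ℚ

section Idem

variable {K k : Type*} [Field K] [Field k] {A : ValuationSubring K} {π : A →+* k}
  {hπ : Function.Surjective π} {FL : Type*} [Field FL]
  {κ : IntermediateField k (LaurentSeries k)}

/-- Idempotent-like functions from a separating family. -/
theorem exists_idem {n : ℕ} (X : Fin n → EmbV hπ FL κ) (Y : Fin n → FL) (d : Fin n → κ)
    (hd : ∀ i, d i ≠ 0) (h : ∀ i j, (X i).Res (Y j) (if i = j then d i else 0)) :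
    ∃ E : Fin n → FL, ∀ i j, (X i).Res (E j) (if i = j then 1 else 0) := by
  classical
  refine ⟨fun j => Y j / ∑ l, Y l, fun i j => ?_⟩
  have h1 : (X i).Res (∑ l, Y l) (d i) := by
    have h2 := EmbV.Res.sum (X i) (s := Finset.univ) fun l _ => h i l
    rwa [Finset.sum_ite_eq, if_pos (Finset.mem_univ i)] at h2
  have h3 := EmbV.Res.div (X i) (h i j) h1 (hd i)
  rwa [ite_div, div_self (hd i), zero_div] at h3

/-- Weak approximation from idempotent-like functions. -/
theorem approx_of_idem {n : ℕ} (X : Fin n → EmbV hπ FL κ) {E : Fin n → FL}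
    (hE : ∀ i j, (X i).Res (E j) (if i = j then 1 else 0)) (G : Fin n → FL) (g : Fin n → κ)
    (hG : ∀ i j, ∃ u, (X i).Res (G j) u) (hg : ∀ i, (X i).Res (G i) (g i)) :
    ∃ e : FL, ∀ i, (X i).Res e (g i) := by
  classical
  refine ⟨∑ j, E j * G j, fun i => ?_⟩
  choose u hu using hG
  have h1 := EmbV.Res.sum (X i) (s := Finset.univ) fun j _ => EmbV.Res.mul (X i) (hE i j) (hu i j)
  have h2 : ∑ j, (if i = j then (1 : κ) else 0) * u i j = u i i := by
    rw [Finset.sum_eq_single i]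
    · rw [if_pos rfl, one_mul]
    · intro j _ hj
      rw [if_neg (Ne.symm hj), zero_mul]
    · intro h; exact absurd (Finset.mem_univ i) h
  rwa [h2, (X i).res_unique (hu i i) (hg i)] at h1

/-- The separating family of three functions. -/
theorem exists_sep (X : Fin 3 → EmbV hπ FL κ) {q : ℕ} {a b c : FL} {J : κ}
    (hJ : J ^ (q * q) ≠ J) (hJ' : (J ^ (q * q)) ^ q ≠ J ^ q)
    (a0 : (X 0).Res a J) (a1 : (X 1).Res a J) (a2 : (X 2).Res a (J ^ (q * q)))
    (b0 : (X 0).Res b (J ^ q)) (b1 : (X 1).Res b (J ^ q)) (b2 : (X 2).Res b (J ^ q))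
    (c0 : (X 0).Res c (J ^ (q * q))) (c1 : (X 1).Res c J) (c2 : (X 2).Res c J) :
    ∃ E : Fin 3 → FL, ∀ i j, (X i).Res (E j) (if i = j then 1 else 0) := by
  have key : ∀ (i : Fin 3) (u v w : κ), (X i).Res a u → (X i).Res b v → (X i).Res c w →
      (X i).Res (c ^ q - b) (w ^ q - v) ∧
      (X i).Res ((a ^ (q * q) - c) * (c ^ (q * q) - a)) ((u ^ (q * q) - w) * (w ^ (q * q) - u)) ∧
      (X i).Res (a ^ q - b) (u ^ q - v) := fun i u v w hu hv hw =>
    ⟨EmbV.Res.sub _ (EmbV.Res.pow _ hw q) hv,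
      EmbV.Res.mul _ (EmbV.Res.sub _ (EmbV.Res.pow _ hu _) hw)
        (EmbV.Res.sub _ (EmbV.Res.pow _ hw _) hu),
      EmbV.Res.sub _ (EmbV.Res.pow _ hu q) hv⟩
  obtain ⟨p0, p1, p2⟩ := key 0 _ _ _ a0 b0 c0
  obtain ⟨r0, r1, r2⟩ := key 1 _ _ _ a1 b1 c1
  obtain ⟨s0, s1, s2⟩ := key 2 _ _ _ a2 b2 c2
  rw [sub_self, zero_mul] at p1
  rw [sub_self] at p2 r0 r2 s0
  rw [sub_self, mul_zero] at s1
  refine exists_idem X ![c ^ q - b, (a ^ (q * q) - c) * (c ^ (q * q) - a), a ^ q - b]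
    ![(J ^ (q * q)) ^ q - J ^ q, (J ^ (q * q) - J) * (J ^ (q * q) - J),
      (J ^ (q * q)) ^ q - J ^ q] ?_ ?_
  · intro i
    fin_cases i
    · exact sub_ne_zero.mpr hJ'
    · exact mul_ne_zero (sub_ne_zero.mpr hJ) (sub_ne_zero.mpr hJ)
    · exact sub_ne_zero.mpr hJ'
  · intro i j
    fin_cases i <;> fin_cases j
    · exact p0
    · exact p1
    · exact p2
    · exact r0
    · exact r1
    · exact r2
    · exact s0
    · exact s1
    · exact s2

end Idem

section Mid

variable {A : ValuationSubring ℚbar} {k : Type} [Field k] {π : A →+* k}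
  {N q : ℕ} [NeZero N] [NeZero q] [hq : Fact q.Prime]
  {L : Type} [Field L] [Algebra L ℚbar] [IsInertiaField A L]
  {w₁ : laurentBaseChange ℚbar (modularFunctionFieldFull (N * q)) ≃ₐ[ℚbar]
      laurentBaseChange ℚbar (modularFunctionFieldFull (N * q))}
  {ζ : ℚbarˣ}
  {ι : laurentBaseChange ℚbar (modularFunctionFieldFull (N * q * q)) →+* LaurentSeries ℚbar}

/-- Conjugation of middle embeddings on `L`-rational functions. -/
theorem mid_conj {A : ValuationSubring ℚbar} [IsInertiaField A L] (hw : IsAL w₁)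
    (h : IsMidB w₁ ζ ι) {ζ' : ℚbarˣ}
    {ι' : laurentBaseChange ℚbar (modularFunctionFieldFull (N * q * q)) →+* LaurentSeries ℚbar}
    (h' : IsMidB w₁ ζ' ι') {τ : ℚbar ≃ₐ[ℚ] ℚbar} (hτ : τ ∈ A.inertiaSubgroupIn ℚ)
    (hτζ : τ (ζ : ℚbar) = ζ') (f : modularFunctionFieldFullC L (N * q * q)) :
    coeffMap (τ : ℚbar →+* ℚbar) (ι (inc L _ f)) = ι' (inc L _ f) := by
  have hz : Units.map ((τ : ℚbar →+* ℚbar) : ℚbar →* ℚbar) ζ = ζ' := Units.ext hτζ
  refine incField_hom_ext (φ := (coeffMap (τ : ℚbar →+* ℚbar)).comp ι) (ψ := ι')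
    (fun c => ?_) (fun d hd => ?_) f
  · rw [RingHom.comp_apply, h.const, h'.const, coeffMap_algebraMap']
    congr 1
    exact fixed_algebraMap c hτ
  · rw [RingHom.comp_apply]
    rcases dvd_cases hq.out hd with h1 | ⟨d₁, h1, rfl⟩ | ⟨d₁, h1, rfl⟩
    · rw [mid_low h (h1.mul_right q), mid_low h' (h1.mul_right q), coeffMap_jt_one]
    · rw [mid_low h (dvd_mid h1), mid_low h' (dvd_mid h1), coeffMap_jt_one]
    · rw [mid_high hw h h1, mid_high hw h' h1, coeffMap_jt, map_pow, hz]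

/-- The middle reduction of an `L`-rational function does not depend on `ζ`. -/
theorem midRed_of_red (hπ : Function.Surjective π) (hA : A.LiesOverPrime q) (hw : IsAL w₁)
    (hζ : IsPrimitiveRoot (ζ : ℚbar) q) (h : IsMidB w₁ ζ ι)
    {f : modularFunctionFieldFullC L (N * q * q)} {u : LaurentSeries k}
    (hf : GRed π (ι (inc L _ f)) u) : MidRed π w₁ (inc L _ f) u := by
  intro z hz hz1 ι' hι'
  obtain ⟨i, -, hi⟩ := hζ.eq_pow_of_pow_eq_one (ξ := (z : ℚbar)) (by
    rw [← Units.val_pow_eq_pow_val, hz, Units.val_one])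
  have hqi : ¬ q ∣ i := by
    intro hd
    apply hz1
    apply Units.ext
    rw [← hi, (hζ.pow_eq_one_iff_dvd _).mpr hd, Units.val_one]
  obtain ⟨τ, hτ, hτζ⟩ := Cyclo.exists_inertia_zeta hA hζ hqi
  rw [← mid_conj (A := A) hw h hι' hτ (hτζ.trans hi)]
  exact GRed.galois (Cyclo.isInert hπ hτ) hf

end Mid

section Trace

variable {A : ValuationSubring ℚbar} {k : Type} [Field k] {π : A →+* k}
  {N q : ℕ} [NeZero N] [NeZero q] [hq : Fact q.Prime] [hchar : CharP k q]
  {w₁ : laurentBaseChange ℚbar (modularFunctionFieldFull (N * q)) ≃ₐ[ℚbar]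
      laurentBaseChange ℚbar (modularFunctionFieldFull (N * q))}

theorem coeff_trace (u : LaurentSeries k) :
    ((X - C (0 : LaurentSeries k)) * (X - C u) ^ (q - 1)).coeff (q - 1) = u := by
  have hq2 := hq.out.two_le
  obtain ⟨n, hn⟩ : ∃ n, q = n + 2 := ⟨q - 2, by omega⟩
  have h1 : q - 1 = n + 1 := by omega
  rw [h1, C_0, sub_zero, coeff_X_mul, sub_eq_add_neg, ← C_neg, coeff_X_add_C_pow,
    Nat.add_sub_cancel_left, pow_one, Nat.choose_succ_self_right]
  have h2 : ((n + 1 : ℕ) : LaurentSeries k) = -1 := by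
    have h3 : ((q : ℕ) : LaurentSeries k) = 0 := by
      have := CharP.cast_eq_zero k q
      rw [← map_natCast (algebraMap k (LaurentSeries k)), this, map_zero]
    rw [hn] at h3
    push_cast at h3 ⊢
    linear_combination h3
  rw [h2]
  ring

/-- If `f` reduces to `0` at the first component and to `u` at the middle one then `u ∈ F̄_N`. -/
theorem mem_of_midRed_zero (S : Setup π w₁) (hqN : ¬ q ∣ N)
    {f : laurentBaseChange ℚbar (modularFunctionFieldFull (N * q * q))} {u : LaurentSeries k}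
    (h0 : GRed π (f : LaurentSeries ℚbar) 0) (h1 : MidRed π w₁ f u) :
    u ∈ modularFunctionFieldFullC k N := by
  have hfin : FiniteAlong ℚbar (heckeAlphaBar ℚbar (N * q) q) :=
    Fermat.Agent.Jan.DegreeWiring.finiteAlong_heckeAlphaBar' ℚbar (N * q) q
  have h2 := red_char_alpha₁ hqN S.al hfin h0 h1 (q - 1)
  rw [coeff_trace] at h2
  exact S.mem_full_of_red1 h2

end Trace

end Fermat.Agent.Q2
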