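import Mathlib
import Fermat.Agent.Q2.W2Res

set_option autoImplicit false
set_option linter.unusedSectionVars false

/-!
# The three valuations of `F_{Nq²}(L)` with residues in `F̄_N`

`Ctx π w₁ w₂`: the choices at a place over `q`.  `Ctx.X c L : Fin 3 → EmbV`, `Ctx.V c L : ResVals`.
-/

noncomputable section

namespace Fermat.Agent.Q2

open AlgebraicCurve ModularCurve Polynomial
open Fermat.Agent.S28 Fermat.Agent.JRED Fermat.Agent.Jan.HeckeInputs
open Fermat.Agent.DR.S36 Fermat.Agent.DR.S36.L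
open Fermat.Agent.DR.Mod (IsAL Setup R1L)
open Fermat.Agent.JRED.ES (inclL inclL_apply)

local notation "ℚbar" => AlgebraicClosure ℚ

section Approx

variable {K k : Type*} [Field K] [Field k] {A : ValuationSubring K} {π : A →+* k}
  {hπ : Function.Surjective π} {FL : Type*} [Field FL]
  {κ : IntermediateField k (LaurentSeries k)}

theorem exists_pow_res_zero (X : EmbV hπ FL κ) {e f : FL} (he : X.Res e 0) :
    ∃ n : ℕ, ∀ m : ℕ, n ≤ m → X.Res (e ^ m * f) 0 := by
  obtain ⟨n, hn⟩ := X.exists_pow_mul_mem (f := e) (g := f) ((X.W_val_lt_one_iff_res).mpr he)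
  obtain ⟨u, hu⟩ := X.mem_W_iff_res.mp hn
  refine ⟨n + 1, fun m hm => ?_⟩
  obtain ⟨l, rfl⟩ : ∃ l, m = l + 1 + n := ⟨m - (n + 1), by omega⟩
  have h1 := EmbV.Res.mul X (EmbV.Res.pow X he (l + 1)) hu
  rwa [zero_pow (Nat.succ_ne_zero l), zero_mul, ← mul_assoc, ← pow_add] at h1

/-- **Weak approximation.** -/
theorem exists_approx {n : ℕ} (X : Fin n → EmbV hπ FL κ) {E : Fin n → FL}
    (hE : ∀ i j, (X i).Res (E j) (if i = j then 1 else 0))
    (hsurj : ∀ i u, ∃ G, (X i).Res G u) (g : Fin n → κ) :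
    ∃ e : FL, ∀ i, (X i).Res e (g i) := by
  classical
  choose G hG using fun i => hsurj i (g i)
  have h1 : ∀ i j, ∃ m : ℕ, ∀ l, m ≤ l → i ≠ j → (X i).Res (E j ^ l * G j) 0 := by
    intro i j
    by_cases hij : i = j
    · exact ⟨0, fun l _ h => absurd hij h⟩
    · have h2 := hE i j
      rw [if_neg hij] at h2
      obtain ⟨m, hm⟩ := exists_pow_res_zero (X i) (f := G j) h2
      exact ⟨m, fun l hl _ => hm l hl⟩
  choose m hm using h1
  let M : ℕ := ∑ i, ∑ j, m i j
  have hM : ∀ i j, m i j ≤ M := fun i j =>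
    (Finset.single_le_sum (f := fun j => m i j) (fun _ _ => Nat.zero_le _)
      (Finset.mem_univ j)).trans
      (Finset.single_le_sum (f := fun i => ∑ j, m i j) (fun _ _ => Nat.zero_le _)
        (Finset.mem_univ i))
  refine ⟨∑ j, E j ^ M * G j, fun i => ?_⟩
  have h3 : ∀ j, (X i).Res (E j ^ M * G j) (if i = j then g i else 0) := by
    intro j
    by_cases hij : i = j
    · subst hij
      rw [if_pos rfl]
      have h4 := hE i i
      rw [if_pos rfl] at h4
      have h5 := EmbV.Res.mul (X i) (EmbV.Res.pow (X i) h4 M) (hG i)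
      rwa [one_pow, one_mul] at h5
    · rw [if_neg hij]
      exact hm i j M (hM i j) hij
  have h4 := EmbV.Res.sum (X i) (s := Finset.univ) fun j _ => h3 j
  rwa [Finset.sum_ite_eq, if_pos (Finset.mem_univ i)] at h4

end Approx

section Ctx

variable {A : ValuationSubring ℚbar} {k : Type} [Field k]
  {N q : ℕ} [NeZero N] [NeZero q] [hq : Fact q.Prime] [hchar : CharP k q]

/-- The choices at a place `A` over `q`. -/
structure Ctx (π : A →+* k)
    (w₁ : laurentBaseChange ℚbar (modularFunctionFieldFull (N * q)) ≃ₐ[ℚbar]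
      laurentBaseChange ℚbar (modularFunctionFieldFull (N * q)))
    (w₂ : laurentBaseChange ℚbar (modularFunctionFieldFull (N * q * q)) ≃ₐ[ℚbar]
      laurentBaseChange ℚbar (modularFunctionFieldFull (N * q * q))) where
  S : Setup π w₁
  al2 : IsAL2 w₁ w₂
  hA : A.LiesOverPrime q
  hqN : ¬ q ∣ N
  ζ : ℚbarˣ
  hζ : IsPrimitiveRoot (ζ : ℚbar) q
  ι : laurentBaseChange ℚbar (modularFunctionFieldFull (N * q * q)) →+* LaurentSeries ℚbar
  mid : IsMidB w₁ ζ ι

variable {π : A →+* k}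
  {w₁ : laurentBaseChange ℚbar (modularFunctionFieldFull (N * q)) ≃ₐ[ℚbar]
      laurentBaseChange ℚbar (modularFunctionFieldFull (N * q))}
  {w₂ : laurentBaseChange ℚbar (modularFunctionFieldFull (N * q * q)) ≃ₐ[ℚbar]
      laurentBaseChange ℚbar (modularFunctionFieldFull (N * q * q))}

theorem exists_ctx (S : Setup π w₁) (al2 : IsAL2 w₁ w₂) (hA : A.LiesOverPrime q)
    (hqN : ¬ q ∣ N) : Nonempty (Ctx π w₁ w₂) := by
  obtain ⟨ζ, hζ⟩ := Fermat.Agent.DR.Mod.exists_primitiveRoot_unit A q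
  have hζ' := Fermat.Agent.DR.Mod.map_root (A := A) hζ
  have hz1 : Units.map A.subtype.toMonoidHom ζ ≠ 1 := hζ'.ne_one hq.out.one_lt
  obtain ⟨ι, hι⟩ := exists_isMidB (w₁ := w₁) hqN S.al hζ'.pow_eq_one hz1
  exact ⟨⟨S, al2, hA, hqN, _, IsPrimitiveRoot.coe_units_iff.mpr hζ', ι, hι⟩⟩

theorem exists_ctx' (hπ : Function.Surjective π) (hA : A.LiesOverPrime q) (hqN : ¬ q ∣ N) :
    ∃ (w₁ : laurentBaseChange ℚbar (modularFunctionFieldFull (N * q)) ≃ₐ[ℚbar]
      laurentBaseChange ℚbar (modularFunctionFieldFull (N * q)))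
      (w₂ : laurentBaseChange ℚbar (modularFunctionFieldFull (N * q * q)) ≃ₐ[ℚbar]
      laurentBaseChange ℚbar (modularFunctionFieldFull (N * q * q))),
      Nonempty (Ctx (k := k) π w₁ w₂) := by
  obtain ⟨w₁, -, S⟩ := Fermat.Agent.DR.Mod.exists_setup_bar (k := k) (π := π) (q := q) hπ hqN
  obtain ⟨w₂, h2⟩ := exists_isAL2 hqN S.al
  exact ⟨w₁, w₂, exists_ctx S h2 hA hqN⟩

namespace Ctx

variable (c : Ctx π w₁ w₂) (L : Type) [Field L] [Algebra L ℚbar] [IsInertiaField A L]

/-- The three embeddings. -/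
def XT : Fin 3 → EmbV c.S.surj (modularFunctionFieldFullC L (N * q * q)) ⊤ :=
  ![emb0 c.S.surj c.hA, emb1 c.S.surj c.hA c.S.al c.hζ c.mid, emb2 c.S.surj c.hA c.S.al c.al2]

variable {L}

theorem XT0_e (f : modularFunctionFieldFullC L (N * q * q)) :
    (c.XT L 0).e f = (inc L _ f : LaurentSeries ℚbar) := rfl

theorem XT1_e (f : modularFunctionFieldFullC L (N * q * q)) :
    (c.XT L 1).e f = c.ι (inc L _ f) := rfl

theorem XT2_e (f : modularFunctionFieldFullC L (N * q * q)) :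
    (c.XT L 2).e f = (w₂ (inc L _ f) : LaurentSeries ℚbar) := rfl

/-- the generator `j(t^d)` -/
def jL (L : Type) [Field L] [Algebra L ℚbar] {M : ℕ} [NeZero M] {d : ℕ} (hd : d ∣ M) :
    modularFunctionFieldFullC L M := ⟨jt 1 d, jt_mem_full' (NeZero.ne M) hd⟩

theorem inc_jL {M : ℕ} [NeZero M] {d : ℕ} (hd : d ∣ M) : inc L M (jL L hd) = jg ℚbar M hd :=
  inc_jt hd _

theorem res_ζ (n : ℕ) : GRed π (jt (c.ζ ^ n) n) (jt (1 : kˣ) n) := by
  have hm := Cyclo.zeta_mem (A := A) c.hζ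
  have h1 := Cyclo.res_zeta c.hA c.hζ c.S.surj hm
  have hm' : ((c.ζ ^ n : ℚbarˣ) : ℚbar) ∈ A := by
    rw [Units.val_pow_eq_pow_val]; exact pow_mem hm n
  refine gred_jt_res c.S.surj (h := hm') ?_ n
  have h2 : (⟨((c.ζ ^ n : ℚbarˣ) : ℚbar), hm'⟩ : A) = ⟨c.ζ, hm⟩ ^ n :=
    Subtype.ext (Units.val_pow_eq_pow_val _ _)
  rw [h2, map_pow, h1, one_pow]

theorem red_low {d : ℕ} (hd : d ∣ N) :
    GRed π ((c.XT L 0).e (jL L ((hd.mul_right q).mul_right q))) (jt 1 d) ∧
    GRed π ((c.XT L 1).e (jL L ((hd.mul_right q).mul_right q))) (jt 1 d) ∧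
    GRed π ((c.XT L 2).e (jL L ((hd.mul_right q).mul_right q))) (jt 1 (q * (q * d))) := by
  rw [XT0_e, XT1_e, XT2_e, inc_jL, mid_low c.mid (hd.mul_right q), w₂_low c.S.al c.al2 hd]
  exact ⟨gred_jt _, gred_jt _, gred_jt _⟩

theorem red_mid {d : ℕ} (hd : d ∣ N) :
    GRed π ((c.XT L 0).e (jL L ((dvd_mid hd).mul_right q))) (jt 1 (q * d)) ∧
    GRed π ((c.XT L 1).e (jL L ((dvd_mid hd).mul_right q))) (jt 1 (q * d)) ∧
    GRed π ((c.XT L 2).e (jL L ((dvd_mid hd).mul_right q))) (jt 1 (q * d)) := by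
  rw [XT0_e, XT1_e, XT2_e, inc_jL, mid_low c.mid (dvd_mid hd), w₂_mid c.S.al c.al2 hd]
  exact ⟨gred_jt _, gred_jt _, gred_jt _⟩

theorem red_top {d : ℕ} (hd : d ∣ N) :
    GRed π ((c.XT L 0).e (jL L (dvd_top hd))) (jt 1 (q * (q * d))) ∧
    GRed π ((c.XT L 1).e (jL L (dvd_top hd))) (jt 1 d) ∧
    GRed π ((c.XT L 2).e (jL L (dvd_top hd))) (jt 1 d) := by
  rw [XT0_e, XT1_e, XT2_e, inc_jL, mid_high c.S.al c.mid hd, w₂_high c.S.al c.al2 hd]
  exact ⟨gred_jt _, c.res_ζ d, gred_jt _⟩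

theorem jt_pow_char₂ (d : ℕ) : jt (1 : kˣ) (q * (q * d)) = jt (1 : kˣ) d ^ (q * q) := by
  rw [jt_pow_char, jt_pow_char, pow_mul]

theorem jt_one_ne : jt (1 : kˣ) 1 ^ (q * q) ≠ jt (1 : kˣ) 1 := by
  rw [jt_one_one]
  have h := Fermat.Agent.DR.Mod.jqModC_sub_pow_ne_zero k (n := q * q)
    (by have := hq.out.two_le; nlinarith)
  exact fun h1 => h (by rw [h1, sub_self])

theorem jt_one_ne' : (jt (1 : kˣ) 1 ^ (q * q)) ^ q ≠ jt (1 : kˣ) 1 ^ q := by
  haveI : ExpChar (LaurentSeries k) q := expChar_of_injective_algebraMap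
    (algebraMap k (LaurentSeries k)).injective q
  intro h
  apply jt_one_ne (k := k) (q := q)
  exact frobenius_inj (LaurentSeries k) q h

/-- the separating idempotents, with residues in `k((t))` -/
theorem exists_idemT : ∃ E : Fin 3 → modularFunctionFieldFullC L (N * q * q),
    ∀ i j, (c.XT L i).Res (E j) (if i = j then 1 else 0) := by
  obtain ⟨a0, a1, a2⟩ := c.red_low (L := L) (one_dvd N)
  obtain ⟨b0, b1, b2⟩ := c.red_mid (L := L) (one_dvd N)
  obtain ⟨c0, c1, c2⟩ := c.red_top (L := L) (one_dvd N)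
  rw [jt_pow_char₂] at a2 c0
  rw [jt_pow_char] at b0 b1 b2
  let J : (⊤ : IntermediateField k (LaurentSeries k)) := ⟨jt (1 : kˣ) 1, IntermediateField.mem_top⟩
  refine exists_sep (c.XT L) (J := J) (q := q) ?_ ?_ a0 a1 a2 b0 b1 b2 c0 c1 c2
  · intro h
    exact jt_one_ne (k := k) (q := q) (congrArg Subtype.val h)
  · intro h
    exact jt_one_ne' (k := k) (q := q) (congrArg Subtype.val h)

/-- residues at the middle component lie in `F̄_N` -/
theorem mid_res (f : modularFunctionFieldFullC L (N * q * q)) (u : LaurentSeries k)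
    (hu : GRed π ((c.XT L 1).e f) u) : u ∈ modularFunctionFieldFullC k N := by
  obtain ⟨E, hE⟩ := c.exists_idemT (L := L)
  have h01 := hE 0 1
  have h11 := hE 1 1
  rw [if_neg (by decide)] at h01
  rw [if_pos rfl] at h11
  obtain ⟨n, hn⟩ := exists_pow_res_zero (c.XT L 0) (f := f) h01
  have h0 : GRed π (inc L _ (E 1 ^ n * f) : LaurentSeries ℚbar) 0 := hn n le_rfl
  let u' : (⊤ : IntermediateField k (LaurentSeries k)) := ⟨u, IntermediateField.mem_top⟩
  have h1 : (c.XT L 1).Res (E 1 ^ n * f) (1 ^ n * u') :=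
    EmbV.Res.mul _ (EmbV.Res.pow _ h11 n) (show (c.XT L 1).Res f u' from hu)
  rw [one_pow, one_mul] at h1
  exact mem_of_midRed_zero c.S c.hqN h0
    (midRed_of_red c.S.surj c.hA c.S.al c.hζ c.mid h1)

theorem res_mem (i : Fin 3) (f : modularFunctionFieldFullC L (N * q * q)) (u : LaurentSeries k)
    (hu : GRed π ((c.XT L i).e f) u) : u ∈ modularFunctionFieldFullC k N := by
  fin_cases i
  · exact mem_full_of_red_level2 c.S hq.out hu
  · exact c.mid_res f u hu
  · exact mem_full_of_red_level2 c.S hq.out hu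

variable (L) in
/-- **The three valuations of `F_{Nq²}(L)` with residues in `F̄_N`.** -/
def X (i : Fin 3) : EmbV c.S.surj (modularFunctionFieldFullC L (N * q * q))
    (modularFunctionFieldFullC k N) := (c.XT L i).restrict (c.res_mem i)

variable (L) in
/-- **The `ResVals`.** -/
def V : ResVals (modularFunctionFieldFullC L (N * q * q)) (modularFunctionFieldFullC k N) :=
  toResVals (c.X L)

theorem V_w (i : Fin 3) (f : modularFunctionFieldFullC L (N * q * q)) :
    (c.V L).w i f = (c.X L i).ord f := rfl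

theorem V_res (i : Fin 3) (f : modularFunctionFieldFullC L (N * q * q))
    (u : modularFunctionFieldFullC k N) : (c.V L).Res i f u ↔ (c.X L i).Res f u := Iff.rfl

theorem res0_iff {f : modularFunctionFieldFullC L (N * q * q)}
    {u : modularFunctionFieldFullC k N} :
    (c.X L 0).Res f u ↔ GRed π (inc L _ f : LaurentSeries ℚbar) (u : LaurentSeries k) := Iff.rfl

theorem res1_iff' {f : modularFunctionFieldFullC L (N * q * q)}
    {u : modularFunctionFieldFullC k N} :
    (c.X L 1).Res f u ↔ GRed π (c.ι (inc L _ f)) (u : LaurentSeries k) := Iff.rfl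

theorem res1_iff {f : modularFunctionFieldFullC L (N * q * q)}
    {u : modularFunctionFieldFullC k N} :
    (c.X L 1).Res f u ↔ MidRed π w₁ (inc L _ f) (u : LaurentSeries k) := by
  constructor
  · exact fun h => midRed_of_red c.S.surj c.hA c.S.al c.hζ c.mid h
  · intro h
    exact h c.ζ (Units.ext (by rw [Units.val_pow_eq_pow_val]; exact c.hζ.pow_eq_one))
      (fun h1 => c.hζ.ne_one hq.out.one_lt (by rw [h1, Units.val_one])) c.ι c.mid

theorem res2_iff {f : modularFunctionFieldFullC L (N * q * q)}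
    {u : modularFunctionFieldFullC k N} :
    (c.X L 2).Res f u ↔ GRed π (w₂ (inc L _ f) : LaurentSeries ℚbar) (u : LaurentSeries k) :=
  Iff.rfl

/-- the separating idempotents -/
theorem exists_idem : ∃ E : Fin 3 → modularFunctionFieldFullC L (N * q * q),
    ∀ i j, (c.X L i).Res (E j) (if i = j then 1 else 0) := by
  obtain ⟨E, hE⟩ := c.exists_idemT (L := L)
  refine ⟨E, fun i j => ?_⟩
  have h := hE i j
  by_cases hij : i = j
  · rw [if_pos hij] at h ⊢
    exact h
  · rw [if_neg hij] at h ⊢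
    exact h

/-- residues of constants -/
theorem res_const (i : Fin 3) (a : A0 A L) :
    (c.X L i).Res (algebraMap L _ (a : L)) (algebraMap k _ (π0 L π a)) := by
  have h1 : inc L (N * q * q) (algebraMap L _ (a : L)) =
      algebraMap ℚbar _ ((incl A L a : A) : ℚbar) := inc_algebraMap _
  have h2 : GRed π (algebraMap ℚbar (LaurentSeries ℚbar) ((incl A L a : A) : ℚbar))
      (algebraMap k (LaurentSeries k) (π (incl A L a))) := GRed.const _
  fin_cases i
  · refine c.res0_iff.mpr ?_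
    rw [h1]
    exact h2
  · refine c.res1_iff'.mpr ?_
    rw [h1, c.mid.const]
    exact h2
  · refine c.res2_iff.mpr ?_
    rw [h1, AlgEquiv.commutes]
    exact h2

/-- every element of `F̄_N` is a residue -/
theorem exists_res_eq (i : Fin 3) (u : modularFunctionFieldFullC k N) :
    ∃ f, (c.X L i).Res f u := by
  let T : Subfield (modularFunctionFieldFullC k N) :=
    { carrier := {u | ∃ f, (c.X L i).Res f u}
      mul_mem' := by
        rintro u v ⟨f, hf⟩ ⟨g, hg⟩
        exact ⟨_, EmbV.Res.mul _ hf hg⟩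
      one_mem' := ⟨1, (c.X L i).res_one⟩
      add_mem' := by
        rintro u v ⟨f, hf⟩ ⟨g, hg⟩
        exact ⟨_, EmbV.Res.add _ hf hg⟩
      zero_mem' := ⟨0, (c.X L i).res_zero⟩
      neg_mem' := by
        rintro u ⟨f, hf⟩
        exact ⟨_, EmbV.Res.neg _ hf⟩
      inv_mem' := by
        rintro u ⟨f, hf⟩
        by_cases hu : u = 0
        · rw [hu, inv_zero]
          exact ⟨0, (c.X L i).res_zero⟩
        · exact ⟨_, EmbV.Res.inv _ hf hu⟩ }
  refine full_mem_subfield T (fun a => ?_) (fun d h _ hd => ?_) u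
  · obtain ⟨a, rfl⟩ := π0_surjective (L := L) π hq.out c.hA c.S.surj a
    exact ⟨_, c.res_const i a⟩
  · fin_cases i
    · exact ⟨_, (c.red_low hd).1⟩
    · exact ⟨_, (c.red_low hd).2.1⟩
    · exact ⟨_, (c.red_top hd).2.2⟩

/-- **Weak approximation.** -/
theorem approx (g : Fin 3 → modularFunctionFieldFullC k N) :
    ∃ e : modularFunctionFieldFullC L (N * q * q), ∀ i, (c.X L i).Res e (g i) := by
  obtain ⟨E, hE⟩ := c.exists_idem (L := L)
  exact exists_approx (c.X L) hE (fun i u => c.exists_res_eq i u) g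

end Ctx

end Ctx

end Fermat.Agent.Q2
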