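import Mathlib
import Fermat.Agent.Q2.W2Ctx
import Fermat.Agent.DR.S36.SS

set_option autoImplicit false
set_option linter.unusedSectionVars false

/-!
# Values of constants and the behaviour along the degeneracy maps
-/

noncomputable section

namespace Fermat.Agent.Q2

open AlgebraicCurve ModularCurve Polynomial
open Fermat.Agent.S28 Fermat.Agent.JRED Fermat.Agent.Jan.HeckeInputs
open Fermat.Agent.DR.S36 Fermat.Agent.DR.S36.L
open Fermat.Agent.DR.Mod (IsAL Setup R1L redOne redTwo PhiFull coe_PhiFull)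
open Fermat.Agent.JRED.ES (inclL inclL_apply)

local notation "ℚbar" => AlgebraicClosure ℚ

section Inc

variable {L : Type} [Field L] [Algebra L ℚbar]

/-- `F_M(ℚ̄)` as an algebra over `F_M(L)`. -/
@[reducible] def incAlgebra (L : Type) [Field L] [Algebra L ℚbar] (M : ℕ) :
    Algebra (modularFunctionFieldFullC L M) (modularFunctionFieldBar M) := (inc L M).toAlgebra

theorem coeff_mem_range {M : ℕ} [NeZero M] {x : modularFunctionFieldBar M}
    (hx : x ∈ (inc L M).fieldRange) (n : ℤ) :
    (x : LaurentSeries ℚbar).coeff n ∈ Set.range (algebraMap L ℚbar) := by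
  obtain ⟨g, rfl⟩ := hx
  exact coeff_mem_range_of_inc g n

theorem exists_inc_alpha {M q : ℕ} [NeZero M] [NeZero q] {x : modularFunctionFieldBar M}
    (hx : x ∈ (inc L M).fieldRange) : ∃ z, inc L (M * q) z = heckeAlphaBar ℚbar M q x := by
  apply exists_inc_eq
  intro n
  rw [coe_heckeAlphaBar]
  exact coeff_mem_range hx n

theorem exists_inc_beta {M q : ℕ} [NeZero M] [NeZero q] {x : modularFunctionFieldBar M}
    (hx : x ∈ (inc L M).fieldRange) : ∃ z, inc L (M * q) z = heckeBetaBar ℚbar M q x := by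
  apply exists_inc_eq
  intro n
  rw [coe_heckeBetaBar]
  by_cases hn : (q : ℤ) ∣ n
  · obtain ⟨m, rfl⟩ := hn
    rw [qExpand_coeff_mul]
    exact coeff_mem_range hx m
  · rw [qExpand_coeff_of_not_dvd _ _ hn]
    exact ⟨0, map_zero _⟩

end Inc

section Ctx

variable {A : ValuationSubring ℚbar} {k : Type} [Field k] {π : A →+* k}
  {N q : ℕ} [NeZero N] [NeZero q] [hq : Fact q.Prime] [hchar : CharP k q]
  {w₁ : laurentBaseChange ℚbar (modularFunctionFieldFull (N * q)) ≃ₐ[ℚbar]
      laurentBaseChange ℚbar (modularFunctionFieldFull (N * q))}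
  {w₂ : laurentBaseChange ℚbar (modularFunctionFieldFull (N * q * q)) ≃ₐ[ℚbar]
      laurentBaseChange ℚbar (modularFunctionFieldFull (N * q * q))}

namespace Ctx

variable (c : Ctx π w₁ w₂) {L : Type} [Field L] [Algebra L ℚbar] [IsInertiaField A L]

/-- values of constants -/
theorem V_const (i : Fin 3) (a : L) :
    (c.X L i).V (algebraMap L _ a) = A.valuation (algebraMap L ℚbar a) := by
  have key : (c.X L i).e (algebraMap L _ a) =
      algebraMap ℚbar (LaurentSeries ℚbar) (algebraMap L ℚbar a) := by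
    have h1 : inc L (N * q * q) (algebraMap L _ a) =
      algebraMap ℚbar _ (algebraMap L ℚbar a) := inc_algebraMap _
    fin_cases i
    · change (inc L _ (algebraMap L _ a) : LaurentSeries ℚbar) = _
      rw [h1]
      rfl
    · change c.ι (inc L _ (algebraMap L _ a)) = _
      rw [h1, c.mid.const]
    · change (w₂ (inc L _ (algebraMap L _ a)) : LaurentSeries ℚbar) = _
      rw [h1, AlgEquiv.commutes]
      rfl
  have h2 : (c.X L i).V (algebraMap L _ a) =
      gaussVal c.S.surj ⟨(c.X L i).e (algebraMap L _ a), (c.X L i).mem _⟩ := rfl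
  have h3 : (⟨(c.X L i).e (algebraMap L _ a), (c.X L i).mem _⟩ : fgField ℚbar) =
      ⟨algebraMap ℚbar (LaurentSeries ℚbar) (algebraMap L ℚbar a), key ▸ (c.X L i).mem _⟩ :=
    Subtype.ext key
  rw [h2, h3, gaussVal_const]

variable (L) in
theorem q_ne : ((q : ℕ) : modularFunctionFieldFullC L (N * q * q)) ≠ 0 := by
  have h1 : (q : L) ≠ 0 := natCast_ne_zero L hq.out
  intro h
  apply h1
  apply (algebraMap L (modularFunctionFieldFullC L (N * q * q))).injective
  rw [map_natCast, map_zero, h]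

theorem V_q (i : Fin 3) : (c.X L i).V (q : modularFunctionFieldFullC L (N * q * q)) =
    A.valuation (q : ℚbar) := by
  have h := c.V_const (L := L) i (q : L)
  rwa [map_natCast (algebraMap L (modularFunctionFieldFullC L (N * q * q))),
    map_natCast (algebraMap L ℚbar)] at h

theorem ord_q0 : (c.X L 0).ord (q : modularFunctionFieldFullC L (N * q * q)) = 1 := by
  rw [EmbV.ord_eq_iff _ (q_ne L), V_q, zpow_one]
  rfl

theorem ord_q2 : (c.X L 2).ord (q : modularFunctionFieldFullC L (N * q * q)) = 1 := by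
  rw [EmbV.ord_eq_iff _ (q_ne L), V_q, zpow_one]
  rfl

theorem ord_q1 : (c.X L 1).ord (q : modularFunctionFieldFullC L (N * q * q)) = q - 1 := by
  have h1 : ((q : ℤ) - 1) = ((q - 1 : ℕ) : ℤ) := by
    have := hq.out.one_lt
    omega
  rw [EmbV.ord_eq_iff _ (q_ne L), V_q, h1, zpow_natCast]
  exact Cyclo.val_q c.hζ

theorem w_q : ((q : ℕ) : modularFunctionFieldFullC L (N * q * q)) ≠ 0 ∧
    (c.V L).w 0 (q : modularFunctionFieldFullC L (N * q * q)) = 1 ∧
    (c.V L).w 1 (q : modularFunctionFieldFullC L (N * q * q)) = q - 1 ∧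
    (c.V L).w 2 (q : modularFunctionFieldFullC L (N * q * q)) = 1 :=
  ⟨q_ne L, c.ord_q0, c.ord_q1, c.ord_q2⟩

/-! ### degeneracy maps -/

variable {f : laurentBaseChange ℚbar (modularFunctionFieldFull (N * q))}
  {z : modularFunctionFieldFullC L (N * q * q)} {u : modularFunctionFieldFullC k N}

theorem alpha0 (hz : inc L _ z = heckeAlphaBar ℚbar (N * q) q f) (h : (redOne c.S).Red f u) :
    (c.X L 0).Res z u := by
  rw [res0_iff, hz, coe_heckeAlphaBar]
  exact h

theorem alpha1 (hz : inc L _ z = heckeAlphaBar ℚbar (N * q) q f) (h : (redOne c.S).Red f u) :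
    (c.X L 1).Res z u := by
  rw [res1_iff', hz, c.mid.alpha]
  exact h

theorem alpha2 (hz : inc L _ z = heckeAlphaBar ℚbar (N * q) q f) (h : (redTwo c.S).Red f u) :
    (c.X L 2).Res z (PhiFull k q N u) := by
  rw [res2_iff, hz, c.al2.alpha, coe_heckeBetaBar, coe_PhiFull]
  exact GRed.qExpand h q

theorem beta0 (hz : inc L _ z = heckeBetaBar ℚbar (N * q) q f) (h : (redOne c.S).Red f u) :
    (c.X L 0).Res z (PhiFull k q N u) := by
  rw [res0_iff, hz, coe_heckeBetaBar, coe_PhiFull]
  exact GRed.qExpand h q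

theorem beta1 (hz : inc L _ z = heckeBetaBar ℚbar (N * q) q f) (h : (redTwo c.S).Red f u) :
    (c.X L 1).Res z u := by
  rw [res1_iff', hz, c.mid.beta]
  exact GRed.twist_one_residue c.S.surj h
    (Cyclo.res_zeta c.hA c.hζ c.S.surj (Cyclo.zeta_mem (A := A) c.hζ))

theorem beta2 (hz : inc L _ z = heckeBetaBar ℚbar (N * q) q f) (h : (redTwo c.S).Red f u) :
    (c.X L 2).Res z u := by
  rw [res2_iff, hz, c.al2.beta, coe_heckeAlphaBar]
  exact h

variable (L) in
/-- helper75's `DegenRes`. -/
def degenRes : letI := incAlgebra L (N * q * q)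
    DegenRes ℚbar (modularFunctionFieldBar (N * q * q)) (modularFunctionFieldBar (N * q))
      (modularFunctionFieldFullC L (N * q * q)) k (modularFunctionFieldFullC k N) (c.V L)
      (redOne c.S) (redTwo c.S) :=
  letI := incAlgebra L (N * q * q)
  { α := heckeAlphaBar ℚbar (N * q) q
    β := heckeBetaBar ℚbar (N * q) q
    F₀ := (inc L (N * q)).fieldRange
    liftα := fun _ hf => exists_inc_alpha hf
    liftβ := fun _ hf => exists_inc_beta hf
    Φ := (PhiFull k q N).toRingHom
    α₀ := fun _ _ _ _ hz h => c.alpha0 hz h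
    α₁ := fun _ _ _ _ hz h => c.alpha1 hz h
    α₂ := fun _ _ _ _ hz h => c.alpha2 hz h
    β₀ := fun _ _ _ _ hz h => c.beta0 hz h
    β₁ := fun _ _ _ _ hz h => c.beta1 hz h
    β₂ := fun _ _ _ _ hz h => c.beta2 hz h }

end Ctx

end Ctx

end Fermat.Agent.Q2
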