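import Mathlib
import Fermat.Agent.DR.S36.Surf

/-!
# The middle component off the supersingular points, abstract part (S36-E)
-/

set_option autoImplicit false

noncomputable section

namespace Fermat.Agent.Q2.Ord

open AlgebraicCurve Fermat.Agent.RR Fermat.Agent.DR Fermat.Agent.DR.S36

section

variable {k κ : Type*} [Field k] [Field κ] [Algebra k κ] {R : Place k κ}

theorem not_val_iff {u : κ} : ¬ Val R u 0 ↔ 1 ≤ R.adicValuation u := by
  rw [Val, map_zero, sub_zero, not_lt]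

theorem not_val_mul {u v : κ} (hu : ¬ Val R u 0) (hv : ¬ Val R v 0) : ¬ Val R (u * v) 0 := by
  rw [not_val_iff] at *
  rw [map_mul]
  exact one_le_mul hu hv

theorem not_val_pow {u : κ} (hu : ¬ Val R u 0) (n : ℕ) : ¬ Val R (u ^ n) 0 := by
  rw [not_val_iff] at *
  rw [map_pow]
  exact one_le_pow₀ hu

theorem not_val_one : ¬ Val R 1 0 := by
  rw [not_val_iff, map_one]

theorem ne_zero_of_not_val {u : κ} (hu : ¬ Val R u 0) : u ≠ 0 := by
  rintro rfl
  rw [not_val_iff, map_zero] at hu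
  exact absurd hu (not_le.mpr zero_lt_one)

end

variable {L K FL F k κ : Type*} [Field L] [Field K] [Field FL] [Field F] [Field k] [Field κ]
  [Algebra L K] [Algebra L FL] [Algebra K F] [Algebra FL F] [Algebra k κ]
  {A₀ : ValuationSubring L} {q : ℕ} (S : Surf L K FL F k κ A₀ q)

section Hol

variable {x : FL}

theorem hol_iff {b : FL} : S.Hol x b ↔ (∀ c, b ∈ (S.V c).W) ∧ ∀ P : Place K F,
    algebraMap FL F x ∈ P.toValuationSubring → algebraMap FL F b ∈ P.toValuationSubring :=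
  Iff.rfl

theorem hol_mul {a b : FL} (ha : S.Hol x a) (hb : S.Hol x b) : S.Hol x (a * b) := by
  rw [hol_iff] at *
  exact ⟨fun c => mul_mem (ha.1 c) (hb.1 c), fun P hP => by
    rw [map_mul]; exact mul_mem (ha.2 P hP) (hb.2 P hP)⟩

theorem hol_add {a b : FL} (ha : S.Hol x a) (hb : S.Hol x b) : S.Hol x (a + b) := by
  rw [hol_iff] at *
  exact ⟨fun c => add_mem (ha.1 c) (hb.1 c), fun P hP => by
    rw [map_add]; exact add_mem (ha.2 P hP) (hb.2 P hP)⟩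

theorem hol_sub {a b : FL} (ha : S.Hol x a) (hb : S.Hol x b) : S.Hol x (a - b) := by
  rw [hol_iff] at *
  exact ⟨fun c => sub_mem (ha.1 c) (hb.1 c), fun P hP => by
    rw [map_sub]; exact sub_mem (ha.2 P hP) (hb.2 P hP)⟩

theorem hol_one : S.Hol x 1 := by
  rw [hol_iff]
  exact ⟨fun c => one_mem _, fun P hP => by rw [map_one]; exact one_mem _⟩

theorem hol_pow {a : FL} (ha : S.Hol x a) (n : ℕ) : S.Hol x (a ^ n) := by
  rw [hol_iff] at *
  exact ⟨fun c => pow_mem (ha.1 c) n, fun P hP => by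
    rw [map_pow]; exact pow_mem (ha.2 P hP) n⟩

end Hol

section Unit

variable {x : FL} {c : Fin 3} {R : Place k κ}

theorem inLoc_of_mul {f b : FL} {u ub : κ}
    (hb : S.Hol x b) (hub : (S.V c).Res b ub) (hub0 : ¬ Val R ub 0)
    (hbf : S.Hol x (b * f)) (hf0 : f ≠ 0) (hu : (S.V c).Res f u) (hu0 : ¬ Val R u 0) :
    S.InLoc x c R f ∧ S.InLoc x c R f⁻¹ :=
  ⟨⟨b * f, b, hbf, hb, ⟨ub, hub, hub0⟩, rfl⟩,
    ⟨b, b * f, hb, hbf, ⟨ub * u, (S.V c).res_mul hub hu, not_val_mul hub0 hu0⟩,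
      mul_inv_cancel_right₀ hf0 b⟩⟩

include S in
theorem q_ne_FL : (q : FL) ≠ 0 := by
  have h := S.q_ne
  intro h0
  apply h
  have h1 : algebraMap L FL (q : L) = 0 := by rw [map_natCast, h0]
  exact (map_eq_zero _).mp h1

theorem inv_q_mem (P : Place K F) : algebraMap FL F ((q : FL)⁻¹) ∈ P.toValuationSubring := by
  have h1 : algebraMap FL F ((q : FL)⁻¹) = algebraMap K F ((q : K)⁻¹) := by
    rw [map_inv₀, map_inv₀, map_natCast, map_natCast]
  rw [h1]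
  exact P.algebraMap_mem' _

/-- **The generator of the middle component.** -/
theorem exists_delta_of {δ β b₀ b₂ : FL} {u v u₀ u₂ : κ}
    (hβ : S.Hol x β) (hβv : (S.V 1).Res β v) (hv : ¬ Val R v 0)
    (hδ : S.Hol x (β * δ))
    (hb₀ : S.Hol x b₀) (hb₀u : (S.V 1).Res b₀ u₀) (hu₀ : ¬ Val R u₀ 0) (h₀ : 0 < (S.V 0).v b₀)
    (hb₂ : S.Hol x b₂) (hb₂u : (S.V 1).Res b₂ u₂) (hu₂ : ¬ Val R u₂ 0) (h₂ : 0 < (S.V 2).v b₂)
    (hu : (S.V 1).Res (δ ^ S.e 1 / q) u) (hu0 : ¬ Val R u 0) :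
    (S.V 1).w δ = 1 ∧ S.InLoc x 1 R (δ ^ S.e 1 / q) ∧ S.InLoc x 1 R (q / δ ^ S.e 1) := by
  have hq := q_ne_FL S
  have hune := ne_zero_of_not_val hu0
  have hf0 : δ ^ S.e 1 / (q : FL) ≠ 0 := (S.V 1).ne_zero_of_res hu hune
  have hδ0 : δ ≠ 0 := by
    rintro rfl
    rw [zero_pow (S.e_pos 1).ne', zero_div] at hf0
    exact hf0 rfl
  have hw := (S.V 1).w_eq_zero_of_res hu hune
  have he1 : (0 : ℤ) < S.e 1 := by exact_mod_cast S.e_pos 1
  refine ⟨?_, ?_⟩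
  · rw [(S.V 1).w_div (pow_ne_zero _ hδ0) hq, (S.V 1).w_pow, S.w_q 1] at hw
    have h1 : (S.e 1 : ℤ) * ((S.V 1).w δ - 1) = 0 := by linarith
    rcases mul_eq_zero.mp h1 with h2 | h2
    · omega
    · omega
  · have hb₀0 : b₀ ≠ 0 := (S.V 1).ne_zero_of_res hb₀u (ne_zero_of_not_val hu₀)
    have hb₂0 : b₂ ≠ 0 := (S.V 1).ne_zero_of_res hb₂u (ne_zero_of_not_val hu₂)
    have key := inLoc_of_mul S (x := x) (c := 1) (R := R) (f := δ ^ S.e 1 / (q : FL))
      (b := β ^ S.e 1 * (b₀ ^ S.e 0 * b₂ ^ S.e 2))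
      (hol_mul S (hol_pow S hβ _) (hol_mul S (hol_pow S hb₀ _) (hol_pow S hb₂ _)))
      ((S.V 1).res_mul ((S.V 1).res_pow hβv _) ((S.V 1).res_mul ((S.V 1).res_pow hb₀u _)
        ((S.V 1).res_pow hb₂u _)))
      (not_val_mul (not_val_pow hv _) (not_val_mul (not_val_pow hu₀ _) (not_val_pow hu₂ _)))
      ?_ hf0 hu hu0
    · rw [inv_div] at key
      exact key
    · have hv0 : ∀ c (b : FL), b ≠ 0 → 0 < (S.V c).v b → b ^ S.e c / (q : FL) ∈ (S.V c).W := by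
        intro c b hb hpos
        rw [CompVal.mem_W', (S.V c).w_div (pow_ne_zero _ hb) hq, (S.V c).w_pow, S.w_q]
        rcases (S.V c).pos_iff.mp hpos with h | h
        · exact absurd h hb
        · have : (0 : ℤ) < S.e c := by exact_mod_cast S.e_pos c
          nlinarith
      have hδ' := (hol_iff S).mp (hol_pow S hδ (S.e 1))
      have hb₀' := (hol_iff S).mp (hol_pow S hb₀ (S.e 0))
      have hb₂' := (hol_iff S).mp (hol_pow S hb₂ (S.e 2))
      have hβ' := (hol_iff S).mp (hol_pow S hβ (S.e 1))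
      rw [hol_iff]
      refine ⟨fun c => ?_, fun P hP => ?_⟩
      · fin_cases c
        · have h1 : β ^ S.e 1 * (b₀ ^ S.e 0 * b₂ ^ S.e 2) * (δ ^ S.e 1 / (q : FL)) =
              (β * δ) ^ S.e 1 * (b₂ ^ S.e 2) * (b₀ ^ S.e 0 / (q : FL)) := by
            rw [mul_pow]; field_simp
          rw [h1]
          exact mul_mem (mul_mem (hδ'.1 0) (hb₂'.1 0)) (hv0 0 b₀ hb₀0 h₀)
        · refine mul_mem (mul_mem (hβ'.1 1) (mul_mem (hb₀'.1 1) (hb₂'.1 1))) ?_
          exact (S.V 1).nonneg hu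
        · have h1 : β ^ S.e 1 * (b₀ ^ S.e 0 * b₂ ^ S.e 2) * (δ ^ S.e 1 / (q : FL)) =
              (β * δ) ^ S.e 1 * (b₀ ^ S.e 0) * (b₂ ^ S.e 2 / (q : FL)) := by
            rw [mul_pow]; field_simp
          rw [h1]
          exact mul_mem (mul_mem (hδ'.1 2) (hb₀'.1 2)) (hv0 2 b₂ hb₂0 h₂)
      · have h1 : β ^ S.e 1 * (b₀ ^ S.e 0 * b₂ ^ S.e 2) * (δ ^ S.e 1 / (q : FL)) =
              (β * δ) ^ S.e 1 * (b₀ ^ S.e 0) * (b₂ ^ S.e 2) * (q : FL)⁻¹ := by
          rw [mul_pow]; field_simp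
        rw [h1, map_mul, map_mul, map_mul]
        exact mul_mem (mul_mem (mul_mem (hδ'.2 P hP) (hb₀'.2 P hP)) (hb₂'.2 P hP)) (inv_q_mem P)

end Unit

end Fermat.Agent.Q2.Ord
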