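import Mathlib
import Fermat.Agent.Q2.OrdSS
import Fermat.Agent.S28.NotMem

/-!
# Degree bounds for `modPoly`, `deltaPoly`, and `deltaPoly` modulo `q`
-/

set_option autoImplicit false

open ModularCurve Polynomial

noncomputable section

namespace Fermat.Agent.Q2.Ord

open Fermat.Agent.S28 Fermat.Agent.S28.ModPoly Fermat.Agent.JRED.TruncPS
open Fermat.Agent.JRED.DeltaRel Fermat.Agent.JRED.LevelTwo Fermat.Agent.FunField

section Bounds

variable (p : ℕ) [hp : Fact p.Prime]

theorem ge_jqModC (K : Type*) [Field K] : Ge (-1) (jqModC K) := fun _ h => coeff_jqModC_of_lt K h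

theorem ge_jj {K : Type*} [Field K] (ζ : Kˣ) (i : Option (Fin p)) :
    Ge (-((p : ℤ) * p)) (jj K p ζ i) := by
  cases i with
  | none =>
    refine Ge.mono (le_of_eq ?_) ((ge_jqModC K).qExpand (p := p * p))
    push_cast
    ring
  | some b =>
    refine Ge.mono ?_ (ge_jqModC K).twist
    have h1 : (1 : ℤ) ≤ p := by exact_mod_cast hp.out.one_lt.le
    nlinarith

/-- degree bound for the coefficients of the modular polynomial -/
theorem modPoly_natDegree_le (i : ℕ) (hi : i ≤ p + 1) :
    ((modPoly p).coeff i).natDegree ≤ p * (p + 1 - i) := by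
  let K := AlgebraicClosure ℚ
  obtain ⟨ζ, hζ⟩ := exists_unit_primitiveRoot (K := K) (n := p)
    (Nat.cast_ne_zero.mpr hp.out.ne_zero)
  have h1 : GeP ((p : ℤ) * p) ((p + 1 : ℕ) : ℤ) ((modPoly p).map (evJ K (J0 K p))) := by
    rw [modPoly_map p K ζ hζ]
    have := GeP.prod (w := (p : ℤ) * p) (Finset.univ : Finset (Option (Fin p)))
      (a := jj K p ζ) (fun i _ => ge_jj p ζ i)
    simpa using this
  have h2 := h1 i
  rw [coeff_map] at h2
  by_contra hcon
  push Not at hcon
  have hne : (modPoly p).coeff i ≠ 0 := by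
    intro h0
    rw [h0, natDegree_zero] at hcon
    exact absurd hcon (Nat.not_lt_zero _)
  have h3 := coeff_evJ_natDegree (R := K) p ((modPoly p).coeff i)
  have hp0 : (0 : ℤ) < p := by exact_mod_cast hp.out.pos
  rw [h2] at h3
  · have : ((modPoly p).coeff i).leadingCoeff = 0 := by exact_mod_cast h3.symm
    exact hne (leadingCoeff_eq_zero.mp this)
  · have h4 : ((p * (p + 1 - i) : ℕ) : ℤ) = (p : ℤ) * ((p + 1 : ℕ) - i) := by
      rw [Nat.cast_mul, Nat.cast_sub hi]
    have h5 : ((p * (p + 1 - i) : ℕ) : ℤ) < (((modPoly p).coeff i).natDegree : ℤ) := by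
      exact_mod_cast hcon
    rw [h4] at h5
    push_cast at h5 ⊢
    nlinarith

/-- degree bound for the coefficients of `deltaPoly` -/
theorem deltaPoly_natDegree_le (i : ℕ) (hi : i ≤ p + 1) :
    p * ((deltaPoly p).coeff i).natDegree ≤ (p - 1) * (p + 1 - i) := by
  obtain ⟨ζ, hζ⟩ := exists_unit_primitiveRoot (K := AlgebraicClosure ℚ) (n := p)
    (Nat.cast_ne_zero.mpr hp.out.ne_zero)
  exact natDegree_le p hζ i hi

theorem deltaPoly_one_natDegree_le : ((deltaPoly p).coeff 1).natDegree ≤ p - 1 := by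
  have h := deltaPoly_natDegree_le p 1 (by have := hp.out.pos; omega)
  rw [Nat.add_sub_cancel, mul_comm (p - 1)] at h
  exact Nat.le_of_mul_le_mul_left h hp.out.pos

theorem deltaPoly_natDegree_lt (i : ℕ) (h2 : 2 ≤ i) (hi : i ≤ p + 1) :
    ((deltaPoly p).coeff i).natDegree < p - 1 := by
  have h := deltaPoly_natDegree_le p i hi
  by_contra hcon
  push Not at hcon
  have hp1 := hp.out.one_lt
  obtain ⟨r, hr⟩ : ∃ r, p = r + 1 := ⟨p - 1, by omega⟩
  have h3 : p * (p - 1) ≤ (p - 1) * (p + 1 - i) := (Nat.mul_le_mul_left p hcon).trans h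
  have h4 : p + 1 - i ≤ p - 1 := by omega
  have h5 : (p - 1) * (p + 1 - i) ≤ (p - 1) * (p - 1) := Nat.mul_le_mul_left _ h4
  have h6 : p * (p - 1) ≤ (p - 1) * (p - 1) := h3.trans h5
  have h7 := Nat.le_of_mul_le_mul_right h6 (by omega)
  omega

variable (k : Type*) [Field k] [CharP k p]

/-- `deltaPoly` modulo `p`. -/
theorem deltaPoly_map_mod : (deltaPoly p).map (mapRingHom (Int.castRingHom k)) =
    X ^ (p + 1) - C (ssPolyK k p) * X := by
  have hchar := charP_laurent k p
  have hinj : Function.Injective ((aeval (R := k) (J0 k p)).toRingHom) := by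
    intro P Q hPQ
    have h1 : ∀ P : k[X], aeval (J0 k p) P = qExpand k p (aeval (jqModC k) P) := by
      intro P
      have := (Polynomial.aeval_algHom_apply (qExpandAlgHomC k p) (jqModC k) P)
      exact this
    have h2 : aeval (J0 k p) P = aeval (J0 k p) Q := hPQ
    rw [h1, h1] at h2
    exact aeval_j_injective k (qExpand_injective (R := k) p h2)
  apply Polynomial.map_injective _ hinj
  rw [Polynomial.map_map]
  have hcomp : ((aeval (R := k) (J0 k p)).toRingHom).comp (mapRingHom (Int.castRingHom k)) =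
      evJ k (J0 k p) := by
    apply RingHom.ext
    intro P
    rw [evJ_eq_aeval]
    rfl
  rw [hcomp, deltaPoly_map_charP]
  set y := L k dz * qExpand k p (dInv k) with hy
  have hfrob : (X - C y) ^ p = X ^ p - C (y ^ p) := by
    rw [sub_pow_char, C_pow]
  have hyp : y ^ p = aeval (J0 k p) (ssPolyK k p) := by
    have h1 : aeval (J0 k p) (ssPolyK k p) = qExpand k p (aeval (jqModC k) (ssPolyK k p)) :=
      (Polynomial.aeval_algHom_apply (qExpandAlgHomC k p) (jqModC k) (ssPolyK k p))
    rw [h1, aeval_ssPolyK, hy, mul_pow, ← qExpand_L_eq_pow, ← map_pow, ← map_mul]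
    congr 1
    have hp1 : p = (p - 1) + 1 := (Nat.succ_pred_eq_of_pos hp.out.pos).symm
    calc L k dz * dInv k ^ p = L k dz * dInv k ^ ((p - 1) + 1) := by rw [← hp1]
      _ = (L k dz * dInv k) * dInv k ^ (p - 1) := by ring
      _ = _ := by rw [L_dz_mul_dInv, one_mul]
  rw [hfrob, hyp, Polynomial.map_sub, Polynomial.map_mul, Polynomial.map_pow, map_X, map_C]
  change X * (X ^ p - _) = X ^ (p + 1) - C (aeval (J0 k p) (ssPolyK k p)) * X
  ring

/-- evaluation of `deltaPoly` in characteristic `p` -/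
theorem eval₂_deltaPoly_charP {κ : Type*} [CommRing κ] [Algebra k κ] (x d : κ) :
    eval₂ (eval₂RingHom (Int.castRingHom κ) x) d (deltaPoly p) =
      d ^ (p + 1) - aeval x (ssPolyK k p) * d := by
  have h := congrArg (eval₂ (aeval (R := k) x).toRingHom d) (deltaPoly_map_mod p k)
  rw [eval₂_map] at h
  have hcomp : ((aeval (R := k) x).toRingHom).comp (mapRingHom (Int.castRingHom k)) =
      eval₂RingHom (Int.castRingHom κ) x := by
    apply RingHom.ext
    intro P
    change aeval x (P.map (Int.castRingHom k)) = eval₂ (Int.castRingHom κ) x P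
    rw [aeval_def, eval₂_map]
    congr 1
    exact RingHom.ext_int _ _
  rw [hcomp] at h
  rw [h, eval₂_sub, eval₂_pow, eval₂_X, eval₂_mul, eval₂_C, eval₂_X]
  rfl

/-- the leading coefficient of the linear coefficient is `≡ -1` mod `p` -/
theorem coeff_one_coeff : ((((deltaPoly p).coeff 1).coeff (p - 1) : ℤ) : k) = -1 := by
  have h1 := ssPolyK_monic k p
  rw [Monic, leadingCoeff, ssPolyK_natDegree, ssPolyK, coeff_map, ssPoly, coeff_neg, map_neg] at h1
  rw [← h1, neg_neg]
  rfl

end Bounds

end Fermat.Agent.Q2.Ord
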