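import Mathlib
import Fermat.Agent.DR.S36.G4

/-!
# Local generators along one component (abstract part of S36-E)
-/

set_option autoImplicit false

noncomputable section

namespace Fermat.Agent.Q2.Ord

open Fermat.Agent.DR.S36.G Polynomial

section

variable {F C P : Type*} [Field F] {X : Chart F C P} [Finite C] [IsFractionRing X.B F]
  {n : Ideal X.B} [hn : n.IsMaximal]

omit [Finite C] in
theorem coe_mem_loc (b : X.B) : (b : F) ∈ Loc X.B n :=
  mem_loc.mpr ⟨b, 1, (Ideal.ne_top_iff_one n).mp hn.ne_top, by simp⟩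

omit [Finite C] in
theorem inv_coe_mem_loc {b : X.B} (hb : b ∉ n) : (b : F)⁻¹ ∈ Loc X.B n := by
  have hb0 : (b : F) ≠ 0 := fun h => hb (by
    have : b = 0 := Subtype.ext h
    rw [this]; exact zero_mem _)
  exact mem_loc.mpr ⟨1, b, hb, by rw [mul_inv_cancel₀ hb0]; simp⟩

/-- Valuation rings are integrally closed (polynomials with coefficients mapped by `f`). -/
theorem mem_valuationSubring_of_eval₂ {V : ValuationSubring F} {R : Type*} [CommRing R]
    (f : R →+* F) {p : R[X]} (hp : p.Monic)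
    (hf : ∀ i, f (p.coeff i) ∈ V) {y : F} (hy : p.eval₂ f y = 0) : y ∈ V := by
  by_contra hcon
  have h1 : 1 < V.valuation y := by
    rw [← not_le, V.valuation_le_one_iff]; exact hcon
  have hy0 : (0 : V.ValueGroup) < V.valuation y := lt_trans zero_lt_one h1
  have h2 : p.eval₂ f y = ∑ m ∈ Finset.range p.natDegree, f (p.coeff m) * y ^ m +
      y ^ p.natDegree := by
    rw [eval₂_eq_sum_range, Finset.sum_range_succ, hp.coeff_natDegree, map_one, one_mul]
  rw [h2] at hy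
  have hd : p.natDegree ≠ 0 := by
    intro h0
    rw [h0] at hy
    simp at hy
  have h3 : V.valuation (∑ m ∈ Finset.range p.natDegree, f (p.coeff m) * y ^ m) ≤
      V.valuation y ^ (p.natDegree - 1) := by
    refine Valuation.map_sum_le _ fun m hm => ?_
    rw [map_mul, map_pow]
    refine (mul_le_of_le_one_left' ((V.valuation_le_one_iff _).mpr (hf m))).trans ?_
    exact pow_le_pow_right₀ h1.le (by have := Finset.mem_range.mp hm; omega)
  have h4 : V.valuation (y ^ p.natDegree) =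
      V.valuation (∑ m ∈ Finset.range p.natDegree, f (p.coeff m) * y ^ m) := by
    rw [eq_neg_of_add_eq_zero_right hy, Valuation.map_neg]
  rw [map_pow] at h4
  rw [← h4] at h3
  exact absurd h3 (not_le.mpr (pow_lt_pow_right₀ h1 (by omega)))

omit [Finite C] [IsFractionRing X.B F] hn in
theorem mem_B_of_eval₂ {R : Type*} [CommRing R] (f : R →+* F) {p : R[X]} (hp : p.Monic)
    (hf : ∀ i, f (p.coeff i) ∈ X.B) {y : F} (hy : p.eval₂ f y = 0) : y ∈ X.B := by
  rw [X.mem_B]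
  exact fun i => mem_valuationSubring_of_eval₂ f hp (fun m => X.mem_B.mp (hf m) i) hy

/-- The localisation is integrally closed. -/
theorem mem_loc_of_eval₂ {R : Type*} [CommRing R] (f : R →+* F) {p : R[X]} (hp : p.Monic)
    (hf : ∀ i, f (p.coeff i) ∈ Loc X.B n) {y : F} (hy : p.eval₂ f y = 0) : y ∈ Loc X.B n := by
  rw [Chart.mem_loc_iff']
  exact fun i hi => mem_valuationSubring_of_eval₂ f hp
    (fun m => (Chart.mem_loc_iff'.mp (hf m)) i hi) hy

/-- Units near `n`. -/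
theorem val_eq_one_of_delta (hq : (⟨X.q, X.q_mem⟩ : X.B) ∈ n) {c₀ : C}
    (hc₀ : ∀ c, Sum.inl c ∈ near X.V n → c = c₀) (hmem : Sum.inl c₀ ∈ near X.V n)
    {κ : Type*} [Field κ] (ρ : X.W c₀ →+* κ)
    (hρ : ∀ x : X.W c₀, ρ x = 0 ↔ (X.W c₀).valuation (x : F) < 1) (O : ValuationSubring κ)
    (surj_O : ∀ y ∈ O, ∃ (a b : X.B) (ha : (a : F) ∈ X.W c₀) (hb : (b : F) ∈ X.W c₀), b ∉ n ∧
      ρ ⟨b, hb⟩ * y = ρ ⟨a, ha⟩)
    {x : F} (hx : ∀ i, Sum.inr i ∈ near X.V n → x ∈ X.H i) (hxW : x ∈ X.W c₀)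
    (hy : ρ ⟨x, hxW⟩ ≠ 0) (hyO : (ρ ⟨x, hxW⟩)⁻¹ ∈ O) :
    x ∈ Loc X.B n ∧ x⁻¹ ∈ Loc X.B n := by
  obtain ⟨a, b, ha, hb, hbn, hab⟩ := surj_O _ hyO
  have hxL : x ∈ Loc X.B n := by
    rw [Chart.mem_loc_iff']
    rintro (c | i) hi
    · obtain rfl := hc₀ c hi
      exact hxW
    · exact hx i hi
  refine ⟨hxL, ?_⟩
  have haL : (a : F) ∈ Loc X.B n := coe_mem_loc a
  have hbL : (b : F) ∈ Loc X.B n := coe_mem_loc b
  have hbL' : (b : F)⁻¹ ∈ Loc X.B n := inv_coe_mem_loc hbn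
  have hb0 : (b : F) ≠ 0 := fun h => hbn (by
    have : b = 0 := Subtype.ext h
    rw [this]; exact zero_mem _)
  obtain ⟨h1, h2⟩ := Chart.inv_mem_loc hq (mul_mem haL hxL) hbL hbL' hb0 (fun c hc => by
    obtain rfl := hc₀ c hc
    have h3 : (⟨(a : F) * x - b, sub_mem (mul_mem ha hxW) hb⟩ : X.W c) =
        ⟨a, ha⟩ * ⟨x, hxW⟩ - ⟨b, hb⟩ := rfl
    have h4 : ρ ⟨(a : F) * x - b, sub_mem (mul_mem ha hxW) hb⟩ = 0 := by
      rw [h3, map_sub, map_mul, ← hab, mul_assoc, inv_mul_cancel₀ hy, mul_one, sub_self]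
    exact (hρ _).mp h4)
  have h5 : x⁻¹ = (a : F) * ((a : F) * x)⁻¹ := by
    have ha0 : (a : F) ≠ 0 := left_ne_zero_of_mul h1
    have hx0 : x ≠ 0 := right_ne_zero_of_mul h1
    field_simp
  rw [h5]
  exact mul_mem haL h2

end

end Fermat.Agent.Q2.Ord
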