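import Mathlib
import Fermat.Agent.Q2.OrdBounds
import Fermat.Agent.Q2.OrdLocal
import Fermat.Agent.Q2.Full
import Fermat.Agent.S28.ModPolySpecProof

/-!
# The modular equation and valuations
-/

set_option autoImplicit false

open ModularCurve Polynomial

noncomputable section

namespace Fermat.Agent.Q2.Ord

open Fermat.Agent.S28 Fermat.Agent.S28.ModPoly Fermat.Agent.Q2

section Val

variable {E : Type*} [Field E] {V : ValuationSubring E} (p : ℕ) [hp : Fact p.Prime]

/-- `Φ_p(b; a) = 0` -/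
def ModRoot (a b : E) : Prop := (PhiR (modPoly p) a).eval b = 0

theorem intCast_mem' (n : ℤ) : (n : E) ∈ V := intCast_mem V n

theorem eval₂_mem {a : E} (ha : a ∈ V) (P : ℤ[X]) : eval₂ (Int.castRingHom E) a P ∈ V := by
  rw [eval₂_eq_sum_range]
  exact sum_mem fun i _ => mul_mem (intCast_mem' _) (pow_mem ha i)

theorem eval₂_mul_mem {a : E} (ha0 : a ≠ 0) (ha : a⁻¹ ∈ V) (P : ℤ[X]) {n : ℕ}
    (hn : P.natDegree ≤ n) : eval₂ (Int.castRingHom E) a P * a⁻¹ ^ n ∈ V := by
  rw [eval₂_eq_sum_range, Finset.sum_mul]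
  refine sum_mem fun i hi => ?_
  rw [Finset.mem_range] at hi
  have h1 : a⁻¹ ^ n = a⁻¹ ^ i * a⁻¹ ^ (n - i) := by rw [← pow_add]; congr 1; omega
  have h2 : (Int.castRingHom E) (P.coeff i) * a ^ i * a⁻¹ ^ n =
      (Int.castRingHom E) (P.coeff i) * a⁻¹ ^ (n - i) := by
    rw [h1, mul_assoc, ← mul_assoc (a ^ i), ← mul_pow, mul_inv_cancel₀ ha0, one_pow, one_mul]
  rw [h2]
  exact mul_mem (intCast_mem' _) (pow_mem ha _)

variable {p}

theorem ModRoot.mem {a b : E} (h : ModRoot p a b) (ha : a ∈ V) : b ∈ V := by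
  refine mem_valuationSubring_of_eval₂ (RingHom.id E) (PhiR_monic (modPoly_monic p) a)
    (fun i => ?_) (y := b) (by rw [← eval_map, Polynomial.map_id]; exact h)
  rw [RingHom.id_apply, PhiR, coeff_map]
  exact eval₂_mem ha _

theorem ModRoot.scaled_mem {a b : E} (h : ModRoot p a b) (ha0 : a ≠ 0) (ha : a⁻¹ ∈ V) :
    b * a⁻¹ ^ p ∈ V := by
  have hmon := PhiR_monic (modPoly_monic p) a
  have hdeg : (PhiR (modPoly p) a).natDegree = p + 1 := by
    rw [PhiR_natDegree (modPoly_monic p), modPoly_natDegree]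
  have hroot : (scaleRoots (PhiR (modPoly p) a) (a⁻¹ ^ p)).eval (a⁻¹ ^ p * b) = 0 := by
    have := scaleRoots_eval₂_mul (p := PhiR (modPoly p) a) (RingHom.id E) b (a⁻¹ ^ p)
    rw [RingHom.id_apply] at this
    rw [← eval₂_id]
    rw [this, eval₂_id]
    rw [show (PhiR (modPoly p) a).eval b = 0 from h, mul_zero]
  rw [mul_comm]
  refine mem_valuationSubring_of_eval₂ (RingHom.id E)
    ((monic_scaleRoots_iff (a⁻¹ ^ p)).mpr hmon) (fun i => ?_) (by rw [eval₂_id]; exact hroot)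
  rw [RingHom.id_apply, coeff_scaleRoots, hdeg, PhiR, coeff_map, ← pow_mul]
  by_cases hi : i ≤ p + 1
  · exact eval₂_mul_mem ha0 ha _ (modPoly_natDegree_le p i hi)
  · have h0 : (modPoly p).coeff i = 0 := coeff_eq_zero_of_natDegree_lt (by
      rw [modPoly_natDegree]; omega)
    rw [h0, map_zero, zero_mul]
    exact zero_mem _

/-- two steps -/
theorem ModRoot.scaled_mem_two {a b c : E} (h : ModRoot p a b) (h' : ModRoot p b c) (ha0 : a ≠ 0)
    (hb0 : b ≠ 0) (ha : a⁻¹ ∈ V) : c * a⁻¹ ^ (p * p) ∈ V := by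
  have h1 := h.scaled_mem ha0 ha
  rcases V.mem_or_inv_mem b with hb | hb
  · exact mul_mem (h'.mem hb) (pow_mem ha _)
  · have h2 := h'.scaled_mem hb0 hb
    have h3 : c * a⁻¹ ^ (p * p) = (c * b⁻¹ ^ p) * (b * a⁻¹ ^ p) ^ p := by
      rw [mul_pow, ← pow_mul, inv_pow]
      have : b ^ p ≠ 0 := pow_ne_zero _ hb0
      rw [inv_pow b p]
      field_simp
    rw [h3]
    exact mul_mem h2 (pow_mem h1 p)

end Val

section Roots

variable (L : Type) [Field L] [CharZero L] (p : ℕ) [hp : Fact p.Prime]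

theorem modRoot_jt {m : ℕ} (hm : m ≠ 0) :
    ModRoot p (jt (1 : Lˣ) m) (jt (1 : Lˣ) (p * m)) ∧
      ModRoot p (jt (1 : Lˣ) (p * m)) (jt (1 : Lˣ) m) := by
  let K := AlgebraicClosure L
  have : CharZero K := charZero_of_injective_algebraMap (algebraMap L K).injective
  obtain ⟨ζ, hζ⟩ := exists_unit_primitiveRoot (K := K) (n := p)
    (Nat.cast_ne_zero.mpr hp.out.ne_zero)
  have hS := modPolySpec_modPoly p
  have key : ∀ n n' : ℕ, (PhiR (modPoly p) (jt (1 : Kˣ) n)).eval (jt (1 : Kˣ) n') = 0 →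
      (PhiR (modPoly p) (jt (1 : Lˣ) n)).eval (jt (1 : Lˣ) n') = 0 := by
    intro n n' h
    apply JRED.coeffMap_injective (algebraMap L K).injective
    rw [map_zero, ← h, ← coeffMap_jt_one (algebraMap L K) n, ← PhiR_map,
      ← coeffMap_jt_one (algebraMap L K) n', eval_map, eval₂_at_apply]
  exact ⟨key _ _ (hS.root_high hζ hm), key _ _ (hS.root_low_one hζ hm)⟩

variable {L p}

omit [CharZero L] in
/-- in a subfield -/
theorem modRoot_coe {M : ℕ} {a b : modularFunctionFieldFullC L M}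
    (h : ModRoot p (a : LaurentSeries L) (b : LaurentSeries L)) : ModRoot p a b := by
  apply (algebraMap (modularFunctionFieldFullC L M) (LaurentSeries L)).injective
  rw [map_zero, ← eval₂_at_apply, ← eval_map, PhiR_map]
  exact h

end Roots

end Fermat.Agent.Q2.Ord
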