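import Mathlib
import Fermat.Agent.Q2.OrdT4
import Fermat.Agent.Q2.Full
import Fermat.Agent.FunField.Quot
import Fermat.Agent.JRED.AtkinLehner

/-!
# `t4 ∈ F_M` if `4 ∣ M` (characteristic zero); `t4` is integral over `ℤ[j]`
-/

set_option autoImplicit false

open ModularCurve Polynomial

noncomputable section

namespace Fermat.Agent.Q2.Ord

open Fermat.Agent.S28 Fermat.Agent.S28.ModPoly Fermat.Agent.JRED.TruncPS
open Fermat.Agent.JRED.DeltaRel Fermat.Agent.JRED.LevelTwo Fermat.Agent.FunField

section Mem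

variable (K : Type) [Field K] [CharZero K]

theorem t2_mem_adjoin : t2 K ∈ IntermediateField.adjoin K {jqModC K, qExpand K 2 (jqModC K)} := by
  have h := inv_mem (deltaRatio_mem K 2)
  have h1 : (qExpand K 2 (deltaL K) / deltaL K)⁻¹ = t2 K := by
    have h2 : qExpand K 2 (deltaL K) * qExpand K 2 (dInv K) = 1 := by
      rw [← map_mul, show deltaL K = L K dz from rfl, L_dz_mul_dInv, map_one]
    have h3 : qExpand K 2 (dInv K) = (qExpand K 2 (deltaL K))⁻¹ :=
      eq_inv_of_mul_eq_one_right h2
    rw [inv_div, t2, h3, div_eq_mul_inv]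
    rfl
  rw [h1] at h
  exact h

variable {M : ℕ}

theorem t2_mem_full (h : 2 ∣ M) : t2 K ∈ modularFunctionFieldFullC K M := by
  have hle : IntermediateField.adjoin K {jqModC K, qExpand K 2 (jqModC K)} ≤
      modularFunctionFieldFullC K M := by
    rw [IntermediateField.adjoin_le_iff]
    rintro x (rfl | rfl)
    · exact jqModC_mem_full K M
    · exact jqModCd_mem_full K M h
  exact hle (t2_mem_adjoin K)

theorem t2b_mem_full (h : 4 ∣ M) : t2b K ∈ modularFunctionFieldFullC K M := by
  have h1 := t2_mem_full K (M := 2) dvd_rfl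
  have h2 := JRED.AL.qExpand_mem_full K 2 2 h1
  have hle : modularFunctionFieldFullC K (2 * 2) ≤ modularFunctionFieldFullC K M := by
    rw [modularFunctionFieldFullC, IntermediateField.adjoin_le_iff]
    rintro _ ⟨d, hd0, hd, rfl⟩
    exact jqModCd_mem_full K M (hd.trans h)
  exact hle h2

theorem t4_mem_full (h : 4 ∣ M) : t4 K ∈ modularFunctionFieldFullC K M := by
  have h1 := t4_mul_add K
  have h2 : t2 K ∈ modularFunctionFieldFullC K M := t2_mem_full K ((by norm_num : 2 ∣ 4).trans h)
  have h16 : (16 : LaurentSeries K) ∈ modularFunctionFieldFullC K M := by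
    have : (16 : LaurentSeries K) = algebraMap K _ 16 := (map_ofNat _ 16).symm
    rw [this]
    exact (modularFunctionFieldFullC K M).algebraMap_mem _
  have hne : t2 K + 16 ≠ 0 := by
    intro h0
    have h3 := congrArg (coeffMap (Int.castRingHom K)) t2Inv_spec
    rw [map_mul, map_add, coeffMap_t2, map_ofNat, map_one, h0, zero_mul] at h3
    exact zero_ne_one h3
  rw [eq_div_of_mul_eq hne h1]
  exact div_mem (sub_mem (t2b_mem_full K h) (mul_mem h16 h2)) (add_mem h2 h16)

end Mem

section Int

variable {E : Type*} [Field E] {V : ValuationSubring E}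

/-- `t4` is integral over `ℤ[j]` -/
theorem t4_mem_val {j t : E} (h : j * (t ^ 4 * (t + 16)) = (t ^ 2 + 256 * t + 4096) ^ 3)
    (hj : j ∈ V) : t ∈ V := by
  rcases V.mem_or_inv_mem t with ht | ht
  · exact ht
  by_cases ht0 : t = 0
  · rw [ht0]; exact zero_mem _
  have h16 : (16 : E) ∈ V := by exact_mod_cast natCast_mem V 16
  have h1 : t = j * (1 + 16 * t⁻¹) - (768 + 208896 * t⁻¹ + 23068672 * t⁻¹ ^ 2 +
      855638016 * t⁻¹ ^ 3 + 12884901888 * t⁻¹ ^ 4 + 68719476736 * t⁻¹ ^ 5) := by
    field_simp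
    linear_combination -h
  rw [h1]
  have hc : ∀ n : ℕ, (n : E) ∈ V := fun n => natCast_mem V n
  have e1 : (768 : E) ∈ V := by exact_mod_cast hc 768
  have e2 : (208896 : E) ∈ V := by exact_mod_cast hc 208896
  have e3 : (23068672 : E) ∈ V := by exact_mod_cast hc 23068672
  have e4 : (855638016 : E) ∈ V := by exact_mod_cast hc 855638016
  have e5 : (12884901888 : E) ∈ V := by exact_mod_cast hc 12884901888
  have e6 : (68719476736 : E) ∈ V := by exact_mod_cast hc 68719476736
  exact sub_mem (mul_mem hj (add_mem (one_mem _) (mul_mem h16 ht)))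
    (add_mem (add_mem (add_mem (add_mem (add_mem e1 (mul_mem e2 ht)) (mul_mem e3 (pow_mem ht _)))
      (mul_mem e4 (pow_mem ht _))) (mul_mem e5 (pow_mem ht _))) (mul_mem e6 (pow_mem ht _)))

end Int

end Fermat.Agent.Q2.Ord
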