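import Mathlib
import Fermat.Agent.Q2.OrdHol
import Fermat.Agent.Q2.OrdModEq
import Fermat.Agent.Q2.OrdT4Mem
import Fermat.Agent.Q2.OrdPlace
import Fermat.Agent.Q2.Cyclo

/-!
# The generator of the middle component off the supersingular points (S36-E)
-/

set_option autoImplicit false

noncomputable section

namespace Fermat.Agent.Q2.Ord

open AlgebraicCurve ModularCurve Fermat.Agent.RR Fermat.Agent.JRED Fermat.Agent.DR
  Fermat.Agent.DR.S36 Fermat.Agent.S28 Fermat.Agent.FunField Fermat.Agent.Q2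

section GRedAux

variable {K k : Type*} [Field K] [Field k] {A : ValuationSubring K} {π : A →+* k}

theorem GRed.pow' {f : LaurentSeries K} {u : LaurentSeries k} (h : GRed π f u) (n : ℕ) :
    GRed π (f ^ n) (u ^ n) := by
  induction n with
  | zero => simpa using GRed.one
  | succ n ih => rw [pow_succ, pow_succ]; exact ih.mul h

theorem GRed.sub' {f f' : LaurentSeries K} {u u' : LaurentSeries k} (h : GRed π f u)
    (h' : GRed π f' u') : GRed π (f - f') (u - u') := by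
  rw [sub_eq_add_neg, sub_eq_add_neg]
  exact h.add h'.neg

theorem gRed_jt (n : ℕ) : GRed π (jt (1 : Kˣ) n) (jt (1 : kˣ) n) := by
  by_cases hn : n = 0
  · subst hn
    rw [jt, dif_pos rfl, jt, dif_pos rfl]
    exact GRed.zero
  · have : NeZero n := ⟨hn⟩
    have h := GRed.of_int (π := π) (qExpand ℤ n (jqModC ℤ))
    rw [coeffMap_qExpand, coeffMap_qExpand, coeffMap_jqModC, coeffMap_jqModC] at h
    rw [jt_one_eq, jt_one_eq]
    exact h

theorem gRed_t4 : GRed π (t4 K) (t4 k) := by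
  have h := GRed.of_int (π := π) (t4 ℤ)
  rw [coeffMap_t4, coeffMap_t4] at h
  exact h

end GRedAux

section Val

variable {E : Type*} [Field E] {V : ValuationSubring E} {p : ℕ} [hp : Fact p.Prime] {a b c : E}

theorem one_lt_val {V : ValuationSubring E} {x : E} (h : x ∉ V) : 1 < V.valuation x := by
  rw [← not_le, V.valuation_le_one_iff]; exact h

theorem mem_of_mul_mem (h1 : ModRoot p a b) (h2 : ModRoot p b a) (h3 : ModRoot p b c)
    (h4 : ModRoot p c b) (h : a * c ∈ V) : a ∈ V ∧ c ∈ V := by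
  by_cases ha : a ∈ V
  · exact ⟨ha, h3.mem (h1.mem ha)⟩
  · have hc : c ∉ V := fun hc => ha (h2.mem (h4.mem hc))
    exfalso
    have h5 : 1 < V.valuation (a * c) := by
      rw [map_mul]
      exact one_lt_mul'' (one_lt_val ha) (one_lt_val hc)
    exact absurd ((V.valuation_le_one_iff _).mpr h) (not_le.mpr h5)

theorem lt_one_of_inv {V : ValuationSubring E} {x : E} (h : x⁻¹ ∉ V) : V.valuation x < 1 := by
  have h1 := one_lt_val h
  rw [map_inv₀] at h1
  have hx : V.valuation x ≠ 0 := by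
    intro h0
    rw [h0, inv_zero] at h1
    exact absurd h1 (not_lt.mpr zero_le)
  exact (one_lt_inv₀ (lt_of_le_of_ne zero_le hx.symm)).mp h1

theorem inv_mem_of_mul_inv_mem (h1 : ModRoot p a b) (h2 : ModRoot p b a) (h3 : ModRoot p b c)
    (h4 : ModRoot p c b) (ha0 : a ≠ 0) (hc0 : c ≠ 0) (h : (a * c)⁻¹ ∈ V) :
    a⁻¹ ∈ V ∧ c⁻¹ ∈ V := by
  have key : ∀ x y : E, x ≠ 0 → y ≠ 0 → (x ∈ V → y ∈ V) → (x * y)⁻¹ ∈ V → x⁻¹ ∈ V := by
    intro x y hx hy hxy hxyi
    by_contra hcon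
    have e1 := lt_one_of_inv hcon
    have e2 : V.valuation y ≤ 1 :=
      (V.valuation_le_one_iff _).mpr (hxy ((V.valuation_le_one_iff _).mp e1.le))
    have e3 : V.valuation (x * y) < 1 := by
      rw [map_mul]
      exact (mul_le_of_le_one_right' e2).trans_lt e1
    have e4 := (V.valuation_le_one_iff _).mpr hxyi
    rw [map_inv₀] at e4
    have e5 : 0 < V.valuation (x * y) :=
      lt_of_le_of_ne zero_le ((Valuation.ne_zero_iff _).mpr (mul_ne_zero hx hy)).symm
    exact absurd ((inv_le_one₀ e5).mp e4) (not_le.mpr e3)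
  exact ⟨key a c ha0 hc0 (fun h => h3.mem (h1.mem h)) h,
    key c a hc0 ha0 (fun h => h2.mem (h4.mem h)) (by rwa [mul_comm])⟩

end Val

section Hol

variable {L K FL F k κ : Type*} [Field L] [Field K] [Field FL] [Field F] [Field k] [Field κ]
  [Algebra L K] [Algebra L FL] [Algebra K F] [Algebra FL F] [Algebra k κ]
  {A₀ : ValuationSubring L} {q : ℕ} (S : Surf L K FL F k κ A₀ q)

/-- Statements about all valuation rings give holomorphic functions. -/
theorem hol_of_forall {x b : FL} (hx : ∀ c, x ∈ (S.V c).W)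
    (h : ∀ V : ValuationSubring FL, x ∈ V → b ∈ V) : S.Hol x b :=
  ⟨fun c => h _ (hx c), fun P hP => h (P.toValuationSubring.comap (algebraMap FL F)) hP⟩

end Hol

section Main

/-- shortcut instance -/
@[reducible] def algFull (K : Type*) [Field K] (N : ℕ) :
    Algebra K (modularFunctionFieldFullC K N) := inferInstance

attribute [local instance 2000] algFull

local notation "ℚbar" => AlgebraicClosure ℚ

set_option linter.unusedSectionVars false

variable {L : Type} [Field L] [Algebra L ℚbar]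
  {k : Type} [Field k] {N q : ℕ}
  {A : ValuationSubring ℚbar} {π : A →+* k}
  {F : Type*} [Field F] [Algebra ℚbar F]
  [Algebra (modularFunctionFieldFullC L (N * q * q)) F]
  {A₀ : ValuationSubring L}
  (S : Surf L ℚbar (modularFunctionFieldFullC L (N * q * q)) F k
    (modularFunctionFieldFullC k N) A₀ q)

/-- The residues of the surface are the Gauss reductions of three embeddings. -/
def EmbRes (π : A →+* k) (emb : Fin 3 → modularFunctionFieldFullC L (N * q * q) →+*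
    LaurentSeries ℚbar) : Prop :=
  ∀ (c : Fin 3) (f : modularFunctionFieldFullC L (N * q * q)) (u' : LaurentSeries k),
    GRed π (emb c f) u' →
      ∃ u : modularFunctionFieldFullC k N, (u : LaurentSeries k) = u' ∧ (S.V c).Res f u

variable {emb : Fin 3 → modularFunctionFieldFullC L (N * q * q) →+* LaurentSeries ℚbar}

/-- `(h' - h)^{q-1}/q` has residue `-(θ v)^{q-1}` -/
theorem exists_res_diff [hq : Fact q.Prime] (hE : EmbRes S π emb) (hπ : Function.Surjective π)
    (hA : A.LiesOverPrime q) {ζ : ℚbarˣ} (hζ : IsPrimitiveRoot (ζ : ℚbar) q)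
    {h h' : modularFunctionFieldFullC L (N * q * q)} {H : LaurentSeries ℚbar}
    {v : LaurentSeries k} (e1 : emb 1 h = H) (e2 : emb 1 h' = S28.twist ζ H) (hv : GRed π H v) :
    ∃ u : modularFunctionFieldFullC k N,
      (u : LaurentSeries k) = -(thetaD k v) ^ (q - 1) ∧ (S.V 1).Res ((h' - h) ^ (q - 1) / q) u := by
  have hne : NeZero q := ⟨hq.out.ne_zero⟩
  apply hE
  have hm := Cyclo.zeta_mem (A := A) hζ
  have h1 := Cyclo.res_zeta hA hζ hπ hm
  have hζ1 : (ζ : ℚbar) ≠ 1 := hζ.ne_one hq.out.one_lt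
  have h2 := GRed.diff hπ hv hζ1 h1
  have h3 := GRed.pow' h2 (q - 1)
  obtain ⟨h4, h5⟩ := Cyclo.res_pow_div hA hζ hπ
  have h6 := (GRed.const (π := π) ⟨_, h4⟩).mul h3
  rw [h5] at h6
  have h7 : algebraMap k (LaurentSeries k) (-1) * thetaD k v ^ (q - 1) =
      -(thetaD k v) ^ (q - 1) := by
    rw [map_neg, map_one, neg_one_mul]
  rw [h7] at h6
  have hz : algebraMap ℚbar (LaurentSeries ℚbar) ((ζ : ℚbar) - 1) ≠ 0 := by
    rw [Ne, map_eq_zero]
    exact sub_ne_zero.mpr hζ1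
  have h8 : emb 1 ((h' - h) ^ (q - 1) / q) =
      algebraMap ℚbar (LaurentSeries ℚbar) (((ζ : ℚbar) - 1) ^ (q - 1) / q) *
        (algebraMap ℚbar (LaurentSeries ℚbar) ((ζ : ℚbar) - 1)⁻¹ * (S28.twist ζ H - H)) ^
          (q - 1) := by
    rw [map_div₀, map_pow, map_sub, map_natCast, e1, e2, map_div₀, map_pow, map_natCast, mul_pow,
      map_inv₀, inv_pow]
    have h9 : (algebraMap ℚbar (LaurentSeries ℚbar) ((ζ : ℚbar) - 1)) ^ (q - 1) ≠ 0 :=
      pow_ne_zero _ hz
    field_simp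
  rw [h8]
  exact h6

/-- The values of the three embeddings at `a = j(E₁)`, `b = j(E₂)`, `c = j(E₃)`. -/
structure EmbJ (q : ℕ) (emb : Fin 3 → modularFunctionFieldFullC L (N * q * q) →+*
    LaurentSeries ℚbar) (ζ : ℚbarˣ) (a b c : modularFunctionFieldFullC L (N * q * q)) : Prop where
  a_coe : (a : LaurentSeries L) = jt 1 1
  b_coe : (b : LaurentSeries L) = jt 1 q
  c_coe : (c : LaurentSeries L) = jt 1 (q * q)
  a₀ : emb 0 a = jt 1 1
  c₀ : emb 0 c = jt 1 (q * q)
  a₁ : emb 1 a = jt 1 1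
  b₁ : emb 1 b = jt 1 q
  c₁ : emb 1 c = S28.twist ζ (jt 1 1)
  a₂ : emb 2 a = jt 1 (q * q)
  c₂ : emb 2 c = jt 1 1

theorem not_val_of_ord {κ : Type*} [Field κ] [Algebra k κ] {R : Place k κ} {u : κ} (hu0 : u ≠ 0)
    (h : R.ord u = 0) : ¬ Val R u 0 := by
  rw [not_val_iff]
  exact ((Fermat.FF.ord_eq_zero_iff_val R hu0).mp h).ge

theorem val_of_ord {κ : Type*} [Field κ] [Algebra k κ] {R : Place k κ} {u : κ}
    (h : 0 < R.ord u) : Val R u 0 := by
  rw [Val, map_zero, sub_zero, Fermat.FF.val_lt_one_iff]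
  exact Or.inr h

variable [CharZero L] [hq : Fact q.Prime] {ζ : ℚbarˣ}
  {a b c : modularFunctionFieldFullC L (N * q * q)}

theorem jt_ne_zero' {K : Type*} [Field K] (u : Kˣ) {n : ℕ} (hn : n ≠ 0) : jt u n ≠ 0 := by
  intro h
  have h1 := jt_coeff_neg u hn
  rw [h, HahnSeries.coeff_zero] at h1
  exact Units.ne_zero _ h1.symm

section EmbJ

variable (hJ : EmbJ q emb ζ a b c)
include hJ

theorem EmbJ.ab : ModRoot q a b := by
  apply modRoot_coe
  rw [hJ.a_coe, hJ.b_coe]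
  have := (modRoot_jt L q one_ne_zero).1
  rwa [mul_one] at this

theorem EmbJ.ba : ModRoot q b a := by
  apply modRoot_coe
  rw [hJ.a_coe, hJ.b_coe]
  have := (modRoot_jt L q one_ne_zero).2
  rwa [mul_one] at this

theorem EmbJ.bc : ModRoot q b c := by
  apply modRoot_coe
  rw [hJ.b_coe, hJ.c_coe]
  exact (modRoot_jt L q hq.out.ne_zero).1

theorem EmbJ.cb : ModRoot q c b := by
  apply modRoot_coe
  rw [hJ.b_coe, hJ.c_coe]
  exact (modRoot_jt L q hq.out.ne_zero).2

omit [CharZero L] hq in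
theorem EmbJ.a_ne : a ≠ 0 := by
  rintro rfl
  exact jt_ne_zero' 1 one_ne_zero hJ.a_coe.symm

theorem EmbJ.b_ne : b ≠ 0 := by
  rintro rfl
  exact jt_ne_zero' 1 hq.out.ne_zero hJ.b_coe.symm

theorem EmbJ.c_ne : c ≠ 0 := by
  rintro rfl
  exact jt_ne_zero' 1 (Nat.mul_ne_zero hq.out.ne_zero hq.out.ne_zero) hJ.c_coe.symm

variable (hE : EmbRes S π emb) (hπ : Function.Surjective π) (hA : A.LiesOverPrime q)
  (hζ : IsPrimitiveRoot (ζ : ℚbar) q)
include hE hπ hA hζ

omit [CharZero L] hE hJ in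
theorem gRed_twist_jt : GRed π (S28.twist ζ (jt (1 : ℚbarˣ) 1)) (jt (1 : kˣ) 1) :=
  have _hne : NeZero q := ⟨hq.out.ne_zero⟩
  GRed.twist_one_residue hπ (gRed_jt 1) (h := Cyclo.zeta_mem (A := A) hζ)
    (Cyclo.res_zeta hA hζ hπ _)

omit [CharZero L] in
theorem EmbJ.exists_res (i : Fin 3) : ∃ u v : modularFunctionFieldFullC k N, u ≠ 0 ∧ v ≠ 0 ∧
    (S.V i).Res a u ∧ (S.V i).Res c v := by
  have hqq : q * q ≠ 0 := Nat.mul_ne_zero hq.out.ne_zero hq.out.ne_zero
  have key : ∀ (f : modularFunctionFieldFullC L (N * q * q)) (n : ℕ), n ≠ 0 →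
      GRed π (emb i f) (jt (1 : kˣ) n) →
      ∃ u : modularFunctionFieldFullC k N, u ≠ 0 ∧ (S.V i).Res f u := by
    intro f n hn h
    obtain ⟨u, h1, h2⟩ := hE _ _ _ h
    refine ⟨u, ?_, h2⟩
    rintro rfl
    exact jt_ne_zero' 1 hn h1.symm
  have h1 : ∃ n, n ≠ 0 ∧ GRed π (emb i a) (jt (1 : kˣ) n) := by
    fin_cases i
    · exact ⟨1, one_ne_zero, by
        change GRed π (emb 0 a) _
        rw [hJ.a₀]; exact gRed_jt 1⟩
    · exact ⟨1, one_ne_zero, by
        change GRed π (emb 1 a) _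
        rw [hJ.a₁]; exact gRed_jt 1⟩
    · exact ⟨q * q, hqq, by
        change GRed π (emb 2 a) _
        rw [hJ.a₂]; exact gRed_jt _⟩
  have h2 : ∃ n, n ≠ 0 ∧ GRed π (emb i c) (jt (1 : kˣ) n) := by
    fin_cases i
    · exact ⟨q * q, hqq, by
        change GRed π (emb 0 c) _
        rw [hJ.c₀]; exact gRed_jt _⟩
    · exact ⟨1, one_ne_zero, by
        change GRed π (emb 1 c) _
        rw [hJ.c₁]; exact gRed_twist_jt hπ hA hζ⟩
    · exact ⟨1, one_ne_zero, by
        change GRed π (emb 2 c) _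
        rw [hJ.c₂]; exact gRed_jt 1⟩
  obtain ⟨n, hn, h1⟩ := h1
  obtain ⟨m, hm, h2⟩ := h2
  obtain ⟨u, hu, hu'⟩ := key _ n hn h1
  obtain ⟨v, hv, hv'⟩ := key _ m hm h2
  exact ⟨u, v, hu, hv, hu', hv'⟩

omit [CharZero L] in
theorem EmbJ.x_mem (i : Fin 3) : a * c ∈ (S.V i).W ∧ (a * c)⁻¹ ∈ (S.V i).W := by
  obtain ⟨u, v, hu, hv, hu', hv'⟩ := hJ.exists_res S hE hπ hA hζ i
  have h1 := (S.V i).res_mul hu' hv'
  exact ⟨(S.V i).nonneg h1, (S.V i).nonneg ((S.V i).res_inv h1 (mul_ne_zero hu hv))⟩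

/-- functions of the affine chart -/
theorem EmbJ.hol {f : modularFunctionFieldFullC L (N * q * q)}
    (h : ∀ V : ValuationSubring (modularFunctionFieldFullC L (N * q * q)), a ∈ V → c ∈ V → f ∈ V) :
    S.Hol (a * c) f :=
  hol_of_forall S (fun i => (hJ.x_mem S hE hπ hA hζ i).1) fun V hV => by
    obtain ⟨h1, h2⟩ := mem_of_mul_mem hJ.ab hJ.ba hJ.bc hJ.cb hV
    exact h V h1 h2

/-- functions of the chart at infinity -/
theorem EmbJ.hol_inv {f : modularFunctionFieldFullC L (N * q * q)}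
    (h : ∀ V : ValuationSubring (modularFunctionFieldFullC L (N * q * q)),
      a⁻¹ ∈ V → c⁻¹ ∈ V → f ∈ V) :
    S.Hol (a * c)⁻¹ f :=
  hol_of_forall S (fun i => (hJ.x_mem S hE hπ hA hζ i).2) fun V hV => by
    obtain ⟨h1, h2⟩ := inv_mem_of_mul_inv_mem hJ.ab hJ.ba hJ.bc hJ.cb hJ.a_ne hJ.c_ne hV
    exact h V h1 h2

end EmbJ

end Main

end Fermat.Agent.Q2.Ord
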