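import Mathlib
import Fermat.Agent.Q2.OrdMain
import Fermat.Agent.DR.Mod.Basic

/-!
# S36-E: existence of the generator `δ` of the middle component off the supersingular points
-/

set_option autoImplicit false

noncomputable section

namespace Fermat.Agent.Q2.Ord

open AlgebraicCurve ModularCurve Fermat.Agent.RR Fermat.Agent.JRED Fermat.Agent.DR
  Fermat.Agent.DR.S36 Fermat.Agent.S28 Fermat.Agent.FunField Fermat.Agent.Q2

attribute [local instance 2000] algFull

local notation "ℚbar" => AlgebraicClosure ℚ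

set_option linter.unusedSectionVars false

variable {L : Type} [Field L] [Algebra L ℚbar] [CharZero L]
  {k : Type} [Field k] {N q : ℕ} [hq : Fact q.Prime] [CharP k q]
  {A : ValuationSubring ℚbar} {π : A →+* k}
  {F : Type*} [Field F] [Algebra ℚbar F]
  [Algebra (modularFunctionFieldFullC L (N * q * q)) F]
  {A₀ : ValuationSubring L}
  (S : Surf L ℚbar (modularFunctionFieldFullC L (N * q * q)) F k
    (modularFunctionFieldFullC k N) A₀ q)
  {emb : Fin 3 → modularFunctionFieldFullC L (N * q * q) →+* LaurentSeries ℚbar}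
  {ζ : ℚbarˣ} {a b c : modularFunctionFieldFullC L (N * q * q)}
  (hJ : EmbJ q emb ζ a b c) (hE : EmbRes S π emb) (hπ : Function.Surjective π)
  (hA : A.LiesOverPrime q) (hζ : IsPrimitiveRoot (ζ : ℚbar) q) (he : S.e 1 = q - 1)

/-- separation of the other components from `(1, R)` -/
def SepAt (R : Place k (modularFunctionFieldFullC k N))
    (x : modularFunctionFieldFullC L (N * q * q)) : Prop :=
  ∀ c' : Fin 3, c' ≠ 1 → ∃ (b : modularFunctionFieldFullC L (N * q * q))
    (u : modularFunctionFieldFullC k N), S.Hol x b ∧ (S.V 1).Res b u ∧ ¬ Val R u 0 ∧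
      0 < (S.V c').v b

include hJ hE hπ hA hζ he in
/-- the affine chart, with `δ = h(E₃) - h(E₁)` -/
theorem exists_delta_of_fun {R : Place k (modularFunctionFieldFullC k N)}
    (hsep : SepAt S R (a * c))
    {h h' : modularFunctionFieldFullC L (N * q * q)} {H : LaurentSeries ℚbar}
    {v : LaurentSeries k} (e1 : emb 1 h = H) (e2 : emb 1 h' = S28.twist ζ H) (hv : GRed π H v)
    (hint : ∀ V : ValuationSubring (modularFunctionFieldFullC L (N * q * q)),
      a ∈ V → c ∈ V → h ∈ V ∧ h' ∈ V)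
    (hv0 : thetaD k v ≠ 0)
    (hord : ∀ u : modularFunctionFieldFullC k N,
      (u : LaurentSeries k) = -(thetaD k v) ^ (q - 1) → R.ord u = 0) :
    ∃ δ : modularFunctionFieldFullC L (N * q * q), (S.V 1).w δ = 1 ∧
      S.InLoc (a * c) 1 R (δ ^ S.e 1 / q) ∧ S.InLoc (a * c) 1 R (q / δ ^ S.e 1) := by
  obtain ⟨u, hu1, hu2⟩ := exists_res_diff S hE hπ hA hζ e1 e2 hv
  have hu0 : u ≠ 0 := by
    rintro rfl
    have h1 : -(thetaD k v) ^ (q - 1) = 0 := hu1.symm
    exact pow_ne_zero _ hv0 (neg_eq_zero.mp h1)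
  obtain ⟨b₀, u₀, h1, h2, h3, h4⟩ := hsep 0 (by decide)
  obtain ⟨b₂, u₂, h5, h6, h7, h8⟩ := hsep 2 (by decide)
  refine ⟨h' - h, exists_delta_of S (β := 1) (hol_one S) (S.V 1).res_one not_val_one ?_
    h1 h2 h3 h4 h5 h6 h7 h8 (u := u) (by rw [he]; exact hu2) (not_val_of_ord hu0 (hord u hu1))⟩
  rw [one_mul]
  exact hJ.hol S hE hπ hA hζ fun V ha hc => sub_mem (hint V ha hc).2 (hint V ha hc).1

theorem thetaD_j_ne : thetaD k (jqModC k) ≠ 0 := by
  intro h
  have h1 := thetaD_jqModC_pow k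
  rw [h, zero_pow (by norm_num)] at h1
  have h2 : deltaL k ≠ 0 := (isUnit_deltaL k).ne_zero
  have h3 : jqModC k ≠ 0 := jqModC_ne_zero_of_nontrivial k
  have h4 : jqModC k - 1728 ≠ 0 := by
    intro h0
    have h1 := congrArg (fun x : LaurentSeries k => x.coeff (-1)) h0
    have h2 : (1728 : LaurentSeries k) = algebraMap k _ 1728 := (map_ofNat _ 1728).symm
    rw [h2, algebraMap_laurent] at h1
    simp only [HahnSeries.coeff_zero] at h1
    rw [HahnSeries.coeff_sub, coeff_jqModC_neg_one, HahnSeries.coeff_single_of_ne (by norm_num)] at h1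
    norm_num at h1
  exact mul_ne_zero (mul_ne_zero (pow_ne_zero _ h3) (pow_ne_zero _ h4)) h2 h1.symm

theorem thetaD_t4_ne : thetaD k (t4 k) ≠ 0 := by
  intro h
  have h1 := thetaD_t4_pow k
  rw [h, zero_pow (by norm_num)] at h1
  have h2 : deltaL k ≠ 0 := (isUnit_deltaL k).ne_zero
  exact mul_ne_zero (mul_ne_zero (pow_ne_zero _ (t4_ne_zero k)) (pow_ne_zero _ (t4_add_ne_zero k)))
    h2 h1.symm

include hJ hE hπ hA hζ he in
/-- **S36-E, affine chart, `q = 2, 3`.** -/
theorem exists_delta_fin_j (hq3 : q = 2 ∨ q = 3) {R : Place k (modularFunctionFieldFullC k N)}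
    (hsep : SepAt S R (a * c)) (hss : R.ord (ssj k q N) = 0) :
    ∃ δ : modularFunctionFieldFullC L (N * q * q), (S.V 1).w δ = 1 ∧
      S.InLoc (a * c) 1 R (δ ^ S.e 1 / q) ∧ S.InLoc (a * c) 1 R (q / δ ^ S.e 1) := by
  refine exists_delta_of_fun S hJ hE hπ hA hζ he hsep hJ.a₁ hJ.c₁ (gRed_jt 1)
    (fun V ha hc => ⟨ha, hc⟩) ?_ ?_
  · rw [jt_one_one]; exact thetaD_j_ne
  · intro u hu
    rw [jt_one_one] at hu
    refine ord_theta_j hq3 R hss u ?_
    rw [hu, Even.neg_pow (by decide), ← pow_mul, ← pow_mul, mul_comm]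

include hJ hE hπ hA hζ he in
/-- **S36-E, affine chart, `q` odd, `4 ∣ N`.** -/
theorem exists_delta_fin_t4 (hq2 : q ≠ 2) {R : Place k (modularFunctionFieldFullC k N)}
    (hsep : SepAt S R (a * c)) (hj : 0 ≤ R.ord (jRed k N)) (hss : R.ord (ssj k q N) = 0)
    {T T' : modularFunctionFieldFullC L (N * q * q)}
    (hT : (T : LaurentSeries L) = t4 L) (hT' : (T' : LaurentSeries L) = qExpand L (q * q) (t4 L))
    (eT : emb 1 T = t4 ℚbar) (eT' : emb 1 T' = S28.twist ζ (t4 ℚbar)) :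
    ∃ δ : modularFunctionFieldFullC L (N * q * q), (S.V 1).w δ = 1 ∧
      S.InLoc (a * c) 1 R (δ ^ S.e 1 / q) ∧ S.InLoc (a * c) 1 R (q / δ ^ S.e 1) := by
  have hrel : a * (T ^ 4 * (T + 16)) = (T ^ 2 + 256 * T + 4096) ^ 3 := by
    apply (algebraMap (modularFunctionFieldFullC L (N * q * q)) (LaurentSeries L)).injective
    have h1 : algebraMap (modularFunctionFieldFullC L (N * q * q)) (LaurentSeries L) T = t4 L := hT
    have h2 : algebraMap (modularFunctionFieldFullC L (N * q * q)) (LaurentSeries L) a =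
        jqModC L := by
      have := hJ.a_coe
      rw [jt_one_one] at this
      exact this
    simp only [map_mul, map_pow, map_add, map_ofNat, h1, h2]
    exact jq_mul_t4 L
  have hrel' : c * (T' ^ 4 * (T' + 16)) = (T' ^ 2 + 256 * T' + 4096) ^ 3 := by
    apply (algebraMap (modularFunctionFieldFullC L (N * q * q)) (LaurentSeries L)).injective
    have h1 : algebraMap (modularFunctionFieldFullC L (N * q * q)) (LaurentSeries L) T' =
      qExpand L (q * q) (t4 L) := hT'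
    have h2 : algebraMap (modularFunctionFieldFullC L (N * q * q)) (LaurentSeries L) c =
        qExpand L (q * q) (jqModC L) := by
      have := hJ.c_coe
      rw [jt_one_eq] at this
      exact this
    simp only [map_mul, map_pow, map_add, map_ofNat, h1, h2]
    have h3 := congrArg (qExpand L (q * q)) (jq_mul_t4 L)
    simpa only [map_mul, map_pow, map_add, map_ofNat] using h3
  obtain ⟨Tb, hTb, -⟩ := hE 1 T (t4 k) (by rw [eT]; exact gRed_t4)
  refine exists_delta_of_fun S hJ hE hπ hA hζ he hsep eT eT' gRed_t4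
    (fun V ha hc => ⟨t4_mem_val hrel ha, t4_mem_val hrel' hc⟩) thetaD_t4_ne ?_
  intro u hu
  refine ord_theta_t4 hq2 R Tb hTb hj hss u ?_
  rw [hu, Even.neg_pow (by decide), ← pow_mul, ← pow_mul, mul_comm]

include hJ hE hπ hA hζ he in
/-- **S36-E, chart at infinity.** -/
theorem exists_delta_inf {R : Place k (modularFunctionFieldFullC k N)}
    (hj : R.ord (jRed k N) < 0) :
    ∃ δ : modularFunctionFieldFullC L (N * q * q), (S.V 1).w δ = 1 ∧
      S.InLoc (a * c)⁻¹ 1 R (δ ^ S.e 1 / q) ∧ S.InLoc (a * c)⁻¹ 1 R (q / δ ^ S.e 1) := by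
  have hne : NeZero q := ⟨hq.out.ne_zero⟩
  have hexp : ExpChar k q := ExpChar.prime hq.out
  have ha0 := hJ.a_ne
  have hb0 := hJ.b_ne
  have hc0 := hJ.c_ne
  have hq1 : 1 < q := hq.out.one_lt
  have hjb0 : jRed k N ≠ 0 := jRed_ne_zero
  have hjb : ((jRed k N : modularFunctionFieldFullC k N) : LaurentSeries k) = jqModC k := rfl
  have hjk0 : jqModC k ≠ 0 := jqModC_ne_zero_of_nontrivial k
  -- powers of `j` in characteristic `q`
  have hjq : jt (1 : kˣ) q = jqModC k ^ q := by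
    rw [jt_one_eq]
    have := Mod.qExpand_jqModC_pow_char (k := k) q 1
    rw [qExpand_one_apply] at this
    exact this.symm
  have hjqq : jt (1 : kˣ) (q * q) = jqModC k ^ (q * q) := by
    rw [jt_one_eq, ← qExpand_qExpand]
    have := Mod.qExpand_jqModC_pow_char (k := k) q 1
    rw [qExpand_one_apply] at this
    rw [← this, map_pow, ← this, pow_mul]
  -- reductions
  have rc : GRed π (emb 1 c) (jqModC k) := by
    rw [hJ.c₁, ← jt_one_one]
    exact gRed_twist_jt hπ hA hζ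
  have ra : GRed π (emb 1 a) (jqModC k) := by
    rw [hJ.a₁, ← jt_one_one]
    exact gRed_jt 1
  have rb : GRed π (emb 1 b) (jqModC k ^ q) := by
    rw [hJ.b₁, ← hjq]
    exact gRed_jt q
  have ra' := GRed.inv ra hjk0
  have rc' := GRed.inv rc hjk0
  rw [← map_inv₀] at ra' rc'
  -- `β = j(E₂)/j(E₃)^q`
  obtain ⟨v, hv1, hv2⟩ := hE 1 (b * c⁻¹ ^ q) 1 (by
    have h := rb.mul (GRed.pow' rc' q)
    rw [← mul_pow, mul_inv_cancel₀ hjk0, one_pow, ← map_pow, ← map_mul] at h
    exact h)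
  have hv : v = 1 := Subtype.ext hv1
  subst hv
  have hβ : S.Hol (a * c)⁻¹ (b * c⁻¹ ^ q) := hJ.hol_inv S hE hπ hA hζ fun V _ hc =>
    hJ.cb.scaled_mem hc0 hc
  -- `β δ`
  have hδ : S.Hol (a * c)⁻¹ (b * c⁻¹ ^ q * (c * a⁻¹ - 1)) := by
    have h1 : S.Hol (a * c)⁻¹ (b * c⁻¹ ^ q * (c * a⁻¹)) := hJ.hol_inv S hE hπ hA hζ
      fun V ha hc => by
        have h2 : (b * c⁻¹ ^ q * (c * a⁻¹)) ^ q = (b * a⁻¹ ^ q) * (b * c⁻¹ ^ q) ^ (q - 1) := by
          obtain ⟨r, hr⟩ : ∃ r, q = r + 1 := ⟨q - 1, by omega⟩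
          have h3 : (b * c⁻¹ ^ q) ^ q = (b * c⁻¹ ^ q) ^ (q - 1) * (b * c⁻¹ ^ q) := by
            rw [← pow_succ]; congr 1; omega
          rw [mul_pow (b * c⁻¹ ^ q), h3, mul_pow c]
          have h4 : c⁻¹ ^ q * c ^ q = 1 := by rw [← mul_pow, inv_mul_cancel₀ hc0, one_pow]
          linear_combination (b * c⁻¹ ^ q) ^ (q - 1) * b * a⁻¹ ^ q * h4
        have h5 : (b * c⁻¹ ^ q * (c * a⁻¹)) ^ q ∈ V := by
          rw [h2]
          exact mul_mem (hJ.ab.scaled_mem ha0 ha) (pow_mem (hJ.cb.scaled_mem hc0 hc) _)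
        by_contra hcon
        have h6 := one_lt_val hcon
        have h7 := (V.valuation_le_one_iff _).mpr h5
        rw [map_pow] at h7
        exact absurd h7 (not_le.mpr (one_lt_pow₀ h6 hq.out.ne_zero))
    rw [mul_sub, mul_one]
    exact hol_sub S h1 hβ
  -- separation
  have hR : ∀ f : modularFunctionFieldFullC k N,
      (f : LaurentSeries k) = jqModC k * (jqModC k)⁻¹ ^ (q * q) → ¬ Val R (1 - f) 0 := by
    intro f hf
    have hf' : f = jRed k N * (jRed k N)⁻¹ ^ (q * q) := Subtype.ext (by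
      rw [hf]; rfl)
    have h1 : 0 < R.ord f := by
      rw [hf', R.ord_mul hjb0 (pow_ne_zero _ (inv_ne_zero hjb0)), Fermat.FF.ord_pow, R.ord_inv]
      have h2 : (2 : ℤ) ≤ ((q * q : ℕ) : ℤ) := by
        have : 2 * 1 ≤ q * q := Nat.mul_le_mul hq1 (by omega)
        exact_mod_cast this
      nlinarith
    have h2 : R.adicValuation f < 1 := by
      have := val_of_ord h1
      rwa [Val, map_zero, sub_zero] at this
    rw [not_val_iff, Valuation.map_sub_swap]
    have h3 : R.adicValuation (f - 1) = 1 := by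
      rw [Valuation.map_sub_swap]
      exact Valuation.map_one_sub_of_lt _ h2
    exact h3.ge
  have key : ∀ (i : Fin 3) (f : modularFunctionFieldFullC L (N * q * q)),
      S.Hol (a * c)⁻¹ f → GRed π (emb i f) 1 →
      GRed π (emb 1 f) (jqModC k * (jqModC k)⁻¹ ^ (q * q)) →
      ∃ u : modularFunctionFieldFullC k N, S.Hol (a * c)⁻¹ (1 - f) ∧ (S.V 1).Res (1 - f) u ∧
        ¬ Val R u 0 ∧ 0 < (S.V i).v (1 - f) := by
    intro i f hf h1 h2
    obtain ⟨u₁, hu₁, hu₁'⟩ := hE _ _ _ h1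
    obtain ⟨u₂, hu₂, hu₂'⟩ := hE _ _ _ h2
    have h3 : u₁ = 1 := Subtype.ext hu₁
    subst h3
    refine ⟨1 - u₂, hol_sub S (hol_one S) hf, (S.V 1).res_sub (S.V 1).res_one hu₂', hR u₂ hu₂, ?_⟩
    rw [← (S.V i).res_zero_iff]
    have h4 := (S.V i).res_sub (S.V i).res_one hu₁'
    rwa [sub_self] at h4
  obtain ⟨u₀, g1, g2, g3, g4⟩ := key 0 (c * a⁻¹ ^ (q * q))
    (hJ.hol_inv S hE hπ hA hζ fun V ha _ => hJ.ab.scaled_mem_two hJ.bc ha0 hb0 ha)
    (by
      have h1 : GRed π (emb 0 a) (jqModC k) := by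
        rw [hJ.a₀, ← jt_one_one]; exact gRed_jt 1
      have h2 : GRed π (emb 0 c) (jqModC k ^ (q * q)) := by
        rw [hJ.c₀, ← hjqq]; exact gRed_jt _
      have h3 := h2.mul (GRed.pow' (GRed.inv h1 hjk0) (q * q))
      rw [← mul_pow, mul_inv_cancel₀ hjk0, one_pow, ← map_inv₀, ← map_pow, ← map_mul] at h3
      exact h3)
    (by
      have h3 := rc.mul (GRed.pow' ra' (q * q))
      rw [← map_pow, ← map_mul] at h3
      exact h3)
  obtain ⟨u₂, g5, g6, g7, g8⟩ := key 2 (a * c⁻¹ ^ (q * q))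
    (hJ.hol_inv S hE hπ hA hζ fun V _ hc => hJ.cb.scaled_mem_two hJ.ba hc0 hb0 hc)
    (by
      have h1 : GRed π (emb 2 c) (jqModC k) := by
        rw [hJ.c₂, ← jt_one_one]; exact gRed_jt 1
      have h2 : GRed π (emb 2 a) (jqModC k ^ (q * q)) := by
        rw [hJ.a₂, ← hjqq]; exact gRed_jt _
      have h3 := h2.mul (GRed.pow' (GRed.inv h1 hjk0) (q * q))
      rw [← mul_pow, mul_inv_cancel₀ hjk0, one_pow, ← map_inv₀, ← map_pow, ← map_mul] at h3
      exact h3)
    (by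
      have h3 := ra.mul (GRed.pow' rc' (q * q))
      rw [← map_pow, ← map_mul] at h3
      exact h3)
  -- the residue of `δ^{q-1}/q`
  obtain ⟨w, hw1, hw2⟩ := exists_res_diff S hE hπ hA hζ hJ.a₁ hJ.c₁ (gRed_jt 1)
  rw [jt_one_one] at hw1
  obtain ⟨ja, hja1, hja2⟩ := hE 1 a _ ra
  have hja : ja = jRed k N := Subtype.ext hja1
  subst hja
  have hres : (S.V 1).Res ((c * a⁻¹ - 1) ^ S.e 1 / q) (w / jRed k N ^ (q - 1)) := by
    have h1 := (S.V 1).res_div hw2 ((S.V 1).res_pow hja2 (q - 1)) (pow_ne_zero _ hjb0)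
    have h2 : (c - a) ^ (q - 1) / (q : modularFunctionFieldFullC L (N * q * q)) / a ^ (q - 1) =
        (c * a⁻¹ - 1) ^ (q - 1) / q := by
      have h3 : c * a⁻¹ - 1 = (c - a) / a := by
        rw [sub_div, div_self ha0, div_eq_mul_inv]
      rw [h3, div_pow]
      field_simp
    rw [h2] at h1
    rw [he]
    exact h1
  have hw0 : w ≠ 0 := by
    rintro rfl
    have h1 : -(thetaD k (jqModC k)) ^ (q - 1) = 0 := hw1.symm
    exact pow_ne_zero _ thetaD_j_ne (neg_eq_zero.mp h1)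
  refine ⟨c * a⁻¹ - 1, exists_delta_of S hβ hv2 not_val_one hδ g1 g2 g3 g4 g5 g6 g7 g8 hres
    (not_val_of_ord (div_ne_zero hw0 (pow_ne_zero _ hjb0)) ?_)⟩
  refine ord_theta_cusp (q := q) R hj _ ?_
  have h1 : ((w / jRed k N ^ (q - 1) : modularFunctionFieldFullC k N) : LaurentSeries k) =
      -(thetaD k (jqModC k)) ^ (q - 1) / jqModC k ^ (q - 1) := by
    rw [← hw1]; rfl
  rw [h1, div_pow, Even.neg_pow (by decide), ← pow_mul, ← pow_mul, ← pow_mul, ← pow_mul,
    mul_comm (q - 1) 6, div_mul_cancel₀ _ (pow_ne_zero _ hjk0)]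

end Fermat.Agent.Q2.Ord
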