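import Mathlib
import Fermat.Agent.Q2.OrdFinal

/-!
# S36-E for the embeddings `f`, `ι f`, `w f` of `F_{Nq²}`
-/

set_option autoImplicit false

noncomputable section

namespace Fermat.Agent.Q2.Ord

open AlgebraicCurve ModularCurve Fermat.Agent.RR Fermat.Agent.JRED Fermat.Agent.DR
  Fermat.Agent.DR.S36 Fermat.Agent.S28 Fermat.Agent.FunField Fermat.Agent.Q2

attribute [local instance 2000] algFull

local notation "ℚbar" => AlgebraicClosure ℚ

set_option linter.unusedSectionVars false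

section Mid

variable {K : Type} [Field K] {N q : ℕ} [NeZero N] {ζ : Kˣ}
  {ι : modularFunctionFieldFullC K (N * q * q) →+* LaurentSeries K}

/-- `f ↦ f(t^{q²})` -/
def topHom (K : Type) [Field K] (N q : ℕ) [NeZero N] [NeZero q] :
    modularFunctionFieldFullC K N →+* modularFunctionFieldFullC K (N * q * q) :=
  ((qExpand K (q * q)).comp (algebraMap (modularFunctionFieldFullC K N)
    (LaurentSeries K))).codRestrict (modularFunctionFieldFullC K (N * q * q)) fun x => by
      rw [mul_assoc]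
      exact JRED.AL.qExpand_mem_full K N (q * q) x.2

theorem coe_topHom [NeZero q] (f : modularFunctionFieldFullC K N) :
    (topHom K N q f : LaurentSeries K) = qExpand K (q * q) (f : LaurentSeries K) := rfl

/-- `ι (f(t^{q²})) = f(ζ t)` -/
theorem mid_topHom [NeZero q] (h : IsMidAt K N q (N * q * q) ζ ι)
    (f : modularFunctionFieldFullC K N) :
    ι (topHom K N q f) = S28.twist ζ (f : LaurentSeries K) := by
  have key : ι.comp (topHom K N q) = (S28.twist ζ).comp
      (algebraMap (modularFunctionFieldFullC K N) (LaurentSeries K)) := by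
    refine full_hom_ext (fun c => ?_) (fun d hmem hd0 hd => ?_)
    · have h1 : topHom K N q (algebraMap K _ c) = algebraMap K _ c := by
        apply Subtype.ext
        rw [coe_topHom]
        change qExpand K (q * q) (algebraMap K (LaurentSeries K) c) =
          algebraMap K (LaurentSeries K) c
        exact (qExpandAlgHomC K (q * q)).commutes c
      rw [RingHom.comp_apply, h1, h.algebraMap, RingHom.comp_apply]
      change algebraMap K (LaurentSeries K) c = S28.twist ζ (algebraMap K (LaurentSeries K) c)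
      ext n
      rw [twist_coeff, algebraMap_laurentSeries_eq_single]
      by_cases hn : n = 0
      · subst hn; simp
      · rw [HahnSeries.coeff_single_of_ne hn, mul_zero]
    · rw [RingHom.comp_apply, RingHom.comp_apply]
      have hmem' : jt (1 : Kˣ) (d * q ^ 2) ∈ modularFunctionFieldFullC K (N * q * q) := by
        have h1 := (topHom K N q ⟨jt 1 d, hmem⟩).2
        rw [coe_topHom, qExpand_jt] at h1
        rwa [show d * q ^ 2 = q * q * d by ring]
      have h1 : topHom K N q ⟨jt 1 d, hmem⟩ = ⟨jt 1 (d * q ^ 2), hmem'⟩ := by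
        apply Subtype.ext
        rw [coe_topHom, qExpand_jt]
        congr 1
        ring
      rw [h1, h.jt_top d hmem' hd]
      change jt (ζ ^ d) d = S28.twist ζ (jt (1 : Kˣ) d)
      rw [twist_jt, mul_one]
  exact congrArg (fun g => g f) key

end Mid

section Elements

variable (K : Type) [Field K] (N q : ℕ) [NeZero N] [NeZero q]

/-- `j(E₁) = j(t)` -/
def jE₁ : modularFunctionFieldFullC K (N * q * q) :=
  ⟨jt 1 1, jt_mem_full K (NeZero.ne _) (one_dvd _)⟩

/-- `j(E₂) = j(t^q)` -/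
def jE₂ : modularFunctionFieldFullC K (N * q * q) :=
  ⟨jt 1 q, jt_mem_full K (NeZero.ne _) (dvd_mul_left _ _)⟩

/-- `j(E₃) = j(t^{q²})` -/
def jE₃ : modularFunctionFieldFullC K (N * q * q) :=
  ⟨jt 1 (q * q), jt_mem_full K (NeZero.ne _) ⟨N, by ring⟩⟩

theorem coe_jE₁ : (jE₁ K N q : LaurentSeries K) = jqModC K := jt_one_one
theorem coe_jE₁' : (jE₁ K N q : LaurentSeries K) = jt 1 1 := rfl
theorem coe_jE₂' : (jE₂ K N q : LaurentSeries K) = jt 1 q := rfl
theorem coe_jE₃' : (jE₃ K N q : LaurentSeries K) = jt 1 (q * q) := rfl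
theorem coe_jE₂ : (jE₂ K N q : LaurentSeries K) = qExpand K q (jqModC K) := jt_one_eq q
theorem coe_jE₃ : (jE₃ K N q : LaurentSeries K) = qExpand K (q * q) (jqModC K) := jt_one_eq _

end Elements

section Std

variable {L : Type} [Field L] [Algebra L ℚbar] [CharZero L]
  {k : Type} [Field k] {N q : ℕ} [NeZero N] [NeZero q] [hq : Fact q.Prime] [CharP k q]
  {A : ValuationSubring ℚbar} {π : A →+* k}

/-- The three standard embeddings of `F_{Nq²}(L)` into `ℚ̄((t))`. -/
structure StdEmb (ζ : ℚbarˣ)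
    (ι : modularFunctionFieldFullC ℚbar (N * q * q) →+* LaurentSeries ℚbar)
    (emb : Fin 3 → modularFunctionFieldFullC L (N * q * q) →+* LaurentSeries ℚbar) : Prop where
  mid : IsMidAt ℚbar N q (N * q * q) ζ ι
  e₀ : ∀ f, emb 0 f = coeffMap (algebraMap L ℚbar) (f : LaurentSeries L)
  e₁ : ∀ f, emb 1 f = ι (inclF (algebraMap L ℚbar) _ f)
  e₂_jE₁ : emb 2 (jE₁ L N q) = jt 1 (q * q)
  e₂_jE₃ : emb 2 (jE₃ L N q) = jt 1 1

variable {ζ : ℚbarˣ} {ι : modularFunctionFieldFullC ℚbar (N * q * q) →+* LaurentSeries ℚbar}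
  {emb : Fin 3 → modularFunctionFieldFullC L (N * q * q) →+* LaurentSeries ℚbar}
  (hS : StdEmb ζ ι emb)
include hS

theorem StdEmb.e₁_of_mem {f : modularFunctionFieldFullC L (N * q * q)}
    (hf : (f : LaurentSeries L) ∈ modularFunctionFieldFullC L (N * q)) :
    emb 1 f = coeffMap (algebraMap L ℚbar) (f : LaurentSeries L) := by
  rw [hS.e₁]
  exact hS.mid.of_mem _ _ (ESSemi.coeffMap_mem (N * q) (algebraMap L ℚbar) hf)

theorem StdEmb.e₁_top (f : modularFunctionFieldFullC L N) :
    emb 1 (topHom L N q f) = S28.twist ζ (coeffMap (algebraMap L ℚbar) (f : LaurentSeries L)) := by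
  rw [hS.e₁]
  have h1 : inclF (algebraMap L ℚbar) (N * q * q) (topHom L N q f) =
      topHom ℚbar N q (inclF (algebraMap L ℚbar) N f) := by
    apply Subtype.ext
    rw [coe_inclF, coe_topHom, coe_topHom, coe_inclF, coeffMap_qExpand]
  rw [h1, mid_topHom hS.mid, coe_inclF]

theorem StdEmb.embJ : EmbJ q emb ζ (jE₁ L N q) (jE₂ L N q) (jE₃ L N q) where
  a_coe := rfl
  b_coe := rfl
  c_coe := rfl
  a₀ := by rw [hS.e₀, coe_jE₁', coeffMap_jt_one]
  c₀ := by rw [hS.e₀, coe_jE₃', coeffMap_jt_one]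
  a₁ := by
    rw [hS.e₁_of_mem, coe_jE₁', coeffMap_jt_one]
    exact jt_mem_full L (NeZero.ne _) (one_dvd _)
  b₁ := by
    rw [hS.e₁_of_mem, coe_jE₂', coeffMap_jt_one]
    exact jt_mem_full L (NeZero.ne _) (dvd_mul_left _ _)
  c₁ := by
    have h1 : jE₃ L N q = topHom L N q ⟨jt 1 1, jt_mem_full L (NeZero.ne _) (one_dvd _)⟩ := by
      apply Subtype.ext
      rw [coe_topHom, coe_jE₃', qExpand_jt, mul_one]
    rw [h1, hS.e₁_top, coeffMap_jt_one]
  a₂ := hS.e₂_jE₁
  c₂ := hS.e₂_jE₃

variable {F : Type*} [Field F] [Algebra ℚbar F]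
  [Algebra (modularFunctionFieldFullC L (N * q * q)) F]
  {A₀ : ValuationSubring L}
  (S : Surf L ℚbar (modularFunctionFieldFullC L (N * q * q)) F k
    (modularFunctionFieldFullC k N) A₀ q)
  (hE : EmbRes S π emb) (hπ : Function.Surjective π)
  (hA : A.LiesOverPrime q) (hζ : IsPrimitiveRoot (ζ : ℚbar) q) (he : S.e 1 = q - 1)

include hE hπ hA hζ he

/-- **S36-E: `Points.exists_δ`.** -/
theorem StdEmb.exists_delta (h4 : q = 2 ∨ q = 3 ∨ 4 ∣ N)
    {R : Place k (modularFunctionFieldFullC k N)}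
    (hy : jRed k N ∈ R.toValuationSubring) (hss : R.ord (ssj k q N) = 0)
    (hsep : SepAt S R (jE₁ L N q * jE₃ L N q)) :
    ∃ δ : modularFunctionFieldFullC L (N * q * q), (S.V 1).w δ = 1 ∧
      S.InLoc (jE₁ L N q * jE₃ L N q) 1 R (δ ^ S.e 1 / q) ∧
      S.InLoc (jE₁ L N q * jE₃ L N q) 1 R (q / δ ^ S.e 1) := by
  by_cases h3 : q = 2 ∨ q = 3
  · exact exists_delta_fin_j S hS.embJ hE hπ hA hζ he h3 hsep hss
  · push Not at h3
    have h4' : 4 ∣ N := by
      rcases h4 with h | h | h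
      · exact absurd h h3.1
      · exact absurd h h3.2
      · exact h
    have hT : t4 L ∈ modularFunctionFieldFullC L (N * q * q) :=
      t4_mem_full L ((h4'.mul_right q).mul_right q)
    have hTN : t4 L ∈ modularFunctionFieldFullC L N := t4_mem_full L h4'
    refine exists_delta_fin_t4 S hS.embJ hE hπ hA hζ he h3.1 hsep
      (Fermat.FF.ord_nonneg_of_mem R hy) hss (T := ⟨t4 L, hT⟩) (T' := topHom L N q ⟨t4 L, hTN⟩)
      rfl (coe_topHom _) ?_ ?_
    · rw [hS.e₁_of_mem (t4_mem_full L (h4'.mul_right q))]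
      exact coeffMap_t4 _
    · rw [hS.e₁_top]
      change S28.twist ζ (coeffMap (algebraMap L ℚbar) (t4 L)) = _
      rw [coeffMap_t4]

/-- **S36-E: `Points.exists_δ_inf`.** -/
theorem StdEmb.exists_delta_inf {R : Place k (modularFunctionFieldFullC k N)}
    (hy : jRed k N ∉ R.toValuationSubring) :
    ∃ δ : modularFunctionFieldFullC L (N * q * q), (S.V 1).w δ = 1 ∧
      S.InLoc (jE₁ L N q * jE₃ L N q)⁻¹ 1 R (δ ^ S.e 1 / q) ∧
      S.InLoc (jE₁ L N q * jE₃ L N q)⁻¹ 1 R (q / δ ^ S.e 1) := by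
  refine Ord.exists_delta_inf S hS.embJ hE hπ hA hζ he ?_
  by_contra h
  exact hy ((Fermat.FF.mem_iff_ord R jRed_ne_zero).mpr (not_lt.mp h))

end Std

end Fermat.Agent.Q2.Ord
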