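import Mathlib
import Fermat.Agent.Q2.W2Deg

set_option autoImplicit false
set_option linter.unusedSectionVars false

/-!
# Compatibility of the three valuations with `f(t) ↦ f(t^n)`, `F_{Nq²}(L) → F_{N'q²}(L)`

`N n ∣ N'`.  (`n = 1`: `α_ℓ`; `n = ℓ`: `β_ℓ`.)
-/

noncomputable section

namespace Fermat.Agent.Q2

open AlgebraicCurve ModularCurve Polynomial
open Fermat.Agent.S28 Fermat.Agent.JRED Fermat.Agent.Jan.HeckeInputs
open Fermat.Agent.DR.S36 Fermat.Agent.DR.S36.L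
open Fermat.Agent.DR.Mod (IsAL Setup R1L redOne redTwo PhiFull coe_PhiFull)
open Fermat.Agent.JRED.ES (inclL inclL_apply)

local notation "ℚbar" => AlgebraicClosure ℚ

section Abs

variable {K k : Type*} [Field K] [Field k] {A : ValuationSubring K} {π : A →+* k}
  {hπ : Function.Surjective π} {FL FL' : Type*} [Field FL] [Field FL']
  {κ κ' : IntermediateField k (LaurentSeries k)}

theorem EmbV.V_transfer (X : EmbV hπ FL κ) (X' : EmbV hπ FL' κ') {τ : K →+* K}
    (hτ : IsInert π τ) (hτv : ∀ c, A.valuation (τ c) = A.valuation c) (n : ℕ) [NeZero n]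
    {f : FL} {f' : FL'} (h : X'.e f' = ModularCurve.qExpand K n (coeffMap τ (X.e f))) :
    X'.V f' = X.V f := by
  by_cases hf : f = 0
  · subst hf
    rw [map_zero, map_zero, map_zero] at h
    rw [(map_eq_zero _).mp h, map_zero, map_zero]
  obtain ⟨c, hc, u, hu, hcu⟩ := exists_normalize_of_mem_fgField π (X.mem f)
    (fun h0 => hf ((map_eq_zero X.e).mp h0))
  have h1 := GRed.qExpand (GRed.galois hτ hcu) n
  rw [map_mul, map_mul, coeffMap_algebraMap', ← h] at h1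
  have h2 : ModularCurve.qExpand K n (algebraMap K (LaurentSeries K) (τ c)) =
      algebraMap K (LaurentSeries K) (τ c) := by
    rw [algebraMap_laurentSeries_eq_single, qExpand_single, mul_zero]
  rw [h2] at h1
  have hc' : τ c ≠ 0 := (_root_.map_ne_zero τ).mpr hc
  have hu' : ModularCurve.qExpand k n u ≠ 0 := (_root_.map_ne_zero _).mpr hu
  have h3 : X'.V f' = (A.valuation (τ c))⁻¹ := embVal_eq_of_red hπ X'.mem hc' h1 hu'
  have h4 : X.V f = (A.valuation c)⁻¹ := embVal_eq_of_red hπ X.mem hc hcu hu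
  rw [h3, h4, hτv]

theorem EmbV.Res_transfer (X : EmbV hπ FL κ) (X' : EmbV hπ FL' κ') {τ : K →+* K}
    (hτ : IsInert π τ) (n : ℕ) [NeZero n]
    {f : FL} {f' : FL'} (h : X'.e f' = ModularCurve.qExpand K n (coeffMap τ (X.e f)))
    {u : κ} {u' : κ'} (hu : (u' : LaurentSeries k) = ModularCurve.qExpand k n u)
    (hres : X.Res f u) : X'.Res f' u' := by
  have h1 := GRed.qExpand (GRed.galois hτ hres) n
  rw [← h, ← hu] at h1
  exact h1

end Abs

section Ctx

variable {A : ValuationSubring ℚbar} {k : Type} [Field k] {π : A →+* k}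
  {N N' q : ℕ} [NeZero N] [NeZero N'] [NeZero q] [hq : Fact q.Prime] [hchar : CharP k q]
  {w₁ : laurentBaseChange ℚbar (modularFunctionFieldFull (N * q)) ≃ₐ[ℚbar]
      laurentBaseChange ℚbar (modularFunctionFieldFull (N * q))}
  {w₂ : laurentBaseChange ℚbar (modularFunctionFieldFull (N * q * q)) ≃ₐ[ℚbar]
      laurentBaseChange ℚbar (modularFunctionFieldFull (N * q * q))}
  {w₁' : laurentBaseChange ℚbar (modularFunctionFieldFull (N' * q)) ≃ₐ[ℚbar]
      laurentBaseChange ℚbar (modularFunctionFieldFull (N' * q))}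
  {w₂' : laurentBaseChange ℚbar (modularFunctionFieldFull (N' * q * q)) ≃ₐ[ℚbar]
      laurentBaseChange ℚbar (modularFunctionFieldFull (N' * q * q))}

/-- `f(t) ↦ f(t^n)` from level `M` to level `M'`, `M n ∣ M'` -/
def expandL (L : Type) [Field L] {M M' : ℕ} [NeZero M] [NeZero M'] (n : ℕ) [NeZero n]
    (h : M * n ∣ M') :
    modularFunctionFieldFullC L M →+* modularFunctionFieldFullC L M' :=
  ((ModularCurve.qExpand L n).comp
    (algebraMap (modularFunctionFieldFullC L M) (LaurentSeries L))).codRestrict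
    (modularFunctionFieldFullC L M') fun x =>
      full_mono L (NeZero.ne M') h (Fermat.Agent.JRED.AL.qExpand_mem_full L M n x.2)

theorem coe_expandL {L : Type} [Field L] {M M' : ℕ} [NeZero M] [NeZero M'] (n : ℕ) [NeZero n]
    (h : M * n ∣ M') (x : modularFunctionFieldFullC L M) :
    (expandL L n h x : LaurentSeries L) = ModularCurve.qExpand L n x := rfl

namespace Ctx

variable (c : Ctx π w₁ w₂) (c' : Ctx π w₁' w₂') {L : Type} [Field L] [Algebra L ℚbar]
  [IsInertiaField A L]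

theorem dvd_level {n : ℕ} (hn : N * n ∣ N') : N * q * q * n ∣ N' * q * q := by
  have h : N * q * q * n = N * n * q * q := by ring
  rw [h]
  exact Nat.mul_dvd_mul_right (Nat.mul_dvd_mul_right hn q) q

variable (L) in
theorem expandL_jL {n : ℕ} [NeZero n] (hn : N * n ∣ N') {d : ℕ} (hd : d ∣ N * q * q)
    (hd' : n * d ∣ N' * q * q) :
    expandL L n (dvd_level (q := q) hn) (jL L hd) = jL L hd' :=
  Subtype.ext (qExpand_jt n 1 d)

theorem qExpand_const {K : Type*} [Field K] (n : ℕ) [NeZero n] (c : K) :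
    ModularCurve.qExpand K n (algebraMap K (LaurentSeries K) c) =
      algebraMap K (LaurentSeries K) c := by
  rw [algebraMap_laurentSeries_eq_single, qExpand_single, mul_zero]

theorem expandL_const {n : ℕ} [NeZero n] (hn : N * n ∣ N') (a : L) :
    expandL L n (dvd_level (q := q) hn) (algebraMap L _ a) = algebraMap L _ a :=
  Subtype.ext (qExpand_const n a)

/-- comparison of embeddings on generators -/
theorem embed_ext {i : Fin 3} {n : ℕ} [NeZero n] (hn : N * n ∣ N') {τ : ℚbar ≃ₐ[ℚ] ℚbar}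
    (hτ : τ ∈ A.inertiaSubgroupIn ℚ)
    (hj : ∀ (d : ℕ) (hd : d ∣ N * q * q) (hd' : n * d ∣ N' * q * q),
      (c'.X L i).e (jL L hd') =
        ModularCurve.qExpand ℚbar n (coeffMap (τ : ℚbar →+* ℚbar) ((c.X L i).e (jL L hd))))
    (z : modularFunctionFieldFullC L (N * q * q)) :
    (c'.X L i).e (expandL L n (dvd_level (q := q) hn) z) =
      ModularCurve.qExpand ℚbar n (coeffMap (τ : ℚbar →+* ℚbar) ((c.X L i).e z)) := by
  have e_const : ∀ {N₀ : ℕ} [NeZero N₀]
      {v₁ : laurentBaseChange ℚbar (modularFunctionFieldFull (N₀ * q)) ≃ₐ[ℚbar]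
      laurentBaseChange ℚbar (modularFunctionFieldFull (N₀ * q))}
      {v₂ : laurentBaseChange ℚbar (modularFunctionFieldFull (N₀ * q * q)) ≃ₐ[ℚbar]
      laurentBaseChange ℚbar (modularFunctionFieldFull (N₀ * q * q))}
      (c₀ : Ctx π v₁ v₂) (i : Fin 3) (a : L), (c₀.X L i).e (algebraMap L _ a) =
        algebraMap ℚbar (LaurentSeries ℚbar) (algebraMap L ℚbar a) := by
    intro N₀ _ v₁ v₂ c₀ i a
    have h1 : inc L (N₀ * q * q) (algebraMap L _ a) =
      algebraMap ℚbar _ (algebraMap L ℚbar a) := inc_algebraMap _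
    fin_cases i
    · change (inc L _ (algebraMap L _ a) : LaurentSeries ℚbar) = _
      rw [h1]
      rfl
    · change c₀.ι (inc L _ (algebraMap L _ a)) = _
      rw [h1, c₀.mid.const]
    · change (v₂ (inc L _ (algebraMap L _ a)) : LaurentSeries ℚbar) = _
      rw [h1, AlgEquiv.commutes]
      rfl
  have key : ((c'.X L i).e).comp (expandL L n (dvd_level (q := q) hn)) =
      ((ModularCurve.qExpand ℚbar n).comp (coeffMap (τ : ℚbar →+* ℚbar))).comp (c.X L i).e := by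
    refine full_hom_ext (fun a => ?_) (fun d hmem _ hd => ?_)
    · rw [RingHom.comp_apply, RingHom.comp_apply, RingHom.comp_apply, expandL_const hn, e_const,
        e_const, coeffMap_algebraMap', qExpand_const]
      congr 1
      exact (fixed_algebraMap a hτ).symm
    · have hd' : n * d ∣ N' * q * q := by
        refine dvd_trans ?_ (dvd_level (q := q) hn)
        rw [mul_comm n d]
        exact Nat.mul_dvd_mul_right hd n
      have h1 := hj d hd hd'
      rw [RingHom.comp_apply, RingHom.comp_apply, RingHom.comp_apply]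
      have h2 : (⟨jt 1 d, hmem⟩ : modularFunctionFieldFullC L (N * q * q)) = jL L hd := rfl
      rw [h2, expandL_jL L hn hd hd']
      exact h1
  exact congrArg (fun g => g z) key

theorem dvd_of_mul {n d : ℕ} (hn : N * n ∣ N') (hd : d ∣ N) : n * d ∣ N' := by
  refine dvd_trans ?_ hn
  rw [mul_comm n d]
  exact Nat.mul_dvd_mul_right hd n

theorem e0_jL {N₀ : ℕ} [NeZero N₀]
      {v₁ : laurentBaseChange ℚbar (modularFunctionFieldFull (N₀ * q)) ≃ₐ[ℚbar]
      laurentBaseChange ℚbar (modularFunctionFieldFull (N₀ * q))}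
      {v₂ : laurentBaseChange ℚbar (modularFunctionFieldFull (N₀ * q * q)) ≃ₐ[ℚbar]
      laurentBaseChange ℚbar (modularFunctionFieldFull (N₀ * q * q))}
      (c₀ : Ctx π v₁ v₂) {d : ℕ} (hd : d ∣ N₀ * q * q) :
    (c₀.X L 0).e (jL L hd) = jt 1 d := by
  change (inc L _ (jL L hd) : LaurentSeries ℚbar) = _
  rw [inc_jL]
  rfl

theorem e1_jL_low {N₀ : ℕ} [NeZero N₀]
      {v₁ : laurentBaseChange ℚbar (modularFunctionFieldFull (N₀ * q)) ≃ₐ[ℚbar]
      laurentBaseChange ℚbar (modularFunctionFieldFull (N₀ * q))}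
      {v₂ : laurentBaseChange ℚbar (modularFunctionFieldFull (N₀ * q * q)) ≃ₐ[ℚbar]
      laurentBaseChange ℚbar (modularFunctionFieldFull (N₀ * q * q))}
      (c₀ : Ctx π v₁ v₂) {d : ℕ} (h : d ∣ N₀ * q) (hd : d ∣ N₀ * q * q) :
    (c₀.X L 1).e (jL L hd) = jt 1 d := by
  change c₀.ι (inc L _ (jL L hd)) = _
  rw [inc_jL]
  exact mid_low c₀.mid h

theorem e1_jL_high {N₀ : ℕ} [NeZero N₀]
      {v₁ : laurentBaseChange ℚbar (modularFunctionFieldFull (N₀ * q)) ≃ₐ[ℚbar]
      laurentBaseChange ℚbar (modularFunctionFieldFull (N₀ * q))}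
      {v₂ : laurentBaseChange ℚbar (modularFunctionFieldFull (N₀ * q * q)) ≃ₐ[ℚbar]
      laurentBaseChange ℚbar (modularFunctionFieldFull (N₀ * q * q))}
      (c₀ : Ctx π v₁ v₂) {d : ℕ} (h : d ∣ N₀) (hd : q * (q * d) ∣ N₀ * q * q) :
    (c₀.X L 1).e (jL L hd) = jt (c₀.ζ ^ d) d := by
  change c₀.ι (inc L _ (jL L hd)) = _
  rw [inc_jL]
  exact mid_high c₀.S.al c₀.mid h

theorem e2_jL_low {N₀ : ℕ} [NeZero N₀]
      {v₁ : laurentBaseChange ℚbar (modularFunctionFieldFull (N₀ * q)) ≃ₐ[ℚbar]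
      laurentBaseChange ℚbar (modularFunctionFieldFull (N₀ * q))}
      {v₂ : laurentBaseChange ℚbar (modularFunctionFieldFull (N₀ * q * q)) ≃ₐ[ℚbar]
      laurentBaseChange ℚbar (modularFunctionFieldFull (N₀ * q * q))}
      (c₀ : Ctx π v₁ v₂) {d : ℕ} (h : d ∣ N₀) (hd : d ∣ N₀ * q * q) :
    (c₀.X L 2).e (jL L hd) = jt 1 (q * (q * d)) := by
  change (v₂ (inc L _ (jL L hd)) : LaurentSeries ℚbar) = _
  rw [inc_jL, w₂_low c₀.S.al c₀.al2 h]
  rfl

theorem e2_jL_mid {N₀ : ℕ} [NeZero N₀]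
      {v₁ : laurentBaseChange ℚbar (modularFunctionFieldFull (N₀ * q)) ≃ₐ[ℚbar]
      laurentBaseChange ℚbar (modularFunctionFieldFull (N₀ * q))}
      {v₂ : laurentBaseChange ℚbar (modularFunctionFieldFull (N₀ * q * q)) ≃ₐ[ℚbar]
      laurentBaseChange ℚbar (modularFunctionFieldFull (N₀ * q * q))}
      (c₀ : Ctx π v₁ v₂) {d : ℕ} (h : d ∣ N₀) (hd : q * d ∣ N₀ * q * q) :
    (c₀.X L 2).e (jL L hd) = jt 1 (q * d) := by
  change (v₂ (inc L _ (jL L hd)) : LaurentSeries ℚbar) = _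
  rw [inc_jL, w₂_mid c₀.S.al c₀.al2 h]
  rfl

theorem e2_jL_high {N₀ : ℕ} [NeZero N₀]
      {v₁ : laurentBaseChange ℚbar (modularFunctionFieldFull (N₀ * q)) ≃ₐ[ℚbar]
      laurentBaseChange ℚbar (modularFunctionFieldFull (N₀ * q))}
      {v₂ : laurentBaseChange ℚbar (modularFunctionFieldFull (N₀ * q * q)) ≃ₐ[ℚbar]
      laurentBaseChange ℚbar (modularFunctionFieldFull (N₀ * q * q))}
      (c₀ : Ctx π v₁ v₂) {d : ℕ} (h : d ∣ N₀) (hd : q * (q * d) ∣ N₀ * q * q) :
    (c₀.X L 2).e (jL L hd) = jt 1 d := by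
  change (v₂ (inc L _ (jL L hd)) : LaurentSeries ℚbar) = _
  rw [inc_jL, w₂_high c₀.S.al c₀.al2 h]
  rfl

theorem embed_compat0 {n : ℕ} [NeZero n] (hn : N * n ∣ N') :
    ∃ τ : ℚbar ≃ₐ[ℚ] ℚbar, τ ∈ A.inertiaSubgroupIn ℚ ∧
      ∀ z : modularFunctionFieldFullC L (N * q * q),
        (c'.X L 0).e (expandL L n (dvd_level (q := q) hn) z) =
          ModularCurve.qExpand ℚbar n (coeffMap (τ : ℚbar →+* ℚbar) ((c.X L 0).e z)) := by
  refine ⟨1, one_mem _, embed_ext c c' (i := 0) hn (one_mem _) fun d hd hd' => ?_⟩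
  rw [e0_jL c' hd', e0_jL c hd, coeffMap_jt_one, qExpand_jt]

theorem embed_compat2 {n : ℕ} [NeZero n] (hn : N * n ∣ N') :
    ∃ τ : ℚbar ≃ₐ[ℚ] ℚbar, τ ∈ A.inertiaSubgroupIn ℚ ∧
      ∀ z : modularFunctionFieldFullC L (N * q * q),
        (c'.X L 2).e (expandL L n (dvd_level (q := q) hn) z) =
          ModularCurve.qExpand ℚbar n (coeffMap (τ : ℚbar →+* ℚbar) ((c.X L 2).e z)) := by
  refine ⟨1, one_mem _, embed_ext c c' (i := 2) hn (one_mem _) fun d hd hd' => ?_⟩
  rcases dvd_cases hq.out hd with h1 | ⟨d₁, h1, rfl⟩ | ⟨d₁, h1, rfl⟩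
  · rw [e2_jL_low c' (dvd_of_mul hn h1) hd', e2_jL_low c h1 hd, coeffMap_jt_one, qExpand_jt]
    congr 1
    ring
  · have h3 : n * (q * d₁) = q * (n * d₁) := by ring
    have h4 : ∀ (m : ℕ) (hm : m ∣ N' * q * q) (_ : m = q * (n * d₁)),
        (c'.X L 2).e (jL L hm) = jt 1 m := by
      rintro m hm rfl
      exact e2_jL_mid c' (dvd_of_mul hn h1) hm
    rw [h4 _ hd' h3, e2_jL_mid c h1 hd, coeffMap_jt_one, qExpand_jt]
  · have h3 : n * (q * (q * d₁)) = q * (q * (n * d₁)) := by ring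
    have h4 : ∀ (m : ℕ) (hm : m ∣ N' * q * q) (_ : m = q * (q * (n * d₁))),
        (c'.X L 2).e (jL L hm) = jt 1 (n * d₁) := by
      rintro m hm rfl
      exact e2_jL_high c' (dvd_of_mul hn h1) hm
    rw [h4 _ hd' h3, e2_jL_high c h1 hd, coeffMap_jt_one, qExpand_jt]

theorem embed_compat1 {n : ℕ} [NeZero n] (hn : N * n ∣ N') :
    ∃ τ : ℚbar ≃ₐ[ℚ] ℚbar, τ ∈ A.inertiaSubgroupIn ℚ ∧
      ∀ z : modularFunctionFieldFullC L (N * q * q),
        (c'.X L 1).e (expandL L n (dvd_level (q := q) hn) z) =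
          ModularCurve.qExpand ℚbar n (coeffMap (τ : ℚbar →+* ℚbar) ((c.X L 1).e z)) := by
  -- choose `τ` with `τ ζ = ζ' ^ n`
  have hqn : ¬ q ∣ n := fun h => c'.hqN (h.trans ((dvd_mul_left n N).trans hn))
  obtain ⟨i₀, -, hi₀⟩ := c.hζ.eq_pow_of_pow_eq_one (ξ := (c'.ζ : ℚbar) ^ n) (by
    rw [← pow_mul, mul_comm, pow_mul, c'.hζ.pow_eq_one, one_pow])
  have hqi : ¬ q ∣ i₀ := by
    intro hd
    have h1 : (c'.ζ : ℚbar) ^ n = 1 := by
      rw [← hi₀, (c.hζ.pow_eq_one_iff_dvd _).mpr hd]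
    exact hqn ((c'.hζ.pow_eq_one_iff_dvd _).mp h1)
  obtain ⟨τ, hτ, hτζ⟩ := Cyclo.exists_inertia_zeta c.hA c.hζ hqi
  refine ⟨τ, hτ, embed_ext c c' (i := 1) hn hτ fun d hd hd' => ?_⟩
  have hz : Units.map ((τ : ℚbar →+* ℚbar) : ℚbar →* ℚbar) c.ζ = c'.ζ ^ n :=
    Units.ext (by rw [Units.val_pow_eq_pow_val, ← hi₀]; exact hτζ)
  rcases dvd_cases hq.out hd with h1 | ⟨d₁, h1, rfl⟩ | ⟨d₁, h1, rfl⟩
  · rw [e1_jL_low c' ((dvd_of_mul hn h1).mul_right q) hd', e1_jL_low c (h1.mul_right q) hd,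
      coeffMap_jt_one, qExpand_jt]
  · have h2 : n * (q * d₁) ∣ N' * q := by
      have h3 : n * (q * d₁) = q * (n * d₁) := by ring
      rw [h3]
      exact dvd_mid (dvd_of_mul hn h1)
    rw [e1_jL_low c' h2 hd', e1_jL_low c (dvd_mid h1) hd, coeffMap_jt_one, qExpand_jt]
  · have h3 : n * (q * (q * d₁)) = q * (q * (n * d₁)) := by ring
    have h4 : ∀ (m : ℕ) (hm : m ∣ N' * q * q) (_ : m = q * (q * (n * d₁))),
        (c'.X L 1).e (jL L hm) = jt (c'.ζ ^ (n * d₁)) (n * d₁) := by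
      rintro m hm rfl
      exact e1_jL_high c' (dvd_of_mul hn h1) hm
    rw [h4 _ hd' h3, e1_jL_high c h1 hd, coeffMap_jt, map_pow, hz, qExpand_jt, pow_mul]

/-- The embeddings at the two levels agree up to inertia. -/
theorem exists_embed_compat (i : Fin 3) {n : ℕ} [NeZero n] (hn : N * n ∣ N') :
    ∃ τ : ℚbar ≃ₐ[ℚ] ℚbar, τ ∈ A.inertiaSubgroupIn ℚ ∧
      ∀ z : modularFunctionFieldFullC L (N * q * q),
        (c'.X L i).e (expandL L n (dvd_level (q := q) hn) z) =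
          ModularCurve.qExpand ℚbar n (coeffMap (τ : ℚbar →+* ℚbar) ((c.X L i).e z)) := by
  fin_cases i
  · exact embed_compat0 c c' hn
  · exact embed_compat1 c c' hn
  · exact embed_compat2 c c' hn

theorem g0 : (c.X L 0).g = A.valuation (q : ℚbar) := rfl

theorem g1 : (c.X L 1).g = A.valuation ((c.ζ : ℚbar) - 1) := rfl

theorem g2 : (c.X L 2).g = A.valuation (q : ℚbar) := rfl

theorem g_eq1 : (c'.X L 1).g = (c.X L 1).g := by
  rw [g1, g1]
  obtain ⟨i₀, -, hi₀⟩ := c.hζ.eq_pow_of_pow_eq_one (ξ := (c'.ζ : ℚbar)) c'.hζ.pow_eq_one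
  rw [← hi₀]
  refine Cyclo.val_pow_sub c.hζ fun hd => ?_
  apply c'.hζ.ne_one hq.out.one_lt
  rw [← hi₀, (c.hζ.pow_eq_one_iff_dvd _).mpr hd]

theorem g_eq (i : Fin 3) : (c'.X L i).g = (c.X L i).g := by
  fin_cases i
  · exact (g0 c').trans (g0 c).symm
  · exact g_eq1 c c'
  · exact (g2 c').trans (g2 c).symm

/-- **Compatibility of the valuations.** -/
theorem w_expand (i : Fin 3) {n : ℕ} [NeZero n] (hn : N * n ∣ N')
    (z : modularFunctionFieldFullC L (N * q * q)) :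
    (c'.V L).w i (expandL L n (dvd_level (q := q) hn) z) = (c.V L).w i z := by
  by_cases hz : z = 0
  · subst hz
    rw [map_zero]
    change ((c'.X L i).ordT 0).untopD 0 = ((c.X L i).ordT 0).untopD 0
    rw [AddValuation.map_zero, AddValuation.map_zero]
  obtain ⟨τ, hτ, h⟩ := exists_embed_compat c c' (L := L) i hn
  have h1 := EmbV.V_transfer (c.X L i) (c'.X L i) (Cyclo.isInert c.S.surj hτ)
    (fun x => Cyclo.val_eq_of_inertia hτ x) n (h z)
  have hz' : expandL L n (dvd_level (q := q) hn) z ≠ 0 := (_root_.map_ne_zero _).mpr hz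
  change (c'.X L i).ord _ = (c.X L i).ord z
  rw [EmbV.ord_eq_iff _ hz', h1, g_eq c c', ← EmbV.V_eq _ hz]

/-- **Compatibility of the residues.** -/
theorem res_expand (i : Fin 3) {n : ℕ} [NeZero n] (hn : N * n ∣ N')
    {z : modularFunctionFieldFullC L (N * q * q)} {u : modularFunctionFieldFullC k N}
    (h : (c.V L).Res i z u) :
    (c'.V L).Res i (expandL L n (dvd_level (q := q) hn) z) (expandL k n hn u) := by
  obtain ⟨τ, hτ, h'⟩ := exists_embed_compat c c' (L := L) i hn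
  exact EmbV.Res_transfer (c.X L i) (c'.X L i) (Cyclo.isInert c.S.surj hτ) n (h' z) rfl h

end Ctx

end Ctx

end Fermat.Agent.Q2
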