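import Mathlib
import Fermat.Agent.Q2.W2Compat

set_option autoImplicit false
set_option linter.unusedSectionVars false

/-!
# Compatibility of the three valuations with `α_ℓ, β_ℓ : F_{Nq²} → F_{Nq²ℓ}`
-/

noncomputable section

namespace Fermat.Agent.Q2

open AlgebraicCurve ModularCurve Polynomial
open Fermat.Agent.S28 Fermat.Agent.JRED Fermat.Agent.Jan.HeckeInputs
open Fermat.Agent.DR.S36 Fermat.Agent.DR.S36.L
open Fermat.Agent.DR.Mod (IsAL Setup R1L redOne redTwo PhiFull coe_PhiFull)
open Fermat.Agent.JRED.ES (inclL inclL_apply)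
open Fermat.Agent.JRED.AL (alphaC betaC coe_alphaC coe_betaC)

local notation "ℚbar" => AlgebraicClosure ℚ

section Ctx

variable {A : ValuationSubring ℚbar} {k : Type} [Field k] {π : A →+* k}
  {N q ℓ : ℕ} [NeZero N] [NeZero q] [NeZero ℓ] [hq : Fact q.Prime] [hchar : CharP k q]
  {w₁ : laurentBaseChange ℚbar (modularFunctionFieldFull (N * q)) ≃ₐ[ℚbar]
      laurentBaseChange ℚbar (modularFunctionFieldFull (N * q))}
  {w₂ : laurentBaseChange ℚbar (modularFunctionFieldFull (N * q * q)) ≃ₐ[ℚbar]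
      laurentBaseChange ℚbar (modularFunctionFieldFull (N * q * q))}
  {w₁' : laurentBaseChange ℚbar (modularFunctionFieldFull (N * ℓ * q)) ≃ₐ[ℚbar]
      laurentBaseChange ℚbar (modularFunctionFieldFull (N * ℓ * q))}
  {w₂' : laurentBaseChange ℚbar (modularFunctionFieldFull (N * ℓ * q * q)) ≃ₐ[ℚbar]
      laurentBaseChange ℚbar (modularFunctionFieldFull (N * ℓ * q * q))}

theorem level_eq (N q ℓ : ℕ) : N * q * q * ℓ = N * ℓ * q * q := by ring

/-- equality of levels -/
def castLevel (L : Type) [Field L] {M M' : ℕ} (h : M = M') :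
    modularFunctionFieldFullC L M ≃ₐ[L] modularFunctionFieldFullC L M' :=
  IntermediateField.equivOfEq (congrArg (modularFunctionFieldFullC L) h)

theorem coe_castLevel {L : Type} [Field L] {M M' : ℕ} (h : M = M')
    (x : modularFunctionFieldFullC L M) : (castLevel L h x : LaurentSeries L) = x := by
  subst h
  rfl

theorem emb_injective {L : Type} [Field L] [Algebra L ℚbar] {x y : LaurentSeries L}
    (h : coeffMap (algebraMap L ℚbar) x = coeffMap (algebraMap L ℚbar) y) : x = y :=
  JRED.coeffMap_injective (algebraMap L ℚbar).injective h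

theorem coe_of_inc_alpha {L : Type} [Field L] [Algebra L ℚbar] {M : ℕ} [NeZero M]
    {f : modularFunctionFieldFullC L M} {z : modularFunctionFieldFullC L (M * ℓ)}
    (hz : inc L (M * ℓ) z = heckeAlphaBar ℚbar M ℓ (inc L M f)) :
    (z : LaurentSeries L) = (f : LaurentSeries L) := by
  apply emb_injective
  have h1 := congrArg Subtype.val hz
  rw [coe_heckeAlphaBar] at h1
  exact h1

theorem coe_of_inc_beta {L : Type} [Field L] [Algebra L ℚbar] {M : ℕ} [NeZero M]
    {f : modularFunctionFieldFullC L M} {z : modularFunctionFieldFullC L (M * ℓ)}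
    (hz : inc L (M * ℓ) z = heckeBetaBar ℚbar M ℓ (inc L M f)) :
    (z : LaurentSeries L) = ModularCurve.qExpand L ℓ (f : LaurentSeries L) := by
  apply emb_injective
  have h1 := congrArg Subtype.val hz
  rw [coe_heckeBetaBar] at h1
  rw [coeffMap_qExpand]
  exact h1

namespace Ctx

variable (c : Ctx π w₁ w₂) (c' : Ctx π w₁' w₂') {L : Type} [Field L] [Algebra L ℚbar]
  [IsInertiaField A L] (i : Fin 3)
  {f : modularFunctionFieldFullC L (N * q * q)} {z : modularFunctionFieldFullC L (N * q * q * ℓ)}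
  {u : modularFunctionFieldFullC k N}

theorem dvd_one : N * 1 ∣ N * ℓ := by rw [mul_one]; exact dvd_mul_right N ℓ

theorem cast_alpha (hz : inc L _ z = heckeAlphaBar ℚbar (N * q * q) ℓ (inc L _ f)) :
    castLevel L (level_eq N q ℓ) z = expandL L 1 (dvd_level (q := q) dvd_one) f :=
  Subtype.ext (by rw [coe_castLevel, coe_expandL, coe_of_inc_alpha hz, qExpand_one_apply])

theorem cast_beta (hz : inc L _ z = heckeBetaBar ℚbar (N * q * q) ℓ (inc L _ f)) :
    castLevel L (level_eq N q ℓ) z = expandL L ℓ (dvd_level (q := q) (dvd_refl (N * ℓ))) f :=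
  Subtype.ext (by rw [coe_castLevel, coe_expandL, coe_of_inc_beta hz])

/-- `w_i (α_ℓ f) = w_i f` -/
theorem w_alpha (hz : inc L _ z = heckeAlphaBar ℚbar (N * q * q) ℓ (inc L _ f)) :
    (c'.V L).w i (castLevel L (level_eq N q ℓ) z) = (c.V L).w i f := by
  rw [cast_alpha hz]
  exact w_expand c c' i dvd_one f

/-- `w_i (β_ℓ f) = w_i f` -/
theorem w_beta (hz : inc L _ z = heckeBetaBar ℚbar (N * q * q) ℓ (inc L _ f)) :
    (c'.V L).w i (castLevel L (level_eq N q ℓ) z) = (c.V L).w i f := by
  rw [cast_beta hz]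
  exact w_expand c c' i (dvd_refl (N * ℓ)) f

/-- `Res_i (α_ℓ f) = α_ℓ (Res_i f)` -/
theorem res_alpha (hz : inc L _ z = heckeAlphaBar ℚbar (N * q * q) ℓ (inc L _ f))
    (h : (c.V L).Res i f u) :
    (c'.V L).Res i (castLevel L (level_eq N q ℓ) z) (alphaC k N ℓ u) := by
  rw [cast_alpha hz]
  have h1 := res_expand c c' (L := L) i dvd_one h
  have h2 : expandL k 1 dvd_one u = alphaC k N ℓ u :=
    Subtype.ext (by rw [coe_expandL, coe_alphaC, qExpand_one_apply])
  rwa [h2] at h1

/-- `Res_i (β_ℓ f) = β_ℓ (Res_i f)` -/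
theorem res_beta (hz : inc L _ z = heckeBetaBar ℚbar (N * q * q) ℓ (inc L _ f))
    (h : (c.V L).Res i f u) :
    (c'.V L).Res i (castLevel L (level_eq N q ℓ) z) (betaC k N ℓ u) := by
  rw [cast_beta hz]
  exact res_expand c c' (L := L) i (dvd_refl (N * ℓ)) h

end Ctx

end Ctx

end Fermat.Agent.Q2
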