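import Mathlib
import Fermat.Agent.Q2.W2Deg
import Fermat.Agent.DR.S36.CompVal

set_option autoImplicit false
set_option linter.unusedSectionVars false

/-!
# The middle uniformiser `δ = h(t^{q²}) - h(t)` and `CompVal`
-/

noncomputable section

namespace Fermat.Agent.Q2

open AlgebraicCurve ModularCurve Polynomial
open Fermat.Agent.S28 Fermat.Agent.JRED Fermat.Agent.Jan.HeckeInputs
open Fermat.Agent.DR.S36 Fermat.Agent.DR.S36.L
open Fermat.Agent.DR.Mod (IsAL Setup R1L redOne redTwo PhiFull coe_PhiFull)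
open Fermat.Agent.JRED.ES (inclL inclL_apply)
open Fermat.Agent.FunField (thetaD thetaD_coeff)

local notation "ℚbar" => AlgebraicClosure ℚ

section Comp

variable {K k : Type*} [Field K] [Field k] {A : ValuationSubring K} {π : A →+* k}
  {hπ : Function.Surjective π} {FL : Type*} [Field FL]
  {κ : IntermediateField k (LaurentSeries k)}

theorem gred_pow {f : LaurentSeries K} {u : LaurentSeries k} (h : GRed π f u) (n : ℕ) :
    GRed π (f ^ n) (u ^ n) := by
  induction n with
  | zero => rw [pow_zero, pow_zero]; exact GRed.one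
  | succ n ih => rw [pow_succ, pow_succ]; exact ih.mul h

/-- helper3's `CompVal`. -/
def EmbV.compVal (X : EmbV hπ FL κ) : CompVal FL κ where
  v := X.ordT
  Res f u := X.Res f u
  res_one := X.res_one
  res_add h h' := EmbV.Res.add X h h'
  res_mul h h' := EmbV.Res.mul X h h'
  res_unique h h' := X.res_unique h h'
  exists_res h := X.ordT_nonneg_iff_res.mp h
  nonneg h := X.ordT_nonneg_iff_res.mpr ⟨_, h⟩
  res_zero_iff := X.res_zero_iff

theorem EmbV.compVal_w (X : EmbV hπ FL κ) (f : FL) : X.compVal.w f = X.ord f := rfl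

end Comp

section Ctx

variable {A : ValuationSubring ℚbar} {k : Type} [Field k] {π : A →+* k}
  {N q : ℕ} [NeZero N] [NeZero q] [hq : Fact q.Prime] [hchar : CharP k q]
  {w₁ : laurentBaseChange ℚbar (modularFunctionFieldFull (N * q)) ≃ₐ[ℚbar]
      laurentBaseChange ℚbar (modularFunctionFieldFull (N * q))}
  {w₂ : laurentBaseChange ℚbar (modularFunctionFieldFull (N * q * q)) ≃ₐ[ℚbar]
      laurentBaseChange ℚbar (modularFunctionFieldFull (N * q * q))}

namespace Ctx

variable (c : Ctx π w₁ w₂) {L : Type} [Field L] [Algebra L ℚbar] [IsInertiaField A L]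

variable (L) in
/-- the components -/
def comp (i : Fin 3) : CompVal (modularFunctionFieldFullC L (N * q * q))
    (modularFunctionFieldFullC k N) := (c.X L i).compVal

theorem comp_w (i : Fin 3) (f : modularFunctionFieldFullC L (N * q * q)) :
    (c.comp L i).w f = (c.V L).w i f := rfl

theorem comp_res (i : Fin 3) (f : modularFunctionFieldFullC L (N * q * q))
    (u : modularFunctionFieldFullC k N) : (c.comp L i).Res f u ↔ (c.V L).Res i f u := Iff.rfl

theorem mem_A_ζ : (c.ζ : ℚbar) ∈ A := Cyclo.zeta_mem (A := A) c.hζ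

theorem res_one_ζ : π ⟨(c.ζ : ℚbar), c.mem_A_ζ⟩ = 1 :=
  Cyclo.res_zeta c.hA c.hζ c.S.surj c.mem_A_ζ

theorem ζ_ne_one : (c.ζ : ℚbar) ≠ 1 := c.hζ.ne_one hq.out.one_lt

/-- `ι_ζ` of `h(t^{q²}) - h(t)` -/
theorem mid_delta (h : laurentBaseChange ℚbar (modularFunctionFieldFull N)) :
    c.ι (heckeBetaBar ℚbar (N * q) q (heckeBetaBar ℚbar N q h) -
      heckeAlphaBar ℚbar (N * q) q (heckeAlphaBar ℚbar N q h)) =
      twist c.ζ (h : LaurentSeries ℚbar) - (h : LaurentSeries ℚbar) := by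
  rw [map_sub, c.mid.beta, c.mid.alpha, c.S.al.beta, coe_heckeAlphaBar]

/-- The residue of `δ^{q-1}/q` at the middle component, `δ = h(t^{q²}) - h(t)`. -/
theorem gred_delta {h : laurentBaseChange ℚbar (modularFunctionFieldFull N)}
    {v : LaurentSeries k} (hv : GRed π (h : LaurentSeries ℚbar) v)
    {δ : modularFunctionFieldFullC L (N * q * q)}
    (hδ : inc L _ δ = heckeBetaBar ℚbar (N * q) q (heckeBetaBar ℚbar N q h) -
      heckeAlphaBar ℚbar (N * q) q (heckeAlphaBar ℚbar N q h)) :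
    GRed π ((c.X L 1).e (δ ^ (q - 1) / (q : modularFunctionFieldFullC L (N * q * q))))
      (-(thetaD k v) ^ (q - 1)) := by
  have h1 := GRed.diff c.S.surj hv c.ζ_ne_one c.res_one_ζ
  have h2 : (c.X L 1).e δ = twist c.ζ (h : LaurentSeries ℚbar) - (h : LaurentSeries ℚbar) := by
    rw [← c.mid_delta, ← hδ]
    rfl
  obtain ⟨hm, hr⟩ := Cyclo.res_pow_div c.hA c.hζ c.S.surj
  have h3 := GRed.const (π := π) ⟨_, hm⟩
  rw [hr] at h3
  have h4 := h3.mul (gred_pow h1 (q - 1))
  have h5 : algebraMap k (LaurentSeries k) (-1) * thetaD k v ^ (q - 1) =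
      -(thetaD k v) ^ (q - 1) := by
    rw [map_neg, map_one]
    ring
  rw [h5] at h4
  have hζ0 : ((c.ζ : ℚbar) - 1) ≠ 0 := sub_ne_zero.mpr c.ζ_ne_one
  have h6 : (c.X L 1).e (δ ^ (q - 1) / (q : modularFunctionFieldFullC L (N * q * q))) =
      algebraMap ℚbar (LaurentSeries ℚbar) ((c.ζ - 1) ^ (q - 1) / (q : ℚbar)) *
        (algebraMap ℚbar (LaurentSeries ℚbar) ((c.ζ : ℚbar) - 1)⁻¹ *
          (twist c.ζ (h : LaurentSeries ℚbar) - (h : LaurentSeries ℚbar))) ^ (q - 1) := by
    have h7 : algebraMap ℚbar (LaurentSeries ℚbar) ((c.ζ : ℚbar) - 1) ≠ 0 :=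
      (_root_.map_ne_zero _).mpr hζ0
    rw [map_div₀, map_pow, h2, map_natCast, map_div₀, map_pow, map_natCast, map_inv₀, mul_pow,
      inv_pow]
    field_simp
  rw [h6]
  exact h4

/-- The value of `δ` at the middle component. -/
theorem ord_delta {h : laurentBaseChange ℚbar (modularFunctionFieldFull N)}
    {v : LaurentSeries k} (hv : GRed π (h : LaurentSeries ℚbar) v) (hθ : thetaD k v ≠ 0)
    {δ : modularFunctionFieldFullC L (N * q * q)}
    (hδ : inc L _ δ = heckeBetaBar ℚbar (N * q) q (heckeBetaBar ℚbar N q h) -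
      heckeAlphaBar ℚbar (N * q) q (heckeAlphaBar ℚbar N q h)) :
    δ ≠ 0 ∧ (c.X L 1).ord δ = 1 := by
  have h1 := GRed.diff c.S.surj hv c.ζ_ne_one c.res_one_ζ
  have h2 : (c.X L 1).e δ = twist c.ζ (h : LaurentSeries ℚbar) - (h : LaurentSeries ℚbar) := by
    rw [← c.mid_delta, ← hδ]
    rfl
  have hζ0 : ((c.ζ : ℚbar) - 1) ≠ 0 := sub_ne_zero.mpr c.ζ_ne_one
  have hδ0 : δ ≠ 0 := by
    rintro rfl
    rw [map_zero] at h2
    rw [← h2, mul_zero] at h1
    exact hθ (GRed.unique h1 GRed.zero)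
  refine ⟨hδ0, ?_⟩
  rw [← h2] at h1
  rw [EmbV.ord_eq_iff _ hδ0, zpow_one]
  have h3 := embVal_eq_of_red c.S.surj (c.X L 1).mem (inv_ne_zero hζ0) h1 hθ
  rw [map_inv₀, inv_inv] at h3
  exact h3

theorem thetaD_j_ne : thetaD k (jqModC k) ≠ 0 := by
  intro h
  have h1 : (thetaD k (jqModC k)).coeff (-1) = 0 := by rw [h]; rfl
  rw [thetaD_coeff, coeff_jqModC_neg_one] at h1
  simp at h1

/-- the middle uniformiser `j(t^{q²}) - j(t)` -/
theorem exists_unif1 : ∃ δ : modularFunctionFieldFullC L (N * q * q), δ ≠ 0 ∧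
    (c.X L 1).ord δ = 1 := by
  have hδ : inc L _ (jL L (dvd_top (N := N) (q := q) (one_dvd N)) -
      jL L (((one_dvd N).mul_right q).mul_right q)) =
      heckeBetaBar ℚbar (N * q) q (heckeBetaBar ℚbar N q (jg ℚbar N (one_dvd N))) -
      heckeAlphaBar ℚbar (N * q) q (heckeAlphaBar ℚbar N q (jg ℚbar N (one_dvd N))) := by
    rw [map_sub, inc_jL, inc_jL, beta_jg, alpha_jg, beta_jg, alpha_jg]
  refine ⟨_, c.ord_delta (v := jqModC k) ?_ thetaD_j_ne hδ⟩
  rw [coe_jg, jt_one_one]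
  exact gred_jqModC

variable (N q) in
/-- multiplicities of the components -/
def mult : Fin 3 → ℕ := ![1, q - 1, 1]

theorem mult_pos (i : Fin 3) : 0 < mult q i := by
  have := hq.out.one_lt
  fin_cases i
  · exact one_pos
  · change 0 < q - 1
    omega
  · exact one_pos

theorem comp_w_q (i : Fin 3) :
    (c.comp L i).w (q : modularFunctionFieldFullC L (N * q * q)) = mult q i := by
  fin_cases i
  · exact c.ord_q0
  · refine c.ord_q1.trans ?_
    change (q : ℤ) - 1 = ((q - 1 : ℕ) : ℤ)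
    have := hq.out.one_lt
    omega
  · exact c.ord_q2

theorem comp_unif (i : Fin 3) : ∃ s, (c.comp L i).w s = 1 := by
  fin_cases i
  · exact ⟨_, c.ord_q0⟩
  · obtain ⟨δ, -, h⟩ := c.exists_unif1 (L := L)
    exact ⟨δ, h⟩
  · exact ⟨_, c.ord_q2⟩

theorem comp_approx (u : Fin 3 → modularFunctionFieldFullC k N) :
    ∃ f : modularFunctionFieldFullC L (N * q * q), ∀ i, (c.comp L i).Res f (u i) := c.approx u

theorem comp_res_const (i : Fin 3) (a : A0 A L) :
    (c.comp L i).Res (algebraMap L _ (a : L)) (algebraMap k _ (π0 L π a)) := c.res_const i a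

end Ctx

end Ctx

end Fermat.Agent.Q2
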