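import Mathlib
import Fermat.Agent.Q2.OrdInst
import Fermat.Agent.Q2.W2Surf

/-!
# S36-E for `Q2.Ctx`: the fields `exists_δ`, `exists_δ_inf` of `Surf.Points`
-/

set_option autoImplicit false

noncomputable section

namespace Fermat.Agent.Q2.Ctx

open AlgebraicCurve ModularCurve Fermat.Agent.RR Fermat.Agent.JRED Fermat.Agent.DR
  Fermat.Agent.DR.S36 Fermat.Agent.DR.S36.L Fermat.Agent.S28 Fermat.Agent.FunField
  Fermat.Agent.Q2 Fermat.Agent.Q2.Ord Fermat.Agent.Jan.HeckeInputs

attribute [local instance 2000] algFull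

local notation "ℚbar" => AlgebraicClosure ℚ

set_option linter.unusedSectionVars false

variable {A : ValuationSubring ℚbar} {k : Type} [Field k] {π : A →+* k}
  {N q : ℕ} [NeZero N] [NeZero q] [hq : Fact q.Prime] [hchar : CharP k q]
  {w₁ : laurentBaseChange ℚbar (modularFunctionFieldFull (N * q)) ≃ₐ[ℚbar]
      laurentBaseChange ℚbar (modularFunctionFieldFull (N * q))}
  {w₂ : laurentBaseChange ℚbar (modularFunctionFieldFull (N * q * q)) ≃ₐ[ℚbar]
      laurentBaseChange ℚbar (modularFunctionFieldFull (N * q * q))}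
  (c : Ctx π w₁ w₂) {L : Type} [Field L] [Algebra L ℚbar] [IsInertiaField A L]

variable (L) in
/-- the three embeddings -/
def embs (i : Fin 3) : modularFunctionFieldFullC L (N * q * q) →+* LaurentSeries ℚbar :=
  (c.X L i).e

theorem embs_zero (f : modularFunctionFieldFullC L (N * q * q)) :
    c.embs L 0 f = coeffMap (algebraMap L ℚbar) (f : LaurentSeries L) := rfl

theorem embs_one (f : modularFunctionFieldFullC L (N * q * q)) :
    c.embs L 1 f = c.ι (inc L _ f) := rfl

theorem embs_two (f : modularFunctionFieldFullC L (N * q * q)) :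
    c.embs L 2 f = (w₂ (inc L _ f) : LaurentSeries ℚbar) := rfl

theorem jE₁_eq : jE₁ L N q = jL L (((one_dvd N).mul_right q).mul_right q) := rfl

theorem jE₂_eq : jE₂ L N q = jL L ((dvd_mid (one_dvd N)).mul_right q) := by
  apply Subtype.ext
  change jt (1 : Lˣ) q = jt 1 (q * 1)
  rw [mul_one]

theorem jE₃_eq : jE₃ L N q = jL L (dvd_top (one_dvd N)) := by
  apply Subtype.ext
  change jt (1 : Lˣ) (q * q) = jt 1 (q * (q * 1))
  rw [mul_one]

theorem embJ : EmbJ q (c.embs L) c.ζ (jE₁ L N q) (jE₂ L N q) (jE₃ L N q) where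
  a_coe := rfl
  b_coe := rfl
  c_coe := rfl
  a₀ := by rw [embs_zero, coe_jE₁', coeffMap_jt_one]
  c₀ := by rw [embs_zero, coe_jE₃', coeffMap_jt_one]
  a₁ := by rw [embs_one, jE₁_eq, inc_jL, mid_low c.mid ((one_dvd N).mul_right q)]
  b₁ := by rw [embs_one, jE₂_eq, inc_jL, mid_low c.mid (dvd_mid (one_dvd N)), mul_one]
  c₁ := by rw [embs_one, jE₃_eq, inc_jL, mid_high c.S.al c.mid (one_dvd N), twist_jt, mul_one]
  a₂ := by
    rw [embs_two, jE₁_eq, inc_jL, w₂_low c.S.al c.al2 (one_dvd N), coe_jg, mul_one]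
  c₂ := by rw [embs_two, jE₃_eq, inc_jL, w₂_high c.S.al c.al2 (one_dvd N), coe_jg]

variable {F : Type*} [Field F] [Algebra ℚbar F]
  [Algebra (modularFunctionFieldFullC L (N * q * q)) F]
  {A₀ : ValuationSubring L}
  (S : Surf L ℚbar (modularFunctionFieldFullC L (N * q * q)) F k
    (modularFunctionFieldFullC k N) A₀ q)
  (hV : ∀ i, S.V i = c.comp L i)

include hV in
theorem embRes : EmbRes S π (c.embs L) := by
  intro i f u' h
  refine ⟨⟨u', c.res_mem i f u' h⟩, rfl, ?_⟩
  rw [hV]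
  exact h

/-- `x = j(E₁) j(E₃)` -/
abbrev chartX (L : Type) [Field L] (N q : ℕ) [NeZero N] [NeZero q] :
    modularFunctionFieldFullC L (N * q * q) := jE₁ L N q * jE₃ L N q

theorem embs_one_alpha {x : laurentBaseChange ℚbar (modularFunctionFieldFull (N * q))}
    {f : modularFunctionFieldFullC L (N * q * q)}
    (h : coeffMap (algebraMap L ℚbar) (f : LaurentSeries L) = (x : LaurentSeries ℚbar)) :
    c.embs L 1 f = (x : LaurentSeries ℚbar) := by
  have h1 : inc L _ f = heckeAlphaBar ℚbar (N * q) q x := by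
    apply Subtype.ext
    rw [coe_inc, coe_heckeAlphaBar]
    exact h
  rw [embs_one, h1, c.mid.alpha]

theorem embs_one_beta {x : laurentBaseChange ℚbar (modularFunctionFieldFull N)}
    {f : modularFunctionFieldFullC L (N * q * q)}
    (h : coeffMap (algebraMap L ℚbar) (f : LaurentSeries L) =
      qExpand ℚbar (q * q) (x : LaurentSeries ℚbar)) :
    c.embs L 1 f = S28.twist c.ζ (x : LaurentSeries ℚbar) := by
  have h1 : inc L _ f = heckeBetaBar ℚbar (N * q) q (heckeBetaBar ℚbar N q x) := by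
    apply Subtype.ext
    rw [coe_inc, coe_heckeBetaBar, coe_heckeBetaBar, qExpand_qExpand]
    exact h
  rw [embs_one, h1, c.mid.beta, c.S.al.beta, coe_heckeAlphaBar]

include hV in
/-- **S36-E for `Ctx`: `Points.exists_δ`.** -/
theorem exists_delta (he : S.e 1 = q - 1) (h4 : q = 2 ∨ q = 3 ∨ 4 ∣ N)
    {R : Place k (modularFunctionFieldFullC k N)}
    (hy : jRed k N ∈ R.toValuationSubring) (hss : R.ord (ssj k q N) = 0)
    (hsep : SepAt S R (chartX L N q)) :
    ∃ δ : modularFunctionFieldFullC L (N * q * q), (S.V 1).w δ = 1 ∧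
      S.InLoc (chartX L N q) 1 R (δ ^ S.e 1 / q) ∧
      S.InLoc (chartX L N q) 1 R (q / δ ^ S.e 1) := by
  have : CharZero L := (algebraMap L ℚbar).charZero
  by_cases h3 : q = 2 ∨ q = 3
  · exact exists_delta_fin_j S c.embJ (c.embRes S hV) c.S.surj c.hA c.hζ he h3 hsep hss
  · push Not at h3
    have h4' : 4 ∣ N := by
      rcases h4 with h | h | h
      · exact absurd h h3.1
      · exact absurd h h3.2
      · exact h
    have hT : t4 L ∈ modularFunctionFieldFullC L (N * q * q) :=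
      t4_mem_full L ((h4'.mul_right q).mul_right q)
    have hTN : t4 L ∈ modularFunctionFieldFullC L N := t4_mem_full L h4'
    have hK : t4 ℚbar ∈ laurentBaseChange ℚbar (modularFunctionFieldFull (N * q)) :=
      (mem_bc_iff ℚbar).mpr (t4_mem_full ℚbar (h4'.mul_right q))
    have hKN : t4 ℚbar ∈ laurentBaseChange ℚbar (modularFunctionFieldFull N) :=
      (mem_bc_iff ℚbar).mpr (t4_mem_full ℚbar h4')
    exact exists_delta_fin_t4 S c.embJ (c.embRes S hV) c.S.surj c.hA c.hζ he h3.1 hsep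
      (Fermat.FF.ord_nonneg_of_mem R hy) hss (T := ⟨t4 L, hT⟩) (T' := topHom L N q ⟨t4 L, hTN⟩)
      rfl (coe_topHom _) (c.embs_one_alpha (x := ⟨t4 ℚbar, hK⟩) (coeffMap_t4 _))
      (c.embs_one_beta (x := ⟨t4 ℚbar, hKN⟩) (by
        rw [coe_topHom, coeffMap_qExpand]
        exact congrArg _ (coeffMap_t4 _)))

include hV in
/-- **S36-E for `Ctx`: `Points.exists_δ_inf`.** -/
theorem exists_delta_inf (he : S.e 1 = q - 1) {R : Place k (modularFunctionFieldFullC k N)}
    (hy : jRed k N ∉ R.toValuationSubring) :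
    ∃ δ : modularFunctionFieldFullC L (N * q * q), (S.V 1).w δ = 1 ∧
      S.InLoc (chartX L N q)⁻¹ 1 R (δ ^ S.e 1 / q) ∧
      S.InLoc (chartX L N q)⁻¹ 1 R (q / δ ^ S.e 1) := by
  have : CharZero L := (algebraMap L ℚbar).charZero
  refine Ord.exists_delta_inf S c.embJ (c.embRes S hV) c.S.surj c.hA c.hζ he ?_
  by_contra h
  exact hy ((Fermat.FF.mem_iff_ord R jRed_ne_zero).mpr (not_lt.mp h))

end Fermat.Agent.Q2.Ctx
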